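import Fermat.Agent.GaloisAttach.Supplied
import Fermat.Agent.GaloisImage.Rep
import Fermat.Agent.ECTorsion.GlobalTrace
import Fermat.Agent.Eigenforms.Lifting
import Fermat.Agent.MFIntegral.IntegralStructure
import Fermat.Agent.SemistableHecke.MazurInterface
import Fermat.Agent.Density.Chebotarev

/-!
# Torsion classes with the eigenvalues of a residually modular curve

If the curve `W` is residually modular of level `N`, the `p`-torsion of `J₀(N)` has a nonzero
class with the eigenvalues `a_ℓ(W)` (`exists_torsion_eigen`); on such classes every Galois element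
satisfies the characteristic polynomial of the `p`-torsion of `W` (`char_rel`).  Conversely
`residual_of_evalMod` gives residual modularity at a lower level.  Used by Mazur's principle.
-/

set_option autoImplicit false

noncomputable section

open Matrix CongruenceSubgroup ModularCurve FLTAgent.GaloisAttach FLTAgent.SemistableHecke
open ModularFormClass

namespace FLTAgent.SemistableFinals

open FLTAgent.Density (GalQ Qbar)

theorem exists_killed_by_prime {R J : Type*} [CommRing R] [AddCommGroup J] [Module R J]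
    (m : Ideal R) [m.IsPrime] {x : J} (hfin : (Set.range fun r : R => r • x).Finite)
    (hx : ∀ r : R, r • x = 0 → r ∈ m) : ∃ w : J, w ≠ 0 ∧ ∀ r ∈ m, r • w = 0 := by
  classical
  induction hn : hfin.toFinset.card using Nat.strong_induction_on generalizing x with
  | _ n ih =>
    by_cases hall : ∀ r ∈ m, ∃ s : R, s ∉ m ∧ s • r • x = 0
    · let T : Finset J := hfin.toFinset.filter fun y => ∃ r ∈ m, r • x = y
      choose s hs using hall
      have hT : ∀ y : T, ∃ t : R, t ∉ m ∧ t • (y : J) = 0 := fun ⟨y, hy⟩ => by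
        obtain ⟨-, r, hr, rfl⟩ := Finset.mem_filter.mp hy
        exact ⟨s r hr, hs r hr⟩
      choose t ht using hT
      have hprod : (∏ y, t y) ∉ m := fun h => by
        obtain ⟨y, -, hy⟩ := (Ideal.IsPrime.prod_mem_iff (p := m)).mp h
        exact (ht y).1 hy
      refine ⟨(∏ y, t y) • x, fun h => hprod (hx _ h), fun r hr => ?_⟩
      have hmem : r • x ∈ T := Finset.mem_filter.mpr ⟨hfin.mem_toFinset.mpr ⟨r, rfl⟩, r, hr, rfl⟩
      rw [smul_comm, ← Finset.prod_erase_mul _ t (Finset.mem_univ (⟨r • x, hmem⟩ : T)), mul_smul,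
        (ht _).2, smul_zero]
    · push Not at hall
      obtain ⟨r, hr, hrx⟩ := hall
      have hsub : (Set.range fun u : R => u • r • x) ⊆ Set.range fun u : R => u • x := by
        rintro _ ⟨u, rfl⟩; exact ⟨u * r, mul_smul u r x⟩
      have hfin' := hfin.subset hsub
      have hlt : hfin'.toFinset.card < n := by
        rw [← hn]
        refine Finset.card_lt_card ((Finset.ssubset_iff_of_subset ?_).mpr ⟨x, ?_, ?_⟩)
        · exact Set.Finite.toFinset_subset_toFinset.mpr hsub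
        · exact hfin.mem_toFinset.mpr ⟨1, one_smul R x⟩
        · rw [Set.Finite.mem_toFinset]
          rintro ⟨u, hu⟩
          have h1 : (1 - u * r) • x = 0 := by
            rw [sub_smul, one_smul, mul_smul, show u • r • x = x from hu, sub_self]
          refine m.ne_top_iff_one.mp (Ideal.IsPrime.ne_top ‹_›) ?_
          have := m.add_mem (hx _ h1) (m.mul_mem_left u hr)
          rwa [sub_add_cancel] at this
      exact ih _ hlt hfin' (fun u hu => by by_contra h; exact hrx u h hu) rfl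

/-- Residual modularity of level `M`, disregarding the primes in `T`. -/
def ResidualOutside (W : WeierstrassCurve ℤ) (p : ℕ) (T : Finset ℕ) (M : ℕ) : Prop :=
  ∃ (f : CuspForm (Gamma0 M) 2) (𝔪 : Ideal (integralClosure ℤ ℂ)),
    f.IsNormalizedEigenform ∧ 𝔪.IsMaximal ∧ (p : integralClosure ℤ ℂ) ∈ 𝔪 ∧
    ∀ ℓ : ℕ, ℓ.Prime → ℓ ∉ T → W.IsGoodPrimeFor ℓ → ¬ ℓ ∣ M → ℓ ≠ p →
      ∃ a : integralClosure ℤ ℂ, (a : ℂ) = qCoeff f ℓ ∧
        a - ((W.apOfModel ℓ : ℤ) : integralClosure ℤ ℂ) ∈ 𝔪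

theorem residualOutside_empty {W : WeierstrassCurve ℤ} {p M : ℕ} :
    ResidualOutside W p ∅ M ↔ W.IsResiduallyModularOfLevel p M := by
  simp [ResidualOutside, WeierstrassCurve.IsResiduallyModularOfLevel]

variable {p : ℕ} [Fact p.Prime]

theorem evalMod_X (a : ℕ → ℕ) {N : ℕ} {S : Set ℕ} (i : GoodPrime N S) :
    evalMod p a (MvPolynomial.X i) = (a (i.1 : ℕ) : ZMod p) := by
  simp [evalMod]

/-- A residually modular system occurs on the `p`-torsion of the Jacobian. -/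
theorem exists_torsion_eigen {N : ℕ} [NeZero N] {f : CuspForm (Gamma0 N) 2}
    (hf : f.IsNormalizedEigenform) {𝔪 : Ideal (integralClosure ℤ ℂ)} (hmax : 𝔪.IsMaximal)
    (hpm : (p : integralClosure ℤ ℂ) ∈ 𝔪) (S : Finset ℕ)
    (hS : ∀ r : ℕ, r.Prime → r ∣ N → r ∈ S) (a : ℕ → ℕ)
    (ha : ∀ ℓ : ℕ, ℓ.Prime → ℓ ∉ S → ∃ c : integralClosure ℤ ℂ, (c : ℂ) = qCoeff f ℓ ∧
      c - (a ℓ : integralClosure ℤ ℂ) ∈ 𝔪) :
    ∃ x : JZero N, x ≠ 0 ∧ p • x = 0 ∧
      ∀ (ℓ : ℕ) (hℓ : ℓ.Prime), ℓ ∉ S → heckeOperatorBar N ⟨ℓ, hℓ⟩ x = a ℓ • x := by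
  classical
  have hp : p.Prime := Fact.out
  let := heckeModuleBar N
  let : Module (GoodRing N (↑S : Set ℕ)) (JZero N) :=
    Module.compHom (JZero N) (goodIncl N (↑S : Set ℕ))
  have hJ := jacobianInputs N hp
  have hint := MFIntegral.hasIntegralStructure N 2
  let : Field (integralClosure ℤ ℂ ⧸ 𝔪) := Ideal.Quotient.field 𝔪
  have hch : CharP (integralClosure ℤ ℂ ⧸ 𝔪) p :=
    (CharP.charP_iff_prime_eq_zero hp).mpr (by
      rw [← map_natCast (Ideal.Quotient.mk 𝔪)]; exact Ideal.Quotient.eq_zero_iff_mem.mpr hpm)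
  let ι : ZMod p →+* integralClosure ℤ ℂ ⧸ 𝔪 := ZMod.castHom dvd_rfl _
  let χ : GoodRing N (↑S : Set ℕ) →+* integralClosure ℤ ℂ :=
    ((Eigenforms.eigenChar hf).comp (goodTheta N (↑S : Set ℕ))).codRestrict _
      fun r => Eigenforms.isIntegral_eigenChar hint hf _
  have hχ : ∀ r, Ideal.Quotient.mk 𝔪 (χ r) = ι (evalMod p a r) := by
    refine fun r => RingHom.congr_fun (f := (Ideal.Quotient.mk 𝔪).comp χ)
      (g := ι.comp (evalMod p a)) (MvPolynomial.ringHom_ext (fun n => ?_) fun i => ?_) r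
    · rw [show (MvPolynomial.C n : GoodRing N (↑S : Set ℕ)) = (n : GoodRing N (↑S : Set ℕ)) from
        map_intCast MvPolynomial.C n, map_intCast, map_intCast]
    · have hiS : (i.1 : ℕ) ∉ S := fun h => i.2.2 (Finset.mem_coe.mpr h)
      obtain ⟨c, hc, hcm⟩ := ha _ i.1.2 hiS
      have he : χ (MvPolynomial.X i) = c := Subtype.ext (by
        rw [hc, ← Eigenforms.eigenChar_T hf i.1.2 i.2.1 i.2.2 (S := (↑S : Set ℕ))]
        simp [χ, goodTheta])
      rw [RingHom.comp_apply, RingHom.comp_apply, he, evalMod_X, map_natCast ι,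
        Ideal.Quotient.mk_eq_mk_iff_sub_mem c ((a (i.1 : ℕ) : ℕ) : integralClosure ℤ ℂ) |>.mpr hcm,
        map_natCast]
  set m : Ideal (GoodRing N (↑S : Set ℕ)) := RingHom.ker (evalMod p a) with hm
  have : m.IsPrime := RingHom.ker_isPrime _
  obtain ⟨c, hc⟩ := exists_kill_bound hJ.kill (↑S : Set ℕ)
  have hfinT := hJ.finite_torsion (1 + c)
  -- some torsion class has annihilator inside the ideal of the system
  obtain ⟨x, hx, hann⟩ : ∃ x : JZero N, p ^ (1 + c) • x = 0 ∧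
      ∀ r : GoodRing N (↑S : Set ℕ), r • x = 0 → r ∈ m := by
    by_contra h
    push Not at h
    choose t ht using fun x : hfinT.toFinset => h x.1 (hfinT.mem_toFinset.mp x.2)
    obtain ⟨r', hr'⟩ := hc 1 (∏ x, t x) fun x hx => by
      show (∏ y, t y) • x = 0
      rw [← Finset.prod_erase_mul _ t
        (Finset.mem_univ (⟨x, hfinT.mem_toFinset.mpr hx⟩ : hfinT.toFinset)), mul_smul, (ht _).1,
        smul_zero]
    have h1 : χ (∏ x, t x) = p * χ r' := Subtype.ext (by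
      show Eigenforms.eigenChar hf (goodTheta N _ (∏ x, t x)) =
        ((p : integralClosure ℤ ℂ) : ℂ) * Eigenforms.eigenChar hf (goodTheta N _ r')
      rw [hr', pow_one, map_nsmul, nsmul_eq_mul]
      push_cast
      rfl)
    have h2 := hχ (∏ x, t x)
    rw [h1, map_mul, map_natCast, CharP.cast_eq_zero, zero_mul, eq_comm, map_eq_zero, map_prod,
      Finset.prod_eq_zero_iff] at h2
    obtain ⟨y, -, hy⟩ := h2
    exact (ht y).2 (RingHom.mem_ker.mpr hy)
  obtain ⟨w, hw, hwm⟩ := exists_killed_by_prime m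
    (hfinT.subset (by
      rintro _ ⟨r, rfl⟩
      show p ^ (1 + c) • r • x = 0
      rw [smul_comm, hx, smul_zero])) hann
  refine ⟨w, hw, ?_, fun ℓ hℓ hℓS => ?_⟩
  · have := hwm (p : GoodRing N (↑S : Set ℕ)) (by
      rw [hm, RingHom.mem_ker, map_natCast, ZMod.natCast_self])
    rwa [Nat.cast_smul_eq_nsmul] at this
  · let i : GoodPrime N (↑S : Set ℕ) :=
      ⟨⟨ℓ, hℓ⟩, fun hd => hℓS (hS ℓ hℓ hd), fun h => hℓS (Finset.mem_coe.mp h)⟩
    have h := hwm (MvPolynomial.X i - (a ℓ : GoodRing N (↑S : Set ℕ))) (by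
      rw [hm, RingHom.mem_ker, map_sub, evalMod_X, map_natCast, sub_self])
    rw [sub_smul, sub_eq_zero, Nat.cast_smul_eq_nsmul] at h
    rw [← h]
    show _ = goodIncl N _ (MvPolynomial.X i) • w
    rw [show goodIncl N (↑S : Set ℕ) (MvPolynomial.X i) = heckeGen i.1 by simp [goodIncl],
      heckeModuleBar_smul_def (HeckeJacobian.heckeOperatorsCommuteBar N), heckeEvalBar_heckeGen]

/-- A system killing the kernel to level `M` gives residual modularity of level `M`. -/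
theorem residual_of_evalMod {W : WeierstrassCurve ℤ} {T : Finset ℕ} {N M : ℕ} [NeZero N] [NeZero M]
    (h : M ∣ N)
    (S : Finset ℕ) (hS : ∀ r : ℕ, r.Prime → r ∣ N → r ∈ S)
    (hSgood : ∀ r ∈ S, r.Prime → r ∉ T → W.IsGoodPrimeFor r → ¬ r ∣ M → r = p) (a : ℕ → ℕ)
    (ha : ∀ ℓ : ℕ, ℓ.Prime → W.IsGoodPrimeFor ℓ → (a ℓ : ZMod p) = (W.apOfModel ℓ : ZMod p))
    (hker : ∀ r : GoodRing N (↑S : Set ℕ), lowerTheta N M h _ r = 0 → evalMod p a r = 0) :
    ResidualOutside W p T M := by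
  have hp : p.Prime := Fact.out
  have hsurj := lowerTheta_surjective h (S := (↑S : Set ℕ))
    fun q hq hd => Finset.mem_coe.mpr (hS q hq hd)
  have hle : RingHom.ker (lowerTheta N M h (↑S : Set ℕ)) ≤
      RingHom.ker (evalMod p a : GoodRing N (↑S : Set ℕ) →+* ZMod p) :=
    fun r hr => RingHom.mem_ker.mpr (hker r (RingHom.mem_ker.mp hr))
  let θ : CuspForm.heckeAlgebra M 2 (↑S : Set ℕ) →+* ZMod p :=
    (lowerTheta N M h _).liftOfSurjective hsurj ⟨evalMod p a, hle⟩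
  obtain ⟨f, hf, 𝔪, hmax, hpm, hcong, -⟩ :=
    Eigenforms.exists_eigenform_congruent (MFIntegral.hasIntegralStructure M 2) hp θ
  refine ⟨f, 𝔪, hf, hmax, hpm, fun ℓ hℓ hℓT hgood hℓM hℓp => ?_⟩
  have hℓS : ℓ ∉ S := fun hmem => hℓp (hSgood ℓ hmem hℓ hℓT hgood hℓM)
  let i : GoodPrime N (↑S : Set ℕ) :=
    ⟨⟨ℓ, hℓ⟩, fun hd => hℓS (hS ℓ hℓ hd), fun h' => hℓS (Finset.mem_coe.mp h')⟩
  obtain ⟨c, hc, hcm⟩ := hcong (lowerTheta N M h _ (MvPolynomial.X i)) (W.apOfModel ℓ) (by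
    rw [← ha ℓ hℓ hgood, ← evalMod_X (p := p) a i]
    exact RingHom.liftOfRightInverse_comp_apply _ _ _ _ _)
  refine ⟨c, ?_, hcm⟩
  rw [hc, lowerTheta_X]
  exact Eigenforms.eigenChar_T hf _ _ _

section Relation

variable {W : WeierstrassCurve ℤ} (b : Module.Basis (Fin 2) (ZMod p) (GaloisImage.Tors W p))

/-- The characteristic polynomial of the curve on the eigenclasses. -/
theorem char_rel (hΔ : W.Δ ≠ 0) {N : ℕ} [NeZero N] (S : Finset ℕ) (a : ℕ → ℕ)
    (hS : ∀ r : ℕ, r.Prime → r ∣ N * p → r ∈ S)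
    (hSbad : ∀ r : ℕ, r.Prime → (r : ℤ) ∣ W.Δ → r ∈ S)
    (ha : ∀ ℓ : ℕ, ℓ.Prime → W.IsGoodPrimeFor ℓ → (a ℓ : ZMod p) = (W.apOfModel ℓ : ZMod p))
    {x : JZero N} (hx : p • x = 0)
    (heig : ∀ (ℓ : ℕ) (hℓ : ℓ.Prime), ℓ ∉ S → heckeOperatorBar N ⟨ℓ, hℓ⟩ x = a ℓ • x)
    (g : GalQ) :
    g • g • x + (GaloisImage.matRep W p b g).det.val • x =
      (GaloisImage.matRep W p b g).trace.val • g • x := by
  classical
  have hp : p.Prime := Fact.out
  let := heckeModuleBar N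
  have hJ := jacobianInputs N hp
  have := hJ.smulComm
  obtain ⟨L₁, hfd₁, -, hL₁⟩ := exists_level (k := 1) (hJ.finite_torsion 1) hJ.stab hp.ne_zero
  obtain ⟨L₂, hfd₂, hL₂⟩ := (krullTopology_mem_nhds_one_iff ℚ Qbar _).mp
    ((GaloisImage.isOpen_of_matRep_ker_le b hΔ (H := (GaloisImage.matRep W p b).ker)
      fun g hg => MonoidHom.mem_ker.mpr hg).mem_nhds (one_mem _))
  have : FiniteDimensional ℚ L₂ := hfd₂
  have : FiniteDimensional ℚ L₁ := hfd₁
  have : FiniteDimensional ℚ (L₁ ⊔ L₂ : IntermediateField ℚ Qbar) :=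
    IntermediateField.finiteDimensional_sup _ _
  set L := IntermediateField.normalClosure ℚ (L₁ ⊔ L₂ : IntermediateField ℚ Qbar) Qbar
  have : Normal ℚ L := normalClosure.normal ℚ _ Qbar
  have : IsGalois ℚ L := ⟨⟩
  obtain ⟨ℓ, hℓ, hℓS, A, hA, -, σ, hσ, hgσ⟩ := FLTAgent.Density.exists_frobenius_agree L g S
  have hfix : ∀ y ∈ L, (σ⁻¹ * g) y = y := fun y hy => by
    rw [AlgEquiv.mul_apply, hgσ y hy, AlgEquiv.aut_inv, AlgEquiv.symm_apply_apply]
  have h₁ := (hL₁ (σ⁻¹ * g) fun y hy => hfix y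
    (IntermediateField.le_normalClosure _ (le_sup_left (a := L₁) (b := L₂) hy))).1
  have hker : GaloisImage.matRep W p b (σ⁻¹ * g) = 1 := MonoidHom.mem_ker.mp
    (hL₂ ((IntermediateField.mem_fixingSubgroup_iff _ _).mpr fun y hy => hfix y
      (IntermediateField.le_normalClosure _ (le_sup_right (a := L₁) (b := L₂) hy))))
  have hρ : GaloisImage.matRep W p b g = GaloisImage.matRep W p b σ := by
    rw [show g = σ * (σ⁻¹ * g) by group, map_mul, hker, mul_one]
  have hℓ' : ¬ ℓ ∣ N * p := fun hd => hℓS (hS ℓ hℓ hd)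
  have hgood : W.IsGoodPrimeFor ℓ := fun hd => hℓS (hSbad ℓ hℓ hd)
  have hℓp : ℓ ≠ p := fun h => hℓ' (h ▸ dvd_mul_left p N)
  obtain ⟨htr, hdet⟩ := ECTorsion.trace_det_frobeniusAt hℓ hgood hℓp hA hσ
  have htr' : (GaloisImage.matRep W p b g).trace = (a ℓ : ZMod p) := by
    rw [hρ, ha ℓ hℓ hgood, ← htr, WeierstrassCurve.Affine.Point.galoisTrace_def,
      LinearMap.trace_eq_matrix_trace (ZMod p) b]
    rfl
  have hdet' : (GaloisImage.matRep W p b g).det = (ℓ : ZMod p) := by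
    rw [hρ, ← hdet, ← LinearMap.det_toMatrix b]
    rfl
  have hmod : ∀ {y : JZero N}, p • y = 0 → ∀ n : ℕ, (n : ZMod p).val • y = n • y := fun hy n => by
    conv_rhs => rw [← Nat.mod_add_div n p, add_nsmul, mul_comm, mul_nsmul', hy, smul_zero, add_zero]
    rw [ZMod.val_natCast]
  have hgx : ∀ y : JZero N, p • y = 0 → g • y = σ • y := fun y hy => by
    conv_lhs => rw [show g = σ * (σ⁻¹ * g) by group, mul_smul, h₁ y (by rwa [pow_one])]
  have hz : ∀ (τ : GalQ) {y : JZero N}, p • y = 0 → p • (τ • y) = 0 := fun τ y hy => by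
    simpa only [pow_one] using pow_nsmul_smul_zero (p := p) (k := 1) τ (x := y) (by rwa [pow_one])
  have hgy := hz g hx
  let i : Nat.Primes := ⟨ℓ, hℓ⟩
  obtain ⟨J', _, _, sp, F, hsp, hrel⟩ := hJ.specialization ℓ hℓ hℓ' A hA
  have hT : heckeGen i • x = a ℓ • x := by
    rw [heckeModuleBar_smul_def (HeckeJacobian.heckeOperatorsCommuteBar N), heckeEvalBar_heckeGen]
    exact heig ℓ hℓ hℓS
  rw [htr', hdet', hgx _ hgy, hgx x hx, hmod hx ℓ, hmod (hz σ hx) (a ℓ), ← sub_eq_zero,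
    show a ℓ • σ • x = heckeGen i • σ • x by
      rw [← smul_comm σ (heckeGen i) x, hT, smul_comm]]
  refine hsp.injective_torsion _ ⟨1, ?_⟩ ?_
  · rw [pow_one, nsmul_sub, nsmul_add, hz σ (hz σ hx), smul_comm p ℓ x, hx,
      smul_comm p (heckeGen i), hz σ hx]
    simp
  · rw [map_sub, map_add, map_nsmul, hsp.hecke_comm, hsp.frobenius_comm σ hσ,
      hsp.frobenius_comm σ hσ, sub_eq_zero]
    have := hrel (sp x)
    rwa [sub_add_eq_add_sub, sub_eq_zero] at this

end Relation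

end FLTAgent.SemistableFinals
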