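import Mathlib.Algebra.MonoidAlgebra.Basic
import Mathlib.LinearAlgebra.Matrix.GeneralLinearGroup.Defs
import Mathlib.LinearAlgebra.Matrix.Trace
import Mathlib.LinearAlgebra.FiniteDimensional.Lemmas
import Fermat.Agent.SemistableHecke.LinearTwo

/-!
# Modules satisfying the characteristic polynomial of a two-dimensional representation

If `ρ : G → GL₂(k)` spans the matrix algebra and every `g` satisfies
`π g + det (ρ g) π g⁻¹ = tr (ρ g)` on a module, then the action factors through `ρ`
(`trace_rel_factor`) and is faithful on it (`trace_rel_faithful`).  Used on eigenclasses.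
-/

set_option autoImplicit false

noncomputable section

open Matrix MonoidAlgebra

namespace FLTAgent.SemistableFinals

variable {G : Type*} [Group G] {k : Type*} [Field k] {V : Type*} [AddCommGroup V] [Module k V]

theorem trace_rel_factor (h2 : (2 : k) ≠ 0) (ρ : G →* Matrix (Fin 2) (Fin 2) k)
    (π : G →* Module.End k V)
    (hspan : Function.Surjective (MonoidAlgebra.lift k (Matrix (Fin 2) (Fin 2) k) G ρ))
    (hrel : ∀ g, π g + (ρ g).det • π g⁻¹ = (ρ g).trace • 1) {X : MonoidAlgebra k G}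
    (hX : MonoidAlgebra.lift k (Matrix (Fin 2) (Fin 2) k) G ρ X = 0) :
    MonoidAlgebra.lift k (Module.End k V) G π X = 0 := by
  set r := MonoidAlgebra.lift k (Matrix (Fin 2) (Fin 2) k) G ρ with hr
  set a := MonoidAlgebra.lift k (Module.End k V) G π with ha
  -- the action of the adjugate
  let L : MonoidAlgebra k G → Module.End k V := fun Y => (r Y).trace • 1 - a Y
  have hLadd : ∀ Y Z, L (Y + Z) = L Y + L Z := fun Y Z => by
    simp only [L, map_add, Matrix.trace_add, add_smul]
    abel
  have hLsingle : ∀ (g : G) (c : k), L (single g c) = (c * (ρ g).det) • π g⁻¹ := fun g c => by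
    simp only [L, hr, ha, lift_single, Matrix.trace_smul, smul_eq_mul, mul_smul, ← smul_sub,
      ← hrel g, add_sub_cancel_left]
  have hL0 : L 0 = 0 := by simp [L]
  have hLmul : ∀ Y Z, L (Y * Z) = L Z * L Y := by
    intro Y Z
    induction Y using MonoidAlgebra.induction_linear with
    | zero => rw [zero_mul, hL0, mul_zero]
    | add Y₁ Y₂ h₁ h₂ => rw [add_mul, hLadd, hLadd, mul_add, h₁, h₂]
    | single g c =>
      induction Z using MonoidAlgebra.induction_linear with
      | zero => rw [mul_zero, hL0, zero_mul]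
      | add Z₁ Z₂ h₁ h₂ => rw [mul_add, hLadd, hLadd, add_mul, h₁, h₂]
      | single g' c' =>
        rw [single_mul_single, hLsingle, hLsingle, hLsingle, _root_.mul_inv_rev, map_mul, det_mul,
          map_mul, smul_mul_smul_comm]
        congr 1
        ring
  have hker : ∀ K, r K = 0 → L K = -a K := fun K hK => by
    simp only [L, hK, Matrix.trace_zero, zero_smul, zero_sub]
  -- kernel elements pass through by `L`
  have hcomm : ∀ K, r K = 0 → ∀ Y, a K * a Y = L Y * a K := fun K hK Y => by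
    have h0 : r (K * Y) = 0 := by rw [map_mul, hK, zero_mul]
    have h := hLmul K Y
    rw [hker _ h0, hker K hK, map_mul, mul_neg, neg_inj] at h
    exact h
  have hcom2 : ∀ K, r K = 0 → ∀ Y Z T, a K * a ((Y * Z - Z * Y) * T) = 0 := fun K hK Y Z T => by
    have h : a K * (a Y * a Z) = a K * (a Z * a Y) := by
      rw [← map_mul, hcomm K hK, hLmul, mul_assoc, ← hcomm K hK, ← mul_assoc, ← hcomm K hK,
        mul_assoc]
    rw [map_mul, map_sub, map_mul, map_mul, ← mul_assoc, mul_sub, h, sub_self, zero_mul]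
  -- an element over `1` killed by all kernel elements
  obtain ⟨Y, hY⟩ := hspan !![0, 1; 0, 0]
  obtain ⟨Z, hZ⟩ := hspan !![0, 0; 1, 0]
  obtain ⟨T, hT⟩ := hspan !![1, 0; 0, -1]
  set C := (Y * Z - Z * Y) * T with hC
  have hrC : r C = 1 := by
    rw [hC, map_mul, map_sub, map_mul, map_mul, hY, hZ, hT]
    ext i j
    fin_cases i <;> fin_cases j <;> simp [Matrix.mul_apply, Fin.sum_univ_two]
  have hC1 : a C = 1 := by
    have hK : r (C - 1) = 0 := by rw [map_sub, hrC, map_one, sub_self]
    have h1 := hcom2 _ hK Y Z T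
    have h3 := hcomm _ hK (C - 1)
    rw [hker _ hK, neg_mul, eq_neg_iff_add_eq_zero, ← two_smul k, smul_eq_zero] at h3
    have h4 : a (C - 1) * a C = a (C - 1) * a (C - 1) + a (C - 1) := by
      rw [map_sub, map_one, mul_sub, mul_one]
      abel
    rw [← hC, h4, h3.resolve_left h2, zero_add, map_sub, map_one, sub_eq_zero] at h1
    exact h1
  calc a X = a X * a C := by rw [hC1, mul_one]
    _ = 0 := hcom2 X hX Y Z T

/-- A nonzero module with such an action is faithful on the matrix algebra. -/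
theorem trace_rel_faithful (h2 : (2 : k) ≠ 0) (ρ : G →* Matrix (Fin 2) (Fin 2) k)
    (π : G →* Module.End k V)
    (hspan : Function.Surjective (MonoidAlgebra.lift k (Matrix (Fin 2) (Fin 2) k) G ρ))
    (hrel : ∀ g, π g + (ρ g).det • π g⁻¹ = (ρ g).trace • 1) {v : V} (hv : v ≠ 0)
    {X : MonoidAlgebra k G} (hX : MonoidAlgebra.lift k (Module.End k V) G π X = 0) :
    MonoidAlgebra.lift k (Matrix (Fin 2) (Fin 2) k) G ρ X = 0 := by
  set r := MonoidAlgebra.lift k (Matrix (Fin 2) (Fin 2) k) G ρ with hr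
  set a := MonoidAlgebra.lift k (Module.End k V) G π with ha
  by_contra hne
  obtain ⟨i, j, hij⟩ : ∃ i j, r X i j ≠ 0 := by
    by_contra! hc
    exact hne (Matrix.ext hc)
  choose e he using fun B => hspan B
  set Y := e (Matrix.single 0 i 1) * X * e (Matrix.single j 0 1) +
    e (Matrix.single 1 i 1) * X * e (Matrix.single j 1 1) with hY
  have h0 : a Y = 0 := by
    rw [hY, map_add, map_mul, map_mul, map_mul, map_mul, hX, mul_zero, zero_mul, mul_zero,
      zero_mul, add_zero]
  have h1 : r (Y - r X i j • 1) = 0 := by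
    rw [map_sub, map_smul, map_one, hY, map_add, map_mul, map_mul, map_mul, map_mul, he, he, he, he]
    ext l m
    fin_cases l <;> fin_cases m <;> simp
  have h3 := trace_rel_factor h2 ρ π hspan hrel h1
  rw [← ha, map_sub, h0, map_smul, map_one, zero_sub, neg_eq_zero] at h3
  exact hv ((smul_eq_zero.1 (LinearMap.congr_fun h3 v)).resolve_left hij)

/-- An odd representation without stable line spans the matrix algebra. -/
theorem lift_surjective_of_noLine (h2 : (2 : k) ≠ 0) (ρ : G →* Matrix (Fin 2) (Fin 2) k) {c : G}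
    (hc : ρ c * ρ c = 1) (hd : (ρ c).det = -1)
    (hline : ∀ v : Fin 2 → k, v ≠ 0 → ∃ g, ∀ t : k, ρ g *ᵥ v ≠ t • v) :
    Function.Surjective (MonoidAlgebra.lift k (Matrix (Fin 2) (Fin 2) k) G ρ) := by
  set r := MonoidAlgebra.lift k (Matrix (Fin 2) (Fin 2) k) G ρ with hr
  have e00 := congrFun (congrFun hc 0) 0
  have e01 := congrFun (congrFun hc 0) 1
  have e10 := congrFun (congrFun hc 1) 0
  have e11 := congrFun (congrFun hc 1) 1
  have ed := hd
  simp only [Matrix.mul_apply, Fin.sum_univ_two, Matrix.one_apply, Fin.isValue, if_true,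
    zero_ne_one, one_ne_zero, if_false, det_fin_two] at e00 e01 e10 e11 ed
  have htr : ρ c 0 0 + ρ c 1 1 = 0 := by
    by_contra h
    have h00 : ρ c 0 0 = 0 := (mul_eq_zero.1
      (show ρ c 0 0 * (ρ c 0 0 + ρ c 1 1) = 0 by linear_combination e00 + ed)).resolve_right h
    have h01 : ρ c 0 1 = 0 := (mul_eq_zero.1
      (show ρ c 0 1 * (ρ c 0 0 + ρ c 1 1) = 0 by linear_combination e01)).resolve_right h
    rw [h00, h01] at e00
    exact one_ne_zero (show (1 : k) = 0 by linear_combination -e00)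
  have h4 : (2 : k) * 2 ≠ 0 := mul_ne_zero h2 h2
  let P : k → Matrix (Fin 2) (Fin 2) k := fun s => (2 : k)⁻¹ • (1 + s • ρ c)
  have hP : ∀ s : k, s * s = 1 → P s * P s = P s ∧ P s * P (-s) = 0 ∧ (P s).det = 0 ∧ P s ≠ 0 ∧
      P s + P (-s) = 1 := by
    intro s hs
    refine ⟨?_, ?_, ?_, fun h => ?_, ?_⟩
    · have e : (1 + s • ρ c) * (1 + s • ρ c) = (2 : k) • (1 + s • ρ c) := by
        simp only [add_mul, mul_add, one_mul, mul_one, smul_mul_smul_comm, hc, hs, one_smul,
          two_smul]
        abel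
      show (2 : k)⁻¹ • (1 + s • ρ c) * (2 : k)⁻¹ • (1 + s • ρ c) = (2 : k)⁻¹ • (1 + s • ρ c)
      rw [smul_mul_smul_comm, e, smul_smul, mul_assoc, inv_mul_cancel₀ h2, mul_one]
    · show (2 : k)⁻¹ • (1 + s • ρ c) * (2 : k)⁻¹ • (1 + -s • ρ c) = 0
      simp only [smul_mul_smul_comm, add_mul, mul_add, one_mul, mul_one, hc,
        mul_neg, hs, neg_smul, neg_smul, one_smul]
      rw [add_comm (s • ρ c) 1, add_neg_cancel, smul_zero]
    · simp only [P, det_fin_two, Matrix.smul_apply, Matrix.add_apply, Matrix.one_apply,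
        smul_eq_mul, Fin.isValue, if_true, zero_ne_one, one_ne_zero, if_false]
      linear_combination (2 : k)⁻¹ ^ 2 * ((s : k) * htr - hs + (s * s) * ed)
    · have h0 := congrFun (congrFun h 0) 0
      have h1 := congrFun (congrFun h 1) 1
      simp only [P, Matrix.smul_apply, Matrix.add_apply, Matrix.one_apply, smul_eq_mul,
        Fin.isValue, if_true, Matrix.zero_apply, mul_eq_zero, inv_eq_zero, h2, false_or] at h0 h1
      exact h2 (by linear_combination h0 + h1 - s * htr)
    · simp only [P, neg_smul, ← smul_add]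
      ext i j
      simp only [Matrix.smul_apply, Matrix.add_apply, Matrix.neg_apply, smul_eq_mul]
      field_simp
      ring
  have hmem : ∀ g, ρ g ∈ r.range := fun g =>
    ⟨single g 1, (lift_single ρ g (1 : k)).trans (one_smul k _)⟩
  have hPmem : ∀ s, P s ∈ r.range := fun s =>
    r.range.smul_mem (add_mem (one_mem _) (r.range.smul_mem (hmem c) s)) _
  -- off-diagonal parts
  have hoff : ∀ s : k, s * s = 1 → ∃ g, P (-s) * ρ g * P s ≠ 0 := by
    intro s hs
    obtain ⟨-, -, hdet, hne, hsum⟩ := hP s hs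
    obtain ⟨v, w, hv, hw, hvw⟩ := SemistableHecke.LinearTwo.exists_eq_vecMulVec hdet hne
    obtain ⟨i, hi⟩ : ∃ i, w i ≠ 0 := Function.ne_iff.1 hw
    obtain ⟨g, hg⟩ := hline v hv
    refine ⟨g, fun h0 => ?_⟩
    have happ : ∀ x : Fin 2 → k, P s *ᵥ x = (w ⬝ᵥ x) • v := fun x => by
      rw [hvw, Matrix.vecMulVec_mulVec]
      exact funext fun j => mul_comm _ _
    have hPv : ∃ x, P s *ᵥ x = v := ⟨(w i)⁻¹ • Pi.single i 1, by
      rw [happ, dotProduct_smul, dotProduct_single, mul_one, smul_eq_mul, inv_mul_cancel₀ hi,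
        one_smul]⟩
    obtain ⟨x, hx⟩ := hPv
    refine hg (w ⬝ᵥ (ρ g *ᵥ v)) ?_
    rw [← happ]
    have h := congrArg (fun B : Matrix (Fin 2) (Fin 2) k => B *ᵥ x) h0
    simp only [← Matrix.mulVec_mulVec, hx, Matrix.zero_mulVec] at h
    conv_lhs => rw [← Matrix.one_mulVec (ρ g *ᵥ v), ← hsum, Matrix.add_mulVec, h, add_zero]
  have h1 : (1 : k) * 1 = 1 := mul_one 1
  have h1' : (-1 : k) * -1 = 1 := by ring
  obtain ⟨g, hg⟩ := hoff 1 h1
  obtain ⟨g', hg'⟩ := hoff (-1) h1'
  rw [neg_neg] at hg'
  obtain ⟨hi, hz, -, hn, -⟩ := hP 1 h1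
  obtain ⟨hi', hz', -, hn', -⟩ := hP (-1) h1'
  rw [neg_neg] at hz'
  let E : Fin 4 → Matrix (Fin 2) (Fin 2) k :=
    ![P 1, P (-1), P (-1) * ρ g * P 1, P 1 * ρ g' * P (-1)]
  have hli : LinearIndependent k E := by
    rw [Fintype.linearIndependent_iff]
    intro x hx
    simp only [Fin.sum_univ_four, E, Matrix.cons_val] at hx
    have key : ∀ (A B : Matrix (Fin 2) (Fin 2) k),
        A * (x 0 • P 1 + x 1 • P (-1) + x 2 • (P (-1) * ρ g * P 1) +
          x 3 • (P 1 * ρ g' * P (-1))) * B = 0 := fun A B => by rw [hx, mul_zero, zero_mul]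
    have q := key (P 1) (P 1)
    have q' := key (P (-1)) (P (-1))
    have q₂ := key (P (-1)) (P 1)
    have q₃ := key (P 1) (P (-1))
    simp only [mul_add, add_mul, mul_smul_comm, smul_mul_assoc, ← mul_assoc, hi, hi', hz, hz',
      zero_mul, smul_zero, add_zero, zero_add] at q q' q₂ q₃
    simp only [mul_assoc, hi, hi', hz, hz', mul_zero, smul_zero, add_zero] at q q' q₂ q₃
    simp only [← mul_assoc] at q q' q₂ q₃
    intro j
    fin_cases j
    · exact (smul_eq_zero.1 q).resolve_right hn
    · exact (smul_eq_zero.1 q').resolve_right hn'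
    · exact (smul_eq_zero.1 q₂).resolve_right hg
    · exact (smul_eq_zero.1 q₃).resolve_right hg'
  have htop := hli.span_eq_top_of_card_eq_finrank
    (by rw [Module.finrank_matrix, Module.finrank_self]; simp)
  intro B
  have hle : Submodule.span k (Set.range E) ≤ r.range.toSubmodule := by
    rw [Submodule.span_le]
    rintro _ ⟨j, rfl⟩
    fin_cases j
    · exact hPmem 1
    · exact hPmem (-1)
    · show _ ∈ r.range
      exact mul_mem (mul_mem (hPmem _) (hmem g)) (hPmem _)
    · show _ ∈ r.range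
      exact mul_mem (mul_mem (hPmem _) (hmem g')) (hPmem _)
  exact hle (htop ▸ Submodule.mem_top (x := B))

end FLTAgent.SemistableFinals
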