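import Fermat.Agent.GaloisImage.AtP

/-!
# Supersingular torsion is moved everywhere by inertia

`eq_top_of_sub_mem`: when the whole `p`-torsion reduces to the origin, the displacements by
inertia generate it.  Used in `SemistableFinals.MazurAssembly`.
-/

set_option autoImplicit false

noncomputable section

open WeierstrassCurve WeierstrassCurve.Affine WeierstrassCurve.Affine.Point
open scoped WeierstrassCurve.Affine

namespace FLTAgent.SemistableFinals

open FLTAgent.Density (GalQ Qbar)

variable {W : WeierstrassCurve ℤ} {p : ℕ} [Fact p.Prime]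
  {A : ValuationSubring (AlgebraicClosure ℚ)}

/-- The displacements by inertia generate the torsion when all of it reduces to the origin. -/
theorem eq_top_of_sub_mem (hp2 : p ≠ 2) (hΔ : W.Δ ≠ 0) (hss : (p : ℤ) ∣ W.Δ → ¬ (p : ℤ) ∣ W.c₄)
    (hA : A.LiesOverPrime p) (htop : GaloisImage.torE1 (p := p) W A = ⊤)
    (U : AddSubgroup (GaloisImage.Tors W p))
    (hU : ∀ σ ∈ A.inertiaSubgroupIn ℚ, ∀ y : GaloisImage.Tors W p, σ • y - y ∈ U) : U = ⊤ := by
  refine eq_top_iff.mpr fun z _ => ?_
  by_contra hz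
  have hz0 : z ≠ 0 := fun h => hz (h ▸ U.zero_mem)
  by_cases hbot : ∀ u ∈ U, u = 0
  · have hfix : ∀ z' : GaloisImage.Tors W p, z' ≠ 0 → z = z' ∨ z = -z' := by
      intro z' hz'
      obtain ⟨σ, hσ, h⟩ := GaloisImage.exists_smul_eq_or_neg_of_top hp2 hΔ hss hA htop hz0 hz'
      rwa [sub_eq_zero.mp (hbot _ (hU σ hσ z))] at h
    obtain ⟨b⟩ := GaloisImage.exists_basis (p := p) hΔ
    rcases hfix (b 0) (b.ne_zero 0) with h0 | h0 <;>
      rcases hfix (b 1) (b.ne_zero 1) with h1 | h1 <;>
      · have e := h0.symm.trans h1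
        have e0 := congrArg (fun y => b.repr y 0) e
        simp at e0
  · push Not at hbot
    obtain ⟨u, hu, hu0⟩ := hbot
    obtain ⟨σ, hσ, h⟩ := GaloisImage.exists_smul_eq_or_neg_of_top hp2 hΔ hss hA htop hz0 hu0
    have hσz : σ • z ∈ U := by
      rcases h with h | h <;> rw [h]
      exacts [hu, neg_mem hu]
    exact hz (by simpa using U.sub_mem hσz (hU σ hσ z))

end FLTAgent.SemistableFinals
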