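import Fermat.Agent.SemistableFinals.LocalShape
import Fermat.Agent.SemistableFinals.MazurLinear
import Fermat.Agent.SemistableFinals.MazurEigen
import Fermat.Agent.SemistableFinals.MazurSpan
import Fermat.Agent.SemistableHecke.TrivLevels
import Fermat.Agent.SemistableHecke.TrivFrob
import Fermat.Agent.SemistableHecke.TrivScalar
import Fermat.Agent.LevelRaising.NonEisenstein
import Fermat.Agent.ModularFF.AtkinLehnerQbar
import Fermat.Agent.MazurStep.InertiaBranch
import Fermat.Agent.Deuring.Basic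
import Fermat.Agent.Density.Inertia

/-!
# Mazur's principle at `q = p`, from its two local inputs

`residual_of_inputs`: a curve semistable at `p` with irreducible `p`-torsion, good or peu ramifié
at `p`, residually modular of level `M p` with `p ∤ M`, is residually modular of level `M`.
`eigenTors` and `eigenAct` are the eigenclasses with their Galois action, shared with the case
`q ≠ p`.
-/

set_option autoImplicit false

noncomputable section

open Matrix ModularCurve FLTAgent.GaloisAttach FLTAgent.HeckeJacobian FLTAgent.SemistableHecke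

namespace FLTAgent.SemistableFinals

open FLTAgent.Density (GalQ Qbar)

variable {p : ℕ} [Fact p.Prime]

/-- The `p`-torsion classes with given eigenvalues outside `S`. -/
def eigenTors (p N : ℕ) [NeZero N] (S : Finset ℕ) (a : ℕ → ℕ) : AddSubgroup (JZero N) where
  carrier := {x | p • x = 0 ∧
    ∀ (ℓ : ℕ) (hℓ : ℓ.Prime), ℓ ∉ S → heckeOperatorBar N ⟨ℓ, hℓ⟩ x = a ℓ • x}
  zero_mem' := ⟨nsmul_zero _, fun ℓ hℓ _ => by rw [map_zero, nsmul_zero]⟩
  add_mem' := fun hx hy => ⟨by rw [nsmul_add, hx.1, hy.1, add_zero], fun ℓ hℓ h => by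
    rw [map_add, hx.2 ℓ hℓ h, hy.2 ℓ hℓ h, nsmul_add]⟩
  neg_mem' := fun hx => ⟨by rw [neg_nsmul, hx.1, neg_zero], fun ℓ hℓ h => by
    rw [map_neg, hx.2 ℓ hℓ h, neg_nsmul]⟩

instance eigenTors_module (N : ℕ) [NeZero N] (S : Finset ℕ) (a : ℕ → ℕ) :
    Module (ZMod p) (eigenTors p N S a) :=
  AddCommGroup.zmodModule fun x => Subtype.ext x.2.1

theorem smul_mem_eigenTors {N : ℕ} [NeZero N] {S : Finset ℕ} {a : ℕ → ℕ} (g : GalQ)
    {x : JZero N} (hx : x ∈ eigenTors p N S a) : g • x ∈ eigenTors p N S a := by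
  let := heckeModuleBar N
  have := (jacobianInputs N (Fact.out : p.Prime)).smulComm
  have hg : ∀ (n : ℕ) (y : JZero N), g • (n • y) = n • (g • y) := fun n y =>
    map_nsmul (DistribSMul.toAddMonoidHom (JZero N) g) n y
  refine ⟨?_, fun ℓ hℓ h => ?_⟩
  · rw [← hg, hx.1]
    exact smul_zero (A := JZero N) g
  · let i : Nat.Primes := ⟨ℓ, hℓ⟩
    have hT : ∀ y : JZero N, heckeOperatorBar N i y = heckeGen i • y := fun y => by
      rw [heckeModuleBar_smul_def (HeckeJacobian.heckeOperatorsCommuteBar N), heckeEvalBar_heckeGen]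
    show heckeOperatorBar N i (g • x) = a ℓ • g • x
    rw [hT, ← smul_comm g (heckeGen i) x, ← hT, hx.2 ℓ hℓ h, hg]

/-- The Galois action on the classes with given eigenvalues. -/
def eigenAct (p N : ℕ) [Fact p.Prime] [NeZero N] (S : Finset ℕ) (a : ℕ → ℕ) :
    GalQ →* Module.End (ZMod p) (eigenTors p N S a) where
  toFun g := (AddMonoidHom.mk' (fun x : eigenTors p N S a =>
    (⟨g • x.1, smul_mem_eigenTors g x.2⟩ : eigenTors p N S a))
    fun x y => Subtype.ext (smul_add g x.1 y.1)).toZModLinearMap p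
  map_one' := LinearMap.ext fun x => Subtype.ext (one_smul GalQ x.1)
  map_mul' g h := LinearMap.ext fun x => Subtype.ext (mul_smul g h x.1)

theorem coe_eigenAct {N : ℕ} [NeZero N] {S : Finset ℕ} {a : ℕ → ℕ} (g : GalQ)
    (x : eigenTors p N S a) : (eigenAct p N S a g x : JZero N) = g • x.1 :=
  rfl

theorem coe_zmod_smul {N : ℕ} [NeZero N] {S : Finset ℕ} {a : ℕ → ℕ} (c : ZMod p)
    (x : eigenTors p N S a) : ((c • x : eigenTors p N S a) : JZero N) = c.val • x.1 := by
  conv_lhs => rw [← ZMod.natCast_zmod_val c, Nat.cast_smul_eq_nsmul]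
  rw [AddSubgroup.coe_nsmul]

/-- The value of a good Hecke element on an eigenclass. -/
theorem goodIncl_smul_eigen {N : ℕ} [NeZero N] {S : Finset ℕ} {a : ℕ → ℕ} {x : JZero N}
    (hx : x ∈ eigenTors p N S a) (r : GoodRing N (↑S : Set ℕ)) :
    (letI := heckeModuleBar N; goodIncl N (↑S : Set ℕ) r • x) =
      (evalMod p a r).val • x := by
  let := heckeModuleBar N
  have hc : ∀ (n : ℤ), n • x = ((n : ZMod p)).val • x := fun n => by
    conv_lhs => rw [← Int.emod_add_mul_ediv n p, add_zsmul, mul_comm, mul_zsmul,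
      natCast_zsmul, hx.1, smul_zero, add_zero]
    rw [← natCast_zsmul, ZMod.val_intCast]
  show goodIncl N (↑S : Set ℕ) r • x = _
  induction r using MvPolynomial.induction_on with
  | C n =>
    rw [show (MvPolynomial.C n : GoodRing N (↑S : Set ℕ)) = (n : GoodRing N (↑S : Set ℕ)) from
      map_intCast MvPolynomial.C n, map_intCast, map_intCast, Int.cast_smul_eq_zsmul, hc]
  | add u v hu hv =>
    rw [map_add, map_add, add_smul, hu, hv, ← add_nsmul, ZMod.val_add]
    conv_lhs => rw [← Nat.mod_add_div ((evalMod p a u).val + (evalMod p a v).val) p, add_nsmul,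
      mul_comm, mul_nsmul', hx.1, smul_zero, add_zero]
  | mul_X u i hu =>
    have hiS : (i.1 : ℕ) ∉ S := fun h => i.2.2 (Finset.mem_coe.mpr h)
    have hX : goodIncl N (↑S : Set ℕ) (MvPolynomial.X i) • x = a (i.1 : ℕ) • x := by
      rw [show goodIncl N (↑S : Set ℕ) (MvPolynomial.X i) = heckeGen i.1 by simp [goodIncl],
        heckeModuleBar_smul_def (HeckeJacobian.heckeOperatorsCommuteBar N), heckeEvalBar_heckeGen]
      exact hx.2 _ i.1.2 hiS
    rw [map_mul, map_mul, mul_smul, hX, smul_comm, hu, evalMod_X, smul_smul, ZMod.val_mul,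
      ZMod.val_natCast]
    conv_lhs => rw [← Nat.mod_add_div (a (i.1 : ℕ) * (evalMod p a u).val) p, add_nsmul, mul_comm p,
      mul_nsmul', hx.1, smul_zero, add_zero]
    rw [mul_comm (a _), Nat.mul_mod_mod]

/-- A congruence to an integer modulo an ideal containing `p` holds for any natural number with
the same residue modulo `p`. -/
theorem sub_natCast_mem {R : Type*} [CommRing R] {I : Ideal R} (hpm : (p : R) ∈ I) {c : R} {z : ℤ}
    {n : ℕ} (hn : (n : ZMod p) = (z : ZMod p)) (hcm : c - (z : R) ∈ I) : c - (n : R) ∈ I := by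
  obtain ⟨t, ht⟩ : (p : ℤ) ∣ z - n := by
    rw [← ZMod.intCast_zmod_eq_zero_iff_dvd, Int.cast_sub, Int.cast_natCast, hn, sub_self]
  have e := congrArg (fun y : ℤ => (y : R)) ht
  simp only [Int.cast_sub, Int.cast_mul, Int.cast_natCast] at e
  have h := add_mem hcm (e ▸ I.mul_mem_right (t : R) hpm : (z : R) - (n : R) ∈ I)
  rwa [sub_add_sub_cancel] at h

/-- An eigenclass not killed by a pushforward gives the eigenvalues at the lower level. -/
theorem evalMod_eq_zero_of_pushJ_ne_zero {M q : ℕ} [NeZero M] [NeZero q] (hq : q.Prime)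
    (hqM : ¬ q ∣ M) {S : Finset ℕ} {a : ℕ → ℕ} {x : JZero (M * q)}
    (hx : x ∈ eigenTors p (M * q) S a)
    (hne : pushJ (heckeAlphaBar Qbar M q) x ≠ 0 ∨ pushJ (heckeBetaBar Qbar M q) x ≠ 0)
    (r : GoodRing (M * q) (↑S : Set ℕ))
    (hr : lowerTheta (M * q) M (dvd_mul_right M q) _ r = 0) : evalMod p a r = 0 := by
  have hp : p.Prime := Fact.out
  have hkill : ∀ z : JZero M, p • z = 0 →
      (letI := heckeModuleBar M; goodIncl (M * q) (↑S : Set ℕ) r • z) = 0 := fun z hz => by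
    exact formsKillTorsion (M * q) M p (dvd_mul_right M q) hp _ r hr 1 z (by rwa [pow_one])
  obtain ⟨z, hz, hpz, hrz⟩ : ∃ z : JZero M, z ≠ 0 ∧ p • z = 0 ∧ (evalMod p a r).val • z = 0 := by
    rcases hne with h | h
    · have h0 : p • pushJ (heckeAlphaBar Qbar M q) x = 0 := by rw [← map_nsmul, hx.1, map_zero]
      refine ⟨_, h, h0, ?_⟩
      rw [← map_nsmul, ← goodIncl_smul_eigen hx r, pushJ_alpha_smul hq r x]
      exact hkill _ h0
    · have h0 : p • pushJ (heckeBetaBar Qbar M q) x = 0 := by rw [← map_nsmul, hx.1, map_zero]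
      refine ⟨_, h, h0, ?_⟩
      rw [← map_nsmul, ← goodIncl_smul_eigen hx r,
        pushJ_beta_smul hq hqM (ModularFF.alInputs q hq) r x]
      exact hkill _ h0
  have h1 := addOrderOf_dvd_of_nsmul_eq_zero hrz
  rw [(Nat.dvd_prime hp).mp (addOrderOf_dvd_of_nsmul_eq_zero hpz) |>.resolve_left
    fun h => hz (AddMonoid.addOrderOf_eq_one_iff.mp h)] at h1
  exact (ZMod.val_eq_zero _).mp (Nat.eq_zero_of_dvd_of_lt h1 (ZMod.val_lt _))

/-- For an irreducible curve the group algebra maps onto the matrices, and the Galois action on the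
eigenclasses satisfies the trace relation of the curve. -/
theorem lift_surjective_and_eigenAct_rel (hp2 : p ≠ 2) {W : WeierstrassCurve ℤ}
    (b : Module.Basis (Fin 2) (ZMod p) (GaloisImage.Tors W p)) (hΔ : W.Δ ≠ 0)
    (hirr : W.ModRepIsIrreducible p) {N : ℕ} [NeZero N] (S : Finset ℕ) (a : ℕ → ℕ)
    (hS : ∀ r : ℕ, r.Prime → r ∣ N * p → r ∈ S)
    (hSbad : ∀ r : ℕ, r.Prime → (r : ℤ) ∣ W.Δ → r ∈ S)
    (ha : ∀ ℓ : ℕ, ℓ.Prime → W.IsGoodPrimeFor ℓ → (a ℓ : ZMod p) = (W.apOfModel ℓ : ZMod p)) :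
    Function.Surjective (MonoidAlgebra.lift (ZMod p) (Matrix (Fin 2) (Fin 2) (ZMod p)) GalQ
        (GaloisImage.matRep W p b)) ∧
      ∀ g, eigenAct p N S a g + (GaloisImage.matRep W p b g).det • eigenAct p N S a g⁻¹ =
        (GaloisImage.matRep W p b g).trace • 1 := by
  refine ⟨lift_surjective_of_noLine (GaloisImage.two_ne_zero_of_ne_two hp2)
    (GaloisImage.matRep W p b) (c := complexConjugation)
    (by rw [← map_mul, complexConjugation_mul_self, map_one])
    (GaloisImage.det_matRep_involution b hΔ complexConjugation_mul_self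
      GaloisImage.complexConjugation_ne_one)
    (fun v hv => ?_), fun g => LinearMap.ext fun x => Subtype.ext ?_⟩
  · by_contra hc
    push Not at hc
    exact GaloisImage.noStableLine_matRep b hirr v ⟨hv, fun g _ => hc g⟩
  · have hy := smul_mem_eigenTors g⁻¹ x.2
    have h := char_rel b hΔ S a hS hSbad ha hy.1 hy.2 g
    rw [smul_inv_smul] at h
    rw [LinearMap.add_apply, LinearMap.smul_apply, LinearMap.smul_apply, Module.End.one_apply,
      AddSubgroup.coe_add, coe_zmod_smul, coe_zmod_smul, coe_eigenAct, coe_eigenAct]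
    exact h

/-- The value of the group algebra lift at a group element minus a scalar. -/
private theorem lift_single_sub_smul {k G R : Type*} [CommRing k] [Group G] [Ring R] [Algebra k R]
    (π : G →* R) (g : G) (c : k) :
    MonoidAlgebra.lift k R G π (MonoidAlgebra.single g 1 - c • 1) = π g - c • 1 := by
  rw [map_sub, MonoidAlgebra.lift_single, one_smul, map_smul, map_one]

/-- The value of the group algebra lift at a group element minus one. -/
private theorem lift_single_sub_one {k G R : Type*} [CommRing k] [Group G] [Ring R] [Algebra k R]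
    (π : G →* R) (g : G) :
    MonoidAlgebra.lift k R G π (MonoidAlgebra.single g 1 - 1) = π g - 1 := by
  rw [map_sub, MonoidAlgebra.lift_single, one_smul, map_one]

/-- An inertia element moves a torsion class by a trivial class. -/
private theorem triv_sub_of_mem_inertia {M : ℕ} [NeZero M] [NeZero p] {A : ValuationSubring Qbar}
    (hA : A.LiesOverPrime p) {σ : GalQ} (hσ : σ ∈ A.inertiaSubgroupIn ℚ) {y : JZero (M * p)}
    (hy : p • y = 0) : Triv A p (σ • y - y) := by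
  have := Deuring.isAlgClosed_residueField A
  obtain ⟨hσD, hσ'⟩ : ∃ hσD : σ ∈ A.decompositionSubgroup ℚ,
      ∀ z : A, IsLocalRing.residue A ⟨σ z, MazurStep.inertia_mem hσ z.2⟩ =
        IsLocalRing.residue A z := by
    obtain ⟨⟨τ, hσD⟩, h, rfl⟩ := id hσ
    exact ⟨hσD, MazurStep.residue_inertia hσ⟩
  refine triv_inertia_sub Fact.out hA hσD (fun z => ?_) hy
  obtain ⟨z, rfl⟩ := IsLocalRing.residue_surjective z
  exact hσ' z

/-- The Atkin-Lehner map preserves the eigenclasses. -/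
private theorem pushJ_mem_eigenTors {M : ℕ} [NeZero M] [NeZero p] (hpM : ¬ p ∣ M) {S : Finset ℕ}
    {a : ℕ → ℕ} (hout : ∀ ℓ : ℕ, ℓ.Prime → ℓ ∉ S → ℓ ≠ p)
    {w : modularFunctionFieldBar (M * p) →ₐ[Qbar] modularFunctionFieldBar (M * p)}
    (hwα : w.comp (heckeAlphaBar Qbar M p) = heckeBetaBar Qbar M p)
    (hwβ : w.comp (heckeBetaBar Qbar M p) = heckeAlphaBar Qbar M p)
    {x : JZero (M * p)} (hx : x ∈ eigenTors p (M * p) S a) :
    pushJ w x ∈ eigenTors p (M * p) S a := by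
  refine ⟨by rw [← map_nsmul, hx.1, map_zero], fun ℓ hℓ h => ?_⟩
  have hp : p.Prime := Fact.out
  have : NeZero ℓ := ⟨hℓ.ne_zero⟩
  have : NeZero ((⟨ℓ, hℓ⟩ : Nat.Primes) : ℕ) := ⟨hℓ.ne_zero⟩
  rw [← pushJ_heckeOperatorBar ⟨ℓ, hℓ⟩ (heckeLift_al (ModularFF.alInputs p hp) hwα hwβ hp hpM
    (hout ℓ hℓ h) hℓ), hx.2 ℓ hℓ h, map_nsmul]

section Classes

variable {W : WeierstrassCurve ℤ} (b : Module.Basis (Fin 2) (ZMod p) (GaloisImage.Tors W p))
  {M : ℕ} [NeZero M] [NeZero p] {A : ValuationSubring Qbar} {S : Finset ℕ} {a : ℕ → ℕ}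

/-- At a supersingular prime every eigenclass is trivial. -/
private theorem triv_of_torE1_eq_top (hp2 : p ≠ 2) (hΔ : W.Δ ≠ 0)
    (hss : (p : ℤ) ∣ W.Δ → ¬ (p : ℤ) ∣ W.c₄) (hA : A.LiesOverPrime p)
    (htop : GaloisImage.torE1 (p := p) W A = ⊤)
    (hspan : Function.Surjective (MonoidAlgebra.lift (ZMod p) (Matrix (Fin 2) (Fin 2) (ZMod p))
      GalQ (GaloisImage.matRep W p b)))
    (hfac : ∀ X, MonoidAlgebra.lift (ZMod p) (Matrix (Fin 2) (Fin 2) (ZMod p)) GalQ
        (GaloisImage.matRep W p b) X = 0 →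
      MonoidAlgebra.lift (ZMod p) (Module.End (ZMod p) (eigenTors p (M * p) S a)) GalQ
        (eigenAct p (M * p) S a) X = 0)
    (x : eigenTors p (M * p) S a) : Triv A p x.1 := by
  set ρ := GaloisImage.matRep W p b
  set π := eigenAct p (M * p) S a
  set R := MonoidAlgebra.lift (ZMod p) (Matrix (Fin 2) (Fin 2) (ZMod p)) GalQ ρ
  set E := MonoidAlgebra.lift (ZMod p) (Module.End (ZMod p) (eigenTors p (M * p) S a)) GalQ π
  let T : AddSubgroup (Matrix (Fin 2) (Fin 2) (ZMod p)) :=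
    { carrier := {B | ∀ X, R X = B → ∀ y : eigenTors p (M * p) S a, Triv A p (E X y).1}
      zero_mem' := fun X hX y => by
        rw [hfac X hX, LinearMap.zero_apply]; exact triv_zero p
      add_mem' := fun {B C} hB hC X hX y => by
        obtain ⟨Y, hY⟩ := hspan B
        have h := hC (X - Y) (by rw [map_sub, hX, show R Y = B from hY, add_sub_cancel_left]) y
        rw [show X = Y + (X - Y) by abel, map_add, LinearMap.add_apply, AddSubgroup.coe_add]
        exact (hB Y hY y).add h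
      neg_mem' := fun {B} hB X hX y => by
        have h := (hB (-X) (by rw [map_neg, hX, neg_neg]) y).neg
        rwa [map_neg, LinearMap.neg_apply, AddSubgroup.coe_neg, neg_neg] at h }
  have hmov : ∀ τ ∈ A.inertiaSubgroupIn ℚ, ∀ B, (ρ τ - 1) * B ∈ T := by
    intro τ hτ B X hX y
    obtain ⟨Y, hY⟩ := hspan B
    have h0 : R (X - (MonoidAlgebra.single τ 1 - 1) * Y) = 0 := by
      rw [map_sub, map_mul, lift_single_sub_one, hX,
        show R Y = B from hY, sub_self]
    have h := hfac _ h0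
    rw [map_sub, sub_eq_zero] at h
    rw [h, map_mul, lift_single_sub_one,
      Module.End.mul_apply, LinearMap.sub_apply, Module.End.one_apply, AddSubgroup.coe_sub,
      coe_eigenAct]
    exact triv_sub_of_mem_inertia hA hτ (E Y y).2.1
  have hcol : ∀ (j : Fin 2) (z : GaloisImage.Tors W p),
      Matrix.vecMulVec (⇑(b.repr z)) (Pi.single j 1) ∈ T := by
    intro j
    let U : AddSubgroup (GaloisImage.Tors W p) :=
      { carrier := {z | Matrix.vecMulVec (⇑(b.repr z)) (Pi.single j 1) ∈ T}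
        zero_mem' := by
          show Matrix.vecMulVec (⇑(b.repr 0)) (Pi.single j 1) ∈ T
          rw [map_zero, Finsupp.coe_zero, Matrix.zero_vecMulVec]; exact T.zero_mem
        add_mem' := fun {y z} hy hz => by
          show Matrix.vecMulVec (⇑(b.repr (y + z))) (Pi.single j 1) ∈ T
          rw [map_add, Finsupp.coe_add, Matrix.add_vecMulVec]; exact T.add_mem hy hz
        neg_mem' := fun {y} hy => by
          show Matrix.vecMulVec (⇑(b.repr (-y))) (Pi.single j 1) ∈ T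
          rw [map_neg, Finsupp.coe_neg, Matrix.neg_vecMulVec]; exact T.neg_mem hy }
    have hU := eq_top_of_sub_mem hp2 hΔ hss hA htop U fun τ hτ y => by
      show Matrix.vecMulVec (⇑(b.repr (τ • y - y))) (Pi.single j 1) ∈ T
      rw [map_sub, Finsupp.coe_sub, ← GaloisImage.matRep_mulVec b τ y]
      have := hmov τ hτ (Matrix.vecMulVec (⇑(b.repr y)) (Pi.single j 1))
      rwa [sub_mul, one_mul, Matrix.mul_vecMulVec, ← Matrix.sub_vecMulVec] at this
    exact fun z => (hU ▸ AddSubgroup.mem_top z : z ∈ U)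
  have h1 : (1 : Matrix (Fin 2) (Fin 2) (ZMod p)) ∈ T := by
    have h := T.add_mem (hcol 0 (b 0)) (hcol 1 (b 1))
    convert h using 1
    ext i j
    fin_cases i <;> fin_cases j <;> simp [Matrix.vecMulVec_apply]
  have := h1 1 (map_one R) x
  rwa [map_one, Module.End.one_apply] at this

/-- The eigenclasses are peu fixed at `p` unless they are all trivial. -/
private theorem isPeuFixed_of_not_triv (hp2 : p ≠ 2) (hΔ : W.Δ ≠ 0)
    (hss : (p : ℤ) ∣ W.Δ → ¬ (p : ℤ) ∣ W.c₄) (hA : A.LiesOverPrime p)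
    (hloc : W.IsGoodPrimeFor p ∨
      ((p : ℤ) ∣ W.Δ ∧ (W.map (Int.castRingHom ℚ)).IsPeuRamifieeAt p p))
    (hspan : Function.Surjective (MonoidAlgebra.lift (ZMod p) (Matrix (Fin 2) (Fin 2) (ZMod p))
      GalQ (GaloisImage.matRep W p b)))
    (hrel : ∀ g, eigenAct p (M * p) S a g +
      (GaloisImage.matRep W p b g).det • eigenAct p (M * p) S a g⁻¹ =
        (GaloisImage.matRep W p b g).trace • 1)
    {x₀ : JZero (M * p)} (hx₀ : x₀ ∈ eigenTors p (M * p) S a) (hx₀t : ¬ Triv A p x₀) :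
    IsPeuFixed A p x₀ := by
  have hp : p.Prime := Fact.out
  have hfac := fun X (hX : MonoidAlgebra.lift (ZMod p) (Matrix (Fin 2) (Fin 2) (ZMod p)) GalQ
      (GaloisImage.matRep W p b) X = 0) =>
    trace_rel_factor (GaloisImage.two_ne_zero_of_ne_two hp2) _ _ hspan hrel hX
  set ρ := GaloisImage.matRep W p b
  have : NeZero (p : AlgebraicClosure ℚ) := ⟨Nat.cast_ne_zero.mpr hp.ne_zero⟩
  obtain ⟨ζ, hζ⟩ := HasEnoughRootsOfUnity.exists_primitiveRoot (AlgebraicClosure ℚ) p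
  have hsup : ¬ (W.IsGoodPrimeFor p ∧ GaloisImage.torE1 (p := p) W A = ⊤) := fun h =>
    hx₀t (triv_of_torE1_eq_top b hp2 hΔ hss hA h.2 hspan hfac ⟨x₀, hx₀⟩)
  have hloc' : (W.IsGoodPrimeFor p ∧ GaloisImage.torE1 (p := p) W A ≠ ⊤) ∨
      ((p : ℤ) ∣ W.Δ ∧ (W.map (Int.castRingHom ℚ)).IsPeuRamifieeAt p p) :=
    hloc.imp_left fun h => ⟨h, fun ht => hsup ⟨h, ht⟩⟩
  obtain ⟨u, hu, huI, hfix⟩ := exists_kummer_unit hp2 hΔ hss hA hζ hloc'
  refine ⟨ζ, u, hζ, hu, huI, fun σ hσ hσζ hσw => ?_⟩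
  have hρ : ρ σ = 1 := Matrix.ext_of_mulVec_single fun j => by
    have h := GaloisImage.matRep_mulVec b σ (b j)
    rw [hfix σ hσ hσζ hσw, b.repr_self, Finsupp.single_eq_pi_single] at h
    rw [h, Matrix.one_mulVec]
  have h := hfac (MonoidAlgebra.single σ 1 - 1) (by
    rw [lift_single_sub_one, hρ, sub_self])
  rw [lift_single_sub_one, sub_eq_zero] at h
  exact congrArg Subtype.val (LinearMap.congr_fun h ⟨x₀, hx₀⟩)

/-- Not all eigenclasses killed by both pushforwards are trivial: inertia would be scalar. -/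
private theorem exists_not_triv (hp2 : p ≠ 2) (hΔ : W.Δ ≠ 0) (hpM : ¬ p ∣ M)
    (hA : A.LiesOverPrime p)
    {w : modularFunctionFieldBar (M * p) →ₐ[Qbar] modularFunctionFieldBar (M * p)}
    (hwα : w.comp (heckeAlphaBar Qbar M p) = heckeBetaBar Qbar M p)
    (hwβ : w.comp (heckeBetaBar Qbar M p) = heckeAlphaBar Qbar M p)
    (hw : ∀ x ∈ eigenTors p (M * p) S a, pushJ w x ∈ eigenTors p (M * p) S a)
    (hold : ∀ x ∈ eigenTors p (M * p) S a,
      pushJ (heckeAlphaBar Qbar M p) x = 0 ∧ pushJ (heckeBetaBar Qbar M p) x = 0)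
    (hspan : Function.Surjective (MonoidAlgebra.lift (ZMod p) (Matrix (Fin 2) (Fin 2) (ZMod p))
      GalQ (GaloisImage.matRep W p b)))
    (hrel : ∀ g, eigenAct p (M * p) S a g +
      (GaloisImage.matRep W p b g).det • eigenAct p (M * p) S a g⁻¹ =
        (GaloisImage.matRep W p b g).trace • 1)
    {x₁ : eigenTors p (M * p) S a} (hx₁ : x₁ ≠ 0) :
    ∃ x ∈ eigenTors p (M * p) S a, ¬ Triv A p x := by
  by_contra! hall
  have hp : p.Prime := Fact.out
  have h2 : (2 : ZMod p) ≠ 0 := GaloisImage.two_ne_zero_of_ne_two hp2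
  set ρ := GaloisImage.matRep W p b
  set π := eigenAct p (M * p) S a
  obtain ⟨σ, hσ, hdet⟩ := GaloisImage.exists_det_eq b hΔ hA
    (neg_ne_zero.mpr (one_ne_zero : (1 : ZMod p) ≠ 0))
  set n := (ρ σ).det.val
  have hσx : π σ = (ρ σ).det • 1 := LinearMap.ext fun x => Subtype.ext (by
    rw [LinearMap.smul_apply, Module.End.one_apply, coe_zmod_smul, coe_eigenAct]
    obtain ⟨hα, hβ⟩ := hold x.1 x.2
    exact smul_eq_of_triv M p hp hpM A hA w hwα hwβ x.1 x.2.1 hα hβ (hall _ x.2)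
      (hall _ (hw _ x.2)) σ hσ n fun μ hμ => GaloisImage.apply_eq_pow_det b hΔ σ hμ)
  have hX := trace_rel_faithful h2 ρ π hspan hrel hx₁
    (X := MonoidAlgebra.single σ 1 - (ρ σ).det • 1) (by
      rw [lift_single_sub_smul, hσx, sub_self])
  rw [lift_single_sub_smul, sub_eq_zero] at hX
  have hd := congrArg Matrix.det hX
  rw [det_smul, det_one, mul_one, Fintype.card_fin, show (ρ σ).det = -1 from hdet] at hd
  exact h2 (by linear_combination -hd)

end Classes

/-- **Mazur's principle at `q = p`**, from its local inputs. -/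
theorem residual_of_inputs (hp2 : p ≠ 2) {W : WeierstrassCurve ℤ}
    (hΔ : W.Δ ≠ 0) (hss : (p : ℤ) ∣ W.Δ → ¬ (p : ℤ) ∣ W.c₄) (hirr : W.ModRepIsIrreducible p)
    {M : ℕ} [NeZero M] [NeZero p] (hpM : ¬ p ∣ M) (hslope : SlopeEisensteinAt M p)
    (hlevel : AbelianLevelAt M p)
    (hloc : W.IsGoodPrimeFor p ∨
      ((p : ℤ) ∣ W.Δ ∧ (W.map (Int.castRingHom ℚ)).IsPeuRamifieeAt p p))
    {T : Finset ℕ} (hres : ResidualOutside W p T (M * p)) : ResidualOutside W p T M := by
  classical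
  have hp : p.Prime := Fact.out
  obtain ⟨f, 𝔪, hf, hmax, hpm, hfa⟩ := hres
  set S : Finset ℕ := (M * p).primeFactors ∪ W.Δ.natAbs.primeFactors ∪ T
  have hS : ∀ r : ℕ, r.Prime → r ∣ M * p → r ∈ S := fun r hr hd =>
    Finset.mem_union_left _
      (Finset.mem_union_left _ (Nat.mem_primeFactors.mpr ⟨hr, hd, NeZero.ne _⟩))
  have hSbad : ∀ r : ℕ, r.Prime → (r : ℤ) ∣ W.Δ → r ∈ S := fun r hr hd =>
    Finset.mem_union_left _ (Finset.mem_union_right _
      (Nat.mem_primeFactors.mpr ⟨hr, Int.natCast_dvd.mp hd, by simpa using hΔ⟩))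
  have hout : ∀ ℓ : ℕ, ℓ.Prime → ℓ ∉ S →
      W.IsGoodPrimeFor ℓ ∧ ¬ ℓ ∣ M * p ∧ ℓ ≠ p := fun ℓ hℓ h =>
    ⟨fun hd => h (hSbad ℓ hℓ hd), fun hd => h (hS ℓ hℓ hd),
      fun e => h (hS ℓ hℓ (e ▸ dvd_mul_left p M))⟩
  let a : ℕ → ℕ := fun ℓ => (W.apOfModel ℓ : ZMod p).val
  have ha : ∀ ℓ : ℕ, (a ℓ : ZMod p) = (W.apOfModel ℓ : ZMod p) := fun ℓ => ZMod.natCast_zmod_val _
  have hcong : ∀ ℓ : ℕ, ℓ.Prime → ℓ ∉ S → ∃ c : integralClosure ℤ ℂ,
      (c : ℂ) = ModularFormClass.qCoeff f ℓ ∧ c - (a ℓ : integralClosure ℤ ℂ) ∈ 𝔪 := by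
    intro ℓ hℓ h
    obtain ⟨hgood, hℓN, hℓp⟩ := hout ℓ hℓ h
    obtain ⟨c, hc, hcm⟩ := hfa ℓ hℓ (fun hT => h (Finset.mem_union_right _ hT)) hgood hℓN hℓp
    exact ⟨c, hc, sub_natCast_mem hpm (ha ℓ) hcm⟩
  obtain ⟨x₁, hx₁, hx₁p, hx₁e⟩ := exists_torsion_eigen hf hmax hpm S hS a hcong
  have hSgood : ∀ r ∈ S, r.Prime → r ∉ T → W.IsGoodPrimeFor r → ¬ r ∣ M → r = p := by
    intro r hr hrp hrT hgood hrM
    rcases Finset.mem_union.mp ((Finset.mem_union.mp hr).resolve_right hrT) with h | h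
    · exact ((Nat.Prime.dvd_mul hrp).mp (Nat.mem_primeFactors.mp h).2.1).elim (absurd · hrM)
        fun hd => (Nat.prime_dvd_prime_iff_eq hrp hp).mp hd
    · exact absurd (Int.natCast_dvd.mpr (Nat.mem_primeFactors.mp h).2.1) hgood
  have hdown : (∀ r : GoodRing (M * p) (↑S : Set ℕ),
      lowerTheta (M * p) M (dvd_mul_right M p) _ r = 0 → evalMod p a r = 0) →
      ResidualOutside W p T M := fun h =>
    residual_of_evalMod (dvd_mul_right M p) S hS hSgood a (fun ℓ _ _ => ha ℓ) h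
  -- a class not killed by a pushforward
  by_cases hold : ∃ x ∈ eigenTors p (M * p) S a,
      pushJ (heckeAlphaBar Qbar M p) x ≠ 0 ∨ pushJ (heckeBetaBar Qbar M p) x ≠ 0
  · obtain ⟨x, hx, hne⟩ := hold
    exact hdown fun r hr => evalMod_eq_zero_of_pushJ_ne_zero hp hpM hx hne r hr
  push Not at hold
  obtain ⟨A, hA⟩ := Density.exists_liesOverPrime hp
  obtain ⟨b⟩ := GaloisImage.exists_basis (W := W) (p := p) hΔ
  obtain ⟨w, hwα, hwβ⟩ := ModularFF.alInputs p hp M hpM
  obtain ⟨hspan, hrel⟩ := lift_surjective_and_eigenAct_rel hp2 b hΔ hirr S a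
    (fun r hr hd => by
      rcases (Nat.Prime.dvd_mul hr).mp hd with h | h
      · exact hS r hr h
      · exact hS r hr (h.trans (dvd_mul_left p M)))
    hSbad (fun ℓ _ _ => ha ℓ)
  obtain ⟨x₀, hx₀, hx₀t⟩ := exists_not_triv b hp2 hΔ hpM hA hwα hwβ
    (fun x => pushJ_mem_eigenTors hpM (fun ℓ hℓ h => (hout ℓ hℓ h).2.2) hwα hwβ) hold hspan hrel
    (x₁ := ⟨x₁, hx₁p, hx₁e⟩) fun h => hx₁ (congrArg Subtype.val h)
  by_cases hsl : SlopeZero A p x₀
  · exact hdown (hlevel A hA x₀ hx₀.1 hsl hx₀t S hS a hx₀.2)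
  exfalso
  obtain ⟨hα₀, hβ₀⟩ := hold x₀ hx₀
  have hpeu := isPeuFixed_of_not_triv b hp2 hΔ hss hA hloc hspan hrel hx₀ hx₀t
  obtain ⟨ℓ, hℓ, hℓS, -, -, hℓ1, hap⟩ :=
    LevelRaising.exists_prime_not_eisenstein hp2 hΔ hirr (m := p) hp.pos S
  have h := hslope A hA x₀ hx₀.1 hα₀ hβ₀ hpeu hsl ℓ (a ℓ) hℓ (hout ℓ hℓ hℓS).2.1
    (hx₀.2 ℓ hℓ hℓS)
  rw [ha, (ZMod.natCast_eq_natCast_iff _ _ _).mpr hℓ1, Nat.cast_one] at h
  refine hap ?_
  rw [← ZMod.intCast_zmod_eq_zero_iff_dvd, Int.cast_sub, h]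
  push_cast
  ring

end FLTAgent.SemistableFinals
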