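import Fermat.Agent.CongruenceRel.Assembly
import Fermat.Agent.SemistableEisenstein.NormMap
import Fermat.Agent.Deuring.Modular
import Fermat.Agent.ModularFF.AtkinLehnerQbar

/-!
# Lifting reduced divisors, and their Hecke transforms

Places of the special fibre of `X₀(M)` lift (`exists_lift_degZero`), and if a multiple of a reduced
divisor is the divisor of a function then the same multiple of its reduced Hecke transform is the
divisor of the residual norm of the function (`mapDomain_hecke_eq_ord`).  Used in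
`SemistableFinals.PrincipleLevel`.
-/

set_option autoImplicit false

noncomputable section

open AlgebraicCurve ModularCurve FLTAgent.CongruenceRel FLTAgent.GoodReduction IsLocalRing
open FLTAgent.HeckeJacobian
open FLTAgent.SemistableHecke (HasBar)
open FLTAgent.Semistable.Eisenstein (IsNrm embProd embProd_eq)

namespace FLTAgent.SemistableFinals

open FLTAgent.Density (GalQ Qbar)

variable {M : ℕ} [NeZero M] {A : ValuationSubring Qbar}

local notation "kA" => ResidueField A
local notation "FF" => modularFunctionFieldBar M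
local notation "FK" => modularFunctionFieldFullC (ResidueField A) M

variable {h : ReductionInputsModL A M} (hI : FibreInputs A M (placeReductionModL h))

include hI

omit [NeZero M] in
/-- Every residual function is a quotient of reductions of chart elements. -/
theorem exists_chart_frac (r : FK) (hr : r ≠ 0) :
    ∃ a b : chart A M, chartRed hI.red a ≠ 0 ∧ chartRed hI.red b ≠ 0 ∧
      r * chartRed hI.red b = chartRed hI.red a := by
  obtain ⟨a, b, hb, hab⟩ := chartRed_frac hI.red hI.equations r
  exact ⟨a, b, hab ▸ mul_ne_zero hr hb, hb, hab⟩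

omit [NeZero M] in
/-- Places of the special fibre are reductions of places. -/
theorem placeReduction_surjective [IsAlgClosed kA] [FFBasic.IsFunctionField kA FK] :
    Function.Surjective (placeReductionModL h) := by
  classical
  intro v
  obtain ⟨f, hf0, hf⟩ : ∃ f : FK, f ≠ 0 ∧ v.ord f ≠ 0 := by
    refine ⟨FFRiemannRoch.unif v ^ (1 : ℤ), zpow_ne_zero _ (FFRiemannRoch.unif_ne_zero v), ?_⟩
    rw [FFRiemannRoch.ord_unif_zpow]
    exact one_ne_zero
  obtain ⟨a, b, ha, hb, hab⟩ := exists_chart_frac hI f hf0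
  have key : ∀ c : chart A M, chartRed hI.red c ≠ 0 → v.ord (chartRed hI.red c) ≠ 0 →
      ∃ P, placeReductionModL h P = v := by
    intro c hc hv
    obtain ⟨D, hD⟩ := hI.exists_divisor c hc
    rw [← hI.mapDomain_chart c hc hD v] at hv
    have h1 := Finset.mem_of_subset Finsupp.mapDomain_support (Finsupp.mem_support_iff.mpr hv)
    obtain ⟨P, -, hP⟩ := Finset.mem_image.mp h1
    exact ⟨P, hP⟩
  rcases eq_or_ne (v.ord (chartRed hI.red b)) 0 with h0 | h0
  · refine key a ha ?_
    rwa [← hab, v.ord_mul hf0 hb, h0, add_zero]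
  · exact key b hb h0

omit [NeZero M] in
/-- Divisors of degree zero of the special fibre lift. -/
theorem exists_lift_degZero [IsAlgClosed kA] [FFBasic.IsFunctionField kA FK]
    (E : Divisor.degZero (K := kA) (F := FK)) :
    ∃ D : Divisor.degZero (K := Qbar) (F := FF),
      Finsupp.mapDomain (placeReductionModL h) (D : Divisor Qbar FF) = (E : Divisor kA FK) := by
  classical
  obtain ⟨D, hD⟩ := Finsupp.mapDomain_surjective (placeReduction_surjective hI) (E : Divisor kA FK)
  refine ⟨⟨D, ?_⟩, hD⟩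
  rw [Divisor.mem_degZero, ← degree_mapDomain_of_deg_eq hI.spec.1 D, hD]
  exact Divisor.mem_degZero.mp E.2

variable {ℓ : ℕ} [Fact ℓ.Prime]
  [HasPrincipalDivisors Qbar (modularFunctionFieldBar (M * ℓ))]
  (hα : HeckeAlphaBarIntegral Qbar M ℓ) (hβ : HeckeBetaBarIntegral Qbar M ℓ)

/-- A divisor of degree zero with vanishing reduction has a Hecke transform with vanishing
reduction. -/
theorem mapDomain_hecke_zero {D : Divisor Qbar FF}
    (hD : D ∈ Divisor.degZero (K := Qbar) (F := FF))
    (h0 : Finsupp.mapDomain (placeReductionModL h) D = 0) :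
    Finsupp.mapDomain (placeReductionModL h) (heckeDivBar hα hβ D) = 0 := by
  have hFI := FFBasic.fundamentalIdentityAlong (heckeBetaBar Qbar M ℓ) hβ
  have hfin := FFBasic.finiteAlong (heckeAlphaBar Qbar M ℓ)
  have hN := FFBasic.normFormulaAlong (heckeAlphaBar Qbar M ℓ) hfin
  obtain ⟨ℓ₀, hℓ₀, hA⟩ := hI.prime
  obtain ⟨d⟩ := hI.exists_normRedData hfin hℓ₀ hA
  ext v
  rw [Finsupp.zero_apply, hI.mapDomain_hecke_eq hα hβ d hFI hfin hN hD one_ne_zero
    (f := 1) (g := 1) (fun w => by rw [h0, Finsupp.zero_apply, Place.ord_one])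
    (by rw [map_one, Finset.prod_eq_one fun s _ => map_one _]) v, Place.ord_one]

variable {u : Qbarˣ} {vu : Aˣ}

omit [HasPrincipalDivisors Qbar ↥(modularFunctionFieldBar (M * ℓ))] in
/-- The reduced norm of a chart element is the residual norm of its reduction. -/
theorem isNrm_chartRed_norm (hℓ : ¬ ℓ ∣ M) (hu : IsPrimitiveRoot u ℓ)
    (huv : ((vu : A) : Qbar) = u)
    {H : NormRedHyp (heckeAlphaBar Qbar M ℓ).toRingHom (heckeBetaBar Qbar M ℓ).toRingHom
      (chart A M) (chartRed hI.red)}
    (d : NormRedData _ _ _ _ H) (b : chart A M) :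
    IsNrm M ℓ vu (chartRed hI.red b) (chartRed hI.red ⟨_, d.norm_mem (betaInt H b)⟩) := by
  obtain ⟨w, hwα, hwβ⟩ := ModularFF.alInputs (q := ℓ) Fact.out M hℓ
  set x : chart A M := ⟨_, d.norm_mem (betaInt H b)⟩
  have hxF : (x : FF) = normAlong (heckeAlphaBar Qbar M ℓ) (heckeBetaBar Qbar M ℓ (b : FF)) := rfl
  have hsrc : ∀ c : chart A M, HasBar A ((c : FF) : LaurentSeries Qbar)
      ((chartRed hI.red c : FK) : LaurentSeries kA) := fun c => by
    rw [← coeffMap_series hI.red c, coe_chartRed]
    exact SemistableHecke.hasBar_lift _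
  have hwb : w (heckeBetaBar Qbar M ℓ (b : FF)) = heckeAlphaBar Qbar M ℓ (b : FF) :=
    DFunLike.congr_fun hwβ (b : FF)
  have hser := SemistableHecke.series_norm_alpha Fact.out hℓ hwα hwβ hu
    (heckeBetaBar Qbar M ℓ (b : FF))
  simp only [hwb, coe_heckeAlphaBar, coe_heckeBetaBar, ← hxF] at hser
  have hb := hsrc b
  refine ((hsrc x).qExpand ℓ).unique ?_
  rw [hser, embProd_eq]
  refine ((hb.qExpand ℓ).qExpand ℓ).mul (HasBar.prod _ fun j _ => ?_)
  rw [← map_pow]
  exact Semistable.Eisenstein.hasBar_twist hb (by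
    rw [Units.val_pow_eq_pow_val, SubmonoidClass.coe_pow, huv, ← Units.val_pow_eq_pow_val])

/-- If `n` times a reduced divisor is the divisor of `r` then `n` times its reduced Hecke transform
is the divisor of the residual norm of `r`. -/
theorem mapDomain_hecke_eq_ord (hℓ : ¬ ℓ ∣ M) (hu : IsPrimitiveRoot u ℓ)
    (huv : ((vu : A) : Qbar) = u) {D : Divisor Qbar FF} {n : ℕ} {r y : FK} (hr : r ≠ 0)
    (hy : IsNrm M ℓ vu r y)
    (hDr : ∀ v : Place kA FK, (n : ℤ) * Finsupp.mapDomain (placeReductionModL h) D v = v.ord r)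
    (v : Place kA FK) :
    (n : ℤ) * Finsupp.mapDomain (placeReductionModL h) (heckeDivBar hα hβ D) v = v.ord y := by
  classical
  have hfin := FFBasic.finiteAlong (heckeAlphaBar Qbar M ℓ)
  have hN := FFBasic.normFormulaAlong (heckeAlphaBar Qbar M ℓ) hfin
  have := isFunctionField_special hI.red
  obtain ⟨ℓ₀, hℓ₀, hA⟩ := hI.prime
  obtain ⟨d⟩ := hI.exists_normRedData (q := ℓ) hfin hℓ₀ hA
  obtain ⟨a, b, ha, hb, hab⟩ := exists_chart_frac hI r hr
  obtain ⟨Da, hDa⟩ := hI.exists_divisor a ha
  obtain ⟨Db, hDb⟩ := hI.exists_divisor b hb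
  set Z := n • D - (Da - Db) with hZdef
  have hZ0 : Finsupp.mapDomain (placeReductionModL h) Z = 0 := by
    ext w
    rw [hZdef, Finsupp.mapDomain_sub, Finsupp.mapDomain_sub, Finsupp.mapDomain_smul,
      Finsupp.sub_apply, Finsupp.sub_apply, Finsupp.smul_apply, nsmul_eq_mul,
      hI.mapDomain_chart a ha hDa, hI.mapDomain_chart b hb hDb, hDr, ← hab, w.ord_mul hr hb,
      Finsupp.zero_apply]
    ring
  have hZd : Z ∈ Divisor.degZero (K := Qbar) (F := FF) := by
    rw [Divisor.mem_degZero, ← degree_mapDomain_of_deg_eq hI.spec.1 Z, hZ0, map_zero]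
  have h1 := DFunLike.congr_fun (mapDomain_hecke_zero hI hα hβ hZd hZ0) v
  rw [hZdef, map_sub, map_sub, map_nsmul, Finsupp.mapDomain_sub, Finsupp.mapDomain_sub,
    Finsupp.mapDomain_smul, Finsupp.sub_apply, Finsupp.sub_apply, Finsupp.smul_apply, nsmul_eq_mul,
    Finsupp.zero_apply, hI.mapDomain_hecke_chart hα hβ d hfin hN a ha hDa,
    hI.mapDomain_hecke_chart hα hβ d hfin hN b hb hDb, sub_eq_zero] at h1
  rw [h1]
  have hb' := isNrm_chartRed_norm hI hℓ hu huv d b
  have hmul := hy.mul hb'
  rw [hab] at hmul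
  rw [(isNrm_chartRed_norm hI hℓ hu huv d a).unique hmul,
    v.ord_mul (hy.ne_zero hr) (d.red_norm_beta_ne_zero hb).1]
  ring

end FLTAgent.SemistableFinals
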