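import Fermat.Agent.SemistableFinals.PrincipleFixed
import Fermat.Agent.SemistableFinals.PrincipleLift
import Fermat.Agent.SemistableFinals.MazurAssembly

/-!
# Eigenclasses with a nontrivial residual datum have eigenvalues of level `M`

Let `x ∈ J₀(Mq)[p]` have residual datum `r` at infinity with all orders divisible by `p`, `r` not a
constant times a `p`-th power.  The class `y = div r / p` in the reduced group of level `M` is
nonzero of order `p`, lifts to `J₀(M)`, and the Hecke operators act on its reduced lifts through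
the eigenvalues of `x`.  An element killing the forms of level `M` kills `y`
(`abelianLevel_of_not_dvd`, `abelianLevelAt`): an input of Mazur's principle.
-/

set_option autoImplicit false

noncomputable section

open AlgebraicCurve ModularCurve FLTAgent.GaloisAttach FLTAgent.HeckeJacobian IsLocalRing
open FLTAgent.SemistableHecke FLTAgent.FFBasic
open FLTAgent.Semistable.Eisenstein (IsNrm exists_norm_res exists_isNrm exists_unit_lift
  hasBar_of_mem)

namespace FLTAgent.SemistableFinals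

open FLTAgent.Density (GalQ Qbar)

variable {M q : ℕ} [NeZero M] [NeZero q] {A : ValuationSubring Qbar}

local notation "kA" => ResidueField A
local notation "FM" => modularFunctionFieldFullC (ResidueField A) M

omit [NeZero M] [NeZero q] in
/-- Data for a multiple of a class. -/
theorem IsData.nsmulData {m : ℕ} {x : JZero (M * q)} {f : modularFunctionFieldBar (M * q)}
    {r : LaurentSeries kA} (h : IsData A m x f r) (n : ℕ) :
    IsData A m (n • x) (f ^ n) (r ^ n) := by
  obtain ⟨D, hD, hf, hdiv, hr, hb⟩ := h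
  refine ⟨n • D, ?_, pow_ne_zero n hf, fun v => ?_, pow_ne_zero n hr, ?_⟩
  · rw [← hD]; exact map_nsmul (QuotientAddGroup.mk' _) n D
  · rw [← zpow_natCast f n, v.ord_zpow, ← hdiv, AddSubgroup.coe_nsmul, Finsupp.smul_apply,
      nsmul_eq_mul]
    ring
  · rw [SubmonoidClass.coe_pow]; exact hb.pow n

variable [Fact q.Prime] [IsAlgClosed (ResidueField A)] [CharP (ResidueField A) q]
  (S : Semistable.Level.Setting M q A (residue A))

include S

/-- Residual data of one class differ by constants and powers. -/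
theorem exists_data_eq (hA : A.LiesOverPrime q) {m : ℕ} {x : JZero (M * q)}
    {f g : modularFunctionFieldBar (M * q)} {r s : FM}
    (h : IsData A m x f (r : LaurentSeries kA)) (h' : IsData A m x g (s : LaurentSeries kA)) :
    ∃ (c : kA) (z : FM), c ≠ 0 ∧ z ≠ 0 ∧ s = c • (r * z ^ m) := by
  have h0 := h'.mul h.neg
  rw [add_neg_cancel] at h0
  obtain ⟨c, z, hc, hz, hzm, he⟩ := (triv_zero m).of_data S hA h0
  have hr : (r : LaurentSeries kA) ≠ 0 := h.choose_spec.2.2.2.1
  refine ⟨c, ⟨z, hzm⟩, hc, fun h0 => hz (congrArg Subtype.val h0), Subtype.ext ?_⟩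
  rw [IntermediateField.coe_smul, Algebra.smul_def, algebraMap_laurentSeries_eq_single,
    MulMemClass.coe_mul, SubmonoidClass.coe_pow, mul_left_comm, ← he, ← mul_assoc,
    mul_comm (r : LaurentSeries kA), mul_assoc, mul_inv_cancel₀ hr, mul_one]

variable [IsFunctionField (ResidueField A) (modularFunctionFieldFullC (ResidueField A) M)]

/-- The residual datum of a Hecke transform is the residual norm. -/
theorem exists_hecke_data {ℓ : ℕ} [Fact ℓ.Prime] (hℓN : ¬ ℓ ∣ M * q) {u : Qbarˣ} {vu : Aˣ}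
    (hu : IsPrimitiveRoot u ℓ) (huv : ((vu : A) : Qbar) = u) {m : ℕ} {x : JZero (M * q)}
    {f : modularFunctionFieldBar (M * q)} {r : FM}
    (h : IsData A m x f (r : LaurentSeries kA)) :
    ∃ (y : FM) (a : kA) (g : modularFunctionFieldBar (M * q)), a ≠ 0 ∧ IsNrm M ℓ vu r y ∧
      IsData A m (heckeOperatorBar (M * q) ⟨ℓ, Fact.out⟩ x) g
        ((a • y : FM) : LaurentSeries kA) := by
  obtain ⟨D, hD, hf, hdiv, hr, hb⟩ := h
  obtain ⟨hm, hres⟩ := (hasBar_iff (Semistable.Level.ι₁ M q) f _).mp hb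
  have hres' : (Semistable.Level.branch₁ S).res ⟨f, hm⟩ = r := Subtype.ext hres
  have hr' : r ≠ 0 := fun h0 => hr (congrArg Subtype.val h0)
  obtain ⟨c, y, a, ha, hy, hcm, hcr⟩ := exists_norm_res S hℓN hu huv hm (by rw [hres']; exact hr')
  have hnrm : IsNrm M ℓ vu r y := hy.trans (by rw [hres'])
  set f' := normAlong (heckeAlphaBar Qbar (M * q) ℓ) (heckeBetaBar Qbar (M * q) ℓ f)
  have hay : a • y ≠ 0 := by
    rw [Algebra.smul_def]
    exact mul_ne_zero ((_root_.map_ne_zero _).mpr ha) (hnrm.ne_zero hr')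
  have hbar : HasBar A ((c • f' : modularFunctionFieldBar (M * q)) : LaurentSeries Qbar)
      ((a • y : FM) : LaurentSeries kA) := by
    have h1 := hasBar_of_mem S hcm
    rwa [show (Semistable.Level.branch₁ S).res ⟨c • f', hcm⟩ = a • y from
      (((Semistable.Level.branch₁ S).red_eq hcm).symm.trans hcr)] at h1
  have hβ0 : heckeBetaBar Qbar (M * q) ℓ f ≠ 0 := (map_ne_zero _).mpr hf
  have hf'0 : c • f' ≠ 0 := fun h0 => hay (Subtype.ext (hbar.unique (by
    rw [h0]; exact ⟨0, 1, by simp, by simp, by simp⟩)))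
  have hc0 : c ≠ 0 := fun h0 => hf'0 (by rw [h0, zero_smul])
  have hf'1 : f' ≠ 0 := fun h0 => hf'0 (by rw [h0, smul_zero])
  obtain ⟨E, hE, eE⟩ := heckeOperatorBar_mk (N := M * q) ⟨ℓ, Fact.out⟩ D
  simp only [scaledPush, scaledPull, ← heckeAlphaBar_eq,
    ← heckeBetaBar_eq] at eE
  refine ⟨y, a, c • f', ha, hnrm, E, by rw [← hD]; exact hE.symm, hf'0, fun v => ?_,
    fun h0 => hay (Subtype.ext h0), hbar⟩
  rw [FFBasic.ord_smul_const v hc0, eE, ← nsmul_eq_mul, ← Finsupp.smul_apply,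
    ← map_nsmul, ← map_nsmul,
    pushforwardAlong_apply_principal _ _ (FFBasic.finiteAlong _) (FFBasic.normFormulaAlong _ _)
      hβ0 (pullbackAlong_apply_principal _ _ (f := f) fun w => by
        rw [Finsupp.smul_apply, nsmul_eq_mul, hdiv])]

/-- Eigenclasses of zero slope and nontrivial residual datum have eigenvalues of level `M`. -/
theorem evalMod_eq_zero_of_residual {p : ℕ} [Fact p.Prime] (hA : A.LiesOverPrime q)
    {x : JZero (M * q)} (hx : p • x = 0) (hsl : SlopeZero A p x) (ht : ¬ Triv A p x)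
    (T : Finset ℕ) (hT : ∀ r : ℕ, r.Prime → r ∣ M * q → r ∈ T) (a : ℕ → ℕ)
    (ha : ∀ (ℓ : ℕ) (hℓ : ℓ.Prime), ℓ ∉ T → heckeOperatorBar (M * q) ⟨ℓ, hℓ⟩ x = a ℓ • x)
    (R : GoodRing (M * q) (↑T : Set ℕ))
    (hR : lowerTheta (M * q) M (dvd_mul_right M q) _ R = 0) : evalMod p a R = 0 := by
  classical
  have hq : q.Prime := Fact.out
  have hp : p.Prime := Fact.out
  have hqM : ¬ q ∣ M := S.not_dvd
  obtain ⟨h, hI⟩ := CongruenceRel.fibreInputs M hq hqM A hA
  let := heckeModuleBar M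
  obtain ⟨f, r₀, hf⟩ := exists_isData hq hA hx
  obtain ⟨r, rfl⟩ : ∃ r : FM, (r : LaurentSeries kA) = r₀ := by
    obtain ⟨-, -, -, -, -, hb⟩ := id hf
    exact ⟨⟨r₀, bar_mem S hb⟩, rfl⟩
  have hr : r ≠ 0 := fun h0 => hf.choose_spec.2.2.2.1 (congrArg Subtype.val h0)
  -- the reduced class
  obtain ⟨E, hE⟩ := Semistable.exists_divBy (m := p) hp.pos r fun v =>
    (ZMod.intCast_zmod_eq_zero_iff_dvd _ p).mpr (hsl f r hf v)
  set y : JZeroC kA M := Pic0.mk E
  have hy0 : y ≠ 0 := fun h0 => ht (by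
    obtain ⟨c, z, hc, hz, e⟩ := Semistable.exists_eq_smul_pow_of_principal hr hE h0
    refine ⟨f, r, hf, c, z, hc, fun h1 => hz (Subtype.ext h1), z.2, ?_⟩
    rw [e, IntermediateField.coe_smul, Algebra.smul_def, algebraMap_laurentSeries_eq_single,
      SubmonoidClass.coe_pow])
  have hpy : p • y = 0 := by
    show p • Pic0.mk E = 0
    rw [show p • Pic0.mk E = Pic0.mk (p • E) from (map_nsmul (QuotientAddGroup.mk' _) p E).symm,
      CongruenceRel.pic0_mk_eq_zero]
    exact ⟨r, hr, fun v => by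
      rw [AddSubgroup.coe_nsmul, Finsupp.smul_apply, nsmul_eq_mul]; exact hE v⟩
  obtain ⟨D, hD⟩ := exists_lift_degZero hI E
  have hY : reductionModL A M (Pic0.mk D) = y :=
    (reductionModL_mk h D).trans (congrArg Pic0.mk (Subtype.ext hD))
  -- the operators on the lift
  have hgen : ∀ (ℓ : ℕ) (hℓ : ℓ.Prime), ℓ ∉ T →
      reductionModL A M (heckeOperatorBar M ⟨ℓ, hℓ⟩ (Pic0.mk D)) = a ℓ • y := by
    intro ℓ hℓ hℓT
    have : Fact ℓ.Prime := ⟨hℓ⟩
    have hℓN : ¬ ℓ ∣ M * q := fun hd => hℓT (hT ℓ hℓ hd)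
    obtain ⟨u, hu⟩ := exists_primitiveRoot ℓ
    obtain ⟨vu, huv⟩ := exists_unit_lift (A := A) hℓ.ne_zero hu.pow_eq_one
    obtain ⟨yn, c₀, g, hc₀, hnrm, hdata⟩ := exists_hecke_data S hℓN hu huv hf
    rw [ha ℓ hℓ hℓT] at hdata
    obtain ⟨c, z, hc, hz, he⟩ := exists_data_eq S hA
      (r := r ^ a ℓ) (s := c₀ • yn)
      (by rw [SubmonoidClass.coe_pow]; exact IsData.nsmulData hf (a ℓ)) hdata
    obtain ⟨hα, hβ⟩ := CongruenceRel.heckeInputs M ℓ
    obtain ⟨E', hE', hE''⟩ := CongruenceRel.reduction_heckeOperatorAlong h ℓ hα hβ D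
    rw [show heckeOperatorBar M ⟨ℓ, hℓ⟩ (Pic0.mk D) = heckeOperatorAlong Qbar M ℓ (Pic0.mk D)
      from rfl, hE']
    show Pic0.mk E' = a ℓ • Pic0.mk E
    rw [show a ℓ • Pic0.mk E = Pic0.mk (a ℓ • E) from
        (map_nsmul (QuotientAddGroup.mk' _) (a ℓ) E).symm,
      ← sub_eq_zero, show Pic0.mk E' - Pic0.mk (a ℓ • E) = Pic0.mk (E' - a ℓ • E) from
        (map_sub (QuotientAddGroup.mk' _) E' (a ℓ • E)).symm, CongruenceRel.pic0_mk_eq_zero]
    refine ⟨z, hz, fun v => ?_⟩
    have hp0 : (p : ℤ) ≠ 0 := by exact_mod_cast hp.ne_zero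
    refine mul_left_cancel₀ hp0 ?_
    have h1 := mapDomain_hecke_eq_ord hI hα hβ (fun hd => hℓN (hd.mul_right q)) hu huv hr hnrm
      (n := p) (D := (D : Divisor Qbar _)) (fun w => by rw [hD]; exact hE w) v
    rw [AddSubgroup.coe_sub, AddSubgroup.coe_nsmul, Finsupp.sub_apply, Finsupp.smul_apply,
      nsmul_eq_mul, mul_sub, hE'', h1, mul_left_comm, hE v]
    have h2 := congrArg v.ord he
    rw [FFBasic.ord_smul_const v hc₀, FFBasic.ord_smul_const v hc,
      v.ord_mul (pow_ne_zero _ hr) (pow_ne_zero _ hz), ← zpow_natCast r, ← zpow_natCast z,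
      v.ord_zpow, v.ord_zpow] at h2
    rw [h2]
    ring
  have heval : ∀ P : GoodRing (M * q) (↑T : Set ℕ),
      reductionModL A M (goodIncl (M * q) (↑T : Set ℕ) P • Pic0.mk D) =
        (evalMod p a P).val • y := by
    intro P
    induction P using MvPolynomial.induction_on with
    | C n =>
      rw [show (MvPolynomial.C n : GoodRing (M * q) (↑T : Set ℕ)) =
        (n : GoodRing (M * q) (↑T : Set ℕ)) from map_intCast MvPolynomial.C n, map_intCast,
        map_intCast, Int.cast_smul_eq_zsmul, map_zsmul, hY]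
      conv_lhs => rw [← Int.emod_add_mul_ediv n p, add_zsmul, mul_comm, mul_zsmul,
        natCast_zsmul, hpy, smul_zero, add_zero]
      rw [← natCast_zsmul, ZMod.val_intCast]
    | add P Q hP hQ =>
      rw [map_add, map_add, add_smul, map_add, hP, hQ, ← add_nsmul, ZMod.val_add]
      conv_lhs => rw [← Nat.mod_add_div ((evalMod p a P).val + (evalMod p a Q).val) p, add_nsmul,
        mul_comm p, mul_nsmul', hpy, smul_zero, add_zero]
    | mul_X P i hP =>
      have hiT : (i.1 : ℕ) ∉ T := fun hh => i.2.2 (Finset.mem_coe.mpr hh)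
      have hTi : heckeGen i.1 • (Pic0.mk D : JZero M) = heckeOperatorBar M i.1 (Pic0.mk D) := by
        rw [heckeModuleBar_smul_def (HeckeJacobian.heckeOperatorsCommuteBar M),
          heckeEvalBar_heckeGen]
      rw [map_mul, map_mul, mul_smul,
        show goodIncl (M * q) (↑T : Set ℕ) (MvPolynomial.X i) = heckeGen i.1 by simp [goodIncl]]
      have h0 : reductionModL A M
          (heckeGen i.1 • (Pic0.mk D : JZero M) - a (i.1 : ℕ) • (Pic0.mk D : JZero M)) = 0 := by
        rw [map_sub, hTi, show reductionModL A M (heckeOperatorBar M i.1 (Pic0.mk D)) =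
          a (i.1 : ℕ) • y from hgen (i.1 : ℕ) i.1.2 hiT, map_nsmul, hY, sub_self]
      have h1 := CongruenceRel.reduction_smul_zero
        (HeckeJacobian.heckeOperatorsCommuteBar M) hI (goodIncl (M * q) (↑T : Set ℕ) P) _ h0
      rw [smul_sub, map_sub, smul_comm _ (a (i.1 : ℕ)), map_nsmul, hP, sub_eq_zero] at h1
      rw [h1, evalMod_X, ← mul_nsmul', ZMod.val_mul, ZMod.val_natCast]
      conv_lhs => rw [← Nat.mod_add_div (a (i.1 : ℕ) * (evalMod p a P).val) p, add_nsmul,
        mul_comm p, mul_nsmul', hpy, smul_zero, add_zero]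
      rw [mul_comm (a _), Nat.mul_mod_mod]
  have h0 := reduction_smul_eq_zero_of_lowerTheta hp hqM hA (dvd_mul_right M q) _ R hR (Pic0.mk D)
    (by rw [hY, hpy])
  rw [heval] at h0
  have h1 := addOrderOf_dvd_of_nsmul_eq_zero h0
  rw [(Nat.dvd_prime hp).mp (addOrderOf_dvd_of_nsmul_eq_zero hpy) |>.resolve_left
    fun hh => hy0 (AddMonoid.addOrderOf_eq_one_iff.mp hh)] at h1
  exact (ZMod.val_eq_zero _).mp (Nat.eq_zero_of_dvd_of_lt h1 (ZMod.val_lt _))

omit S in
/-- The input of Mazur's principle at every prime not dividing `M`. -/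
theorem abelianLevel_of_not_dvd {p : ℕ} [Fact p.Prime] (hqM : ¬ q ∣ M)
    (hA : A.LiesOverPrime q) {x : JZero (M * q)} (hx : p • x = 0) (hsl : SlopeZero A p x)
    (ht : ¬ Triv A p x) (T : Finset ℕ) (hT : ∀ r : ℕ, r.Prime → r ∣ M * q → r ∈ T) (a : ℕ → ℕ)
    (ha : ∀ (ℓ : ℕ) (hℓ : ℓ.Prime), ℓ ∉ T → heckeOperatorBar (M * q) ⟨ℓ, hℓ⟩ x = a ℓ • x)
    (R : GoodRing (M * q) (↑T : Set ℕ))
    (hR : lowerTheta (M * q) M (dvd_mul_right M q) _ R = 0) : evalMod p a R = 0 :=
  evalMod_eq_zero_of_residual (Semistable.Level.setting M q hqM hA) hA hx hsl ht T hT a ha R hR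

end FLTAgent.SemistableFinals

namespace FLTAgent.SemistableFinals

/-- The input at `q = p`. -/
theorem abelianLevelAt (M p : ℕ) [NeZero M] [Fact p.Prime] [NeZero p] (hpM : ¬ p ∣ M) :
    AbelianLevelAt M p := by
  intro A hA x hx hsl ht T hT a ha R hR
  have := Semistable.charP_residueField hA
  have := Deuring.isAlgClosed_residueField A
  have := Deuring.Modular.isFunctionFieldk (Semistable.Level.setting M p hpM hA).good
  exact abelianLevel_of_not_dvd hpM hA hx hsl ht T hT a ha R hR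

end FLTAgent.SemistableFinals
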