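import Fermat.Agent.SemistableFinals.PrincipleSlope
import Fermat.Agent.SemistableFinals.PrincipleLevel
import Fermat.Agent.SemistableFinals.MazurAssembly
import Fermat.Agent.SemistableHecke.LocalSteinberg
import Fermat.Agent.SemistableThree.RemovePrime
import Fermat.Agent.LevelLowering.Outer.Main
import Fermat.Agent.LevelLowering.Outer.Transfer
import Fermat.Agent.LevelRaising.NonEisenstein

/-!
# Mazur's principle at `q ≠ p`

`mazurPrincipleInput`: a semistable curve with irreducible `p`-torsion, unramified at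
`q ≢ 1 (mod p)` and residually modular of squarefree level divisible by `q`, is residually modular
of that level divided by `q`.  Used by level lowering and modularity lifting.
-/

set_option autoImplicit false

noncomputable section

open Matrix ModularCurve FLTAgent.GaloisAttach FLTAgent.HeckeJacobian FLTAgent.SemistableHecke
  IsLocalRing

namespace FLTAgent.SemistableFinals

open FLTAgent.Density (GalQ Qbar)

variable {p : ℕ} [Fact p.Prime] {W : WeierstrassCurve ℤ}

/-- The determinant of a Frobenius at `q ≠ p` is `q`. -/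
theorem det_matRep_frobeniusAt (b : Module.Basis (Fin 2) (ZMod p) (GaloisImage.Tors W p))
    (hΔ : W.Δ ≠ 0) {q : ℕ} [Fact q.Prime] (hqp : q ≠ p) {A : ValuationSubring Qbar}
    (hA : A.LiesOverPrime q) {φ : GalQ} (hφ : A.IsFrobeniusAt φ q) :
    (GaloisImage.matRep W p b φ).det = (q : ZMod p) := by
  have hp : p.Prime := Fact.out
  have hq : q.Prime := Fact.out
  have : NeZero (p : AlgebraicClosure ℚ) := ⟨Nat.cast_ne_zero.mpr hp.ne_zero⟩
  obtain ⟨ζ, hζ⟩ := HasEnoughRootsOfUnity.exists_primitiveRoot (AlgebraicClosure ℚ) p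
  have hd := GaloisImage.apply_eq_pow_det b hΔ φ hζ.pow_eq_one
  set d := (GaloisImage.matRep W p b φ).det.val with hddef
  have hζA : ζ ∈ A := Semistable.Eisenstein.mem_of_pow_eq_one hp.ne_zero hζ.pow_eq_one
  set z : A := ⟨ζ, hζA⟩
  have := Semistable.charP_residueField hA
  have hz : IsPrimitiveRoot (residue A z) p := by
    refine IsPrimitiveRoot.iff_orderOf.mpr (orderOf_eq_prime ?_ fun h1 => ?_)
    · rw [← map_pow, show z ^ p = 1 from Subtype.ext hζ.pow_eq_one, map_one]
    have hsum : ∑ i ∈ Finset.range p, z ^ i = 0 := Subtype.ext (by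
      push_cast
      exact hζ.geom_sum_eq_zero hp.one_lt)
    have h2 := congrArg (residue A) hsum
    simp only [map_sum, map_pow, h1, one_pow, map_zero, Finset.sum_const, Finset.card_range,
      nsmul_eq_mul, mul_one] at h2
    exact hqp ((Nat.prime_dvd_prime_iff_eq hq hp).mp
      ((CharP.cast_eq_zero_iff (ResidueField A) q p).mp h2))
  have h := (Density.isFrobeniusAt_iff.mp hφ).2 ζ hζA
  rw [hd] at h
  have h' : residue A z ^ d = residue A z ^ q := by
    rw [← map_pow, ← map_pow, ← sub_eq_zero, ← map_sub, IsLocalRing.residue_eq_zero_iff,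
      ← ValuationSubring.coe_mem_nonunits_iff]
    exact h
  have hz0 : residue A z ≠ 0 := hz.ne_zero hp.ne_zero
  have h1 : residue A z ^ ((d : ℤ) - (q : ℤ)) = 1 := by
    rw [zpow_sub₀ hz0, zpow_natCast, zpow_natCast, h', div_self (pow_ne_zero q hz0)]
  have h2 := (ZMod.intCast_zmod_eq_zero_iff_dvd _ p).mpr ((hz.zpow_eq_one_iff_dvd _).mp h1)
  rw [Int.cast_sub, Int.cast_natCast, Int.cast_natCast, sub_eq_zero] at h2
  rw [← h2, ZMod.natCast_zmod_val]

/-- A twice applied Frobenius of sign `-q` is `q ^ 2`. -/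
theorem smul_smul_eq_of_frobenius {N : ℕ} [NeZero N] {g : GalQ} {n : ℕ} {T : JZero N →+ JZero N}
    {x : JZero N}
    (h1 : g • x = -(n • T x)) (h2 : g • T x = T (g • x)) (h3 : T (T x) = x) :
    g • g • x = (n * n) • x := by
  set G := DistribSMul.toAddMonoidHom (JZero N) g
  show G (G x) = _
  rw [show G x = -(n • T x) from h1, map_neg, map_nsmul, show G (T x) = T (g • x) from h2, h1,
    map_neg, map_nsmul, h3, neg_nsmul, neg_neg, mul_nsmul]

/-- The eigenclasses are not all toric: Frobenius would be scalar of determinant `q`. -/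
theorem false_of_triv (hp2 : p ≠ 2) (hΔ : W.Δ ≠ 0)
    (b : Module.Basis (Fin 2) (ZMod p) (GaloisImage.Tors W p)) {M q : ℕ} [NeZero M] [NeZero q]
    [Fact q.Prime] (hqM : ¬ q ∣ M) (hqp : q ≠ p) (hq1 : q % p ≠ 1) {S : Finset ℕ}
    (hS : ∀ r : ℕ, r.Prime → r ∣ M * q → r ∈ S) (a : ℕ → ℕ)
    (hspan : Function.Surjective (MonoidAlgebra.lift (ZMod p) (Matrix (Fin 2) (Fin 2) (ZMod p))
      GalQ (GaloisImage.matRep W p b)))
    (hrel : ∀ g, eigenAct p (M * q) S a g + (GaloisImage.matRep W p b g).det •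
      eigenAct p (M * q) S a g⁻¹ = (GaloisImage.matRep W p b g).trace • 1)
    {A : ValuationSubring Qbar} (hA : A.LiesOverPrime q) {x : JZero (M * q)} (hx : x ≠ 0)
    (hxe : x ∈ eigenTors p (M * q) S a) (hall : ∀ y ∈ eigenTors p (M * q) S a, Triv A p y) :
    False := by
  classical
  have hp : p.Prime := Fact.out
  have hq : q.Prime := Fact.out
  have : NeZero p := ⟨hp.ne_zero⟩
  have := Semistable.charP_residueField hA
  have := Deuring.isAlgClosed_residueField A
  have := Deuring.Modular.isFunctionFieldk (Semistable.Level.setting M q hqM hA).good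
  have := GaloisAttach.isFunctionField_bar (M * q)
  set Set0 := Semistable.Level.setting M q hqM hA
  have hk := Semistable.Level.hbar_mem_kj Set0 (Semistable.Level.setting 1 q hq.not_dvd_one hA)
  have h2 : (2 : ZMod p) ≠ 0 := GaloisImage.two_ne_zero_of_ne_two hp2
  set ρ := GaloisImage.matRep W p b
  set π := eigenAct p (M * q) S a
  set R := MonoidAlgebra.lift (ZMod p) (Matrix (Fin 2) (Fin 2) (ZMod p)) GalQ ρ
  set E := MonoidAlgebra.lift (ZMod p) (Module.End (ZMod p) (eigenTors p (M * q) S a)) GalQ π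
  have hfac : ∀ X, R X = 0 → E X = 0 := fun X hX => trace_rel_factor h2 ρ π hspan hrel hX
  obtain ⟨φ, hφ⟩ := Density.exists_isFrobeniusAt A hq hA
  set w := Set0.al.w
  have hwα := Set0.al.w_alpha
  have hwβ := Set0.al.w_beta
  have hw : ∀ x ∈ eigenTors p (M * q) S a, pushJ w x ∈ eigenTors p (M * q) S a := by
    intro x hx
    refine ⟨by rw [← map_nsmul, hx.1, map_zero], fun ℓ hℓ h => ?_⟩
    have : NeZero ℓ := ⟨hℓ.ne_zero⟩
    have : NeZero ((⟨ℓ, hℓ⟩ : Nat.Primes) : ℕ) := ⟨hℓ.ne_zero⟩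
    rw [← pushJ_heckeOperatorBar ⟨ℓ, hℓ⟩ (heckeLift_al (ModularFF.alInputs q hq) hwα hwβ hq hqM
      (fun e => h (hS ℓ hℓ (e ▸ dvd_mul_left q M))) hℓ), hx.2 ℓ hℓ h, map_nsmul]
  obtain ⟨hφD, hfr⟩ := id hφ
  have hadm := Semistable.admissible_residue hA
    (m := p) fun hd => hqp ((Nat.prime_dvd_prime_iff_eq hq hp).mp hd)
  have hfrob : ∀ x ∈ eigenTors p (M * q) S a, φ • x = -(q • pushJ w x) := by
    intro x hx
    have ht := isTorus_of_triv (C := Semistable.Level.pairReduction Set0 hk) Set0 rfl rfl hA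
      hp.pos hx.1 (hall x hx) (hall _ (hw x hx))
    have h := Semistable.Level.frob_add_nsmul_al (σ := φ)
      (hσ := fun a ha => ((⟨φ, hφD⟩ : A.decompositionSubgroup ℚ) • (⟨a, ha⟩ : A)).2) Set0 hk
      hadm (fun a => hfr (residue A a)) ht
    rw [← pushJ_eq_smul (al_involutive hwα hwβ) _
      (fun f => by
        rw [AlgebraicCurve.SemilinearAut.ofAlgAut_smul, Semistable.Level.alEquiv_apply])] at h
    exact eq_neg_of_add_eq_zero_left h
  have hne : (⟨x, hxe⟩ : eigenTors p (M * q) S a) ≠ 0 := fun h =>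
    hx (congrArg Subtype.val h)
  have hfaith : ∀ X, E X = 0 → R X = 0 := fun X hX =>
    trace_rel_faithful h2 ρ π hspan hrel hne hX
  have hcomm : ∀ g, ρ φ * ρ g = ρ g * ρ φ := fun g => by
    have h := hfaith (MonoidAlgebra.single φ 1 * MonoidAlgebra.single g 1 -
      MonoidAlgebra.single g 1 * MonoidAlgebra.single φ 1) (by
        rw [map_sub, map_mul, map_mul, MonoidAlgebra.lift_single, MonoidAlgebra.lift_single,
          one_smul, one_smul, sub_eq_zero]
        refine LinearMap.ext fun x => Subtype.ext ?_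
        rw [Module.End.mul_apply, Module.End.mul_apply, coe_eigenAct, coe_eigenAct, coe_eigenAct,
          coe_eigenAct, hfrob _ (smul_mem_eigenTors g x.2), hfrob _ x.2,
          pushJ_al_galois hwα hwβ]
        rw [show g • -(q • pushJ w (x : JZero (M * q))) = -(q • g • pushJ w (x : JZero (M * q)))
          from ((DistribSMul.toAddMonoidHom (JZero (M * q)) g).map_neg _).trans
            (congrArg Neg.neg ((DistribSMul.toAddMonoidHom (JZero (M * q)) g).map_nsmul _ _))])
    rwa [map_sub, map_mul, map_mul, MonoidAlgebra.lift_single, MonoidAlgebra.lift_single,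
      one_smul, one_smul, sub_eq_zero] at h
  -- a matrix commuting with all of the image is scalar
  have hcommAll : ∀ B : Matrix (Fin 2) (Fin 2) (ZMod p), ρ φ * B = B * ρ φ := fun B => by
    obtain ⟨X, rfl⟩ := hspan B
    induction X using MonoidAlgebra.induction_on with
    | of g =>
      rw [MonoidAlgebra.of_apply, MonoidAlgebra.lift_single, one_smul]
      exact hcomm g
    | add X Y hX hY => rw [map_add, mul_add, add_mul, hX, hY]
    | smul c X hX => rw [map_smul, Matrix.mul_smul, Matrix.smul_mul, hX]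
  obtain ⟨c, hc⟩ : ∃ c : ZMod p, ρ φ = c • (1 : Matrix (Fin 2) (Fin 2) (ZMod p)) := by
    refine ⟨ρ φ 0 0, ?_⟩
    have e1 := congrFun (congrFun (hcommAll !![0, 1; 0, 0]) 0) 1
    have e2 := congrFun (congrFun (hcommAll !![0, 1; 0, 0]) 1) 1
    have e3 := congrFun (congrFun (hcommAll !![0, 0; 1, 0]) 0) 0
    simp [Matrix.mul_apply, Fin.sum_univ_two] at e1 e2 e3
    ext i j
    fin_cases i <;> fin_cases j <;> simp [e1, e2, e3]
  have hdet : c ^ 2 = (q : ZMod p) := by
    rw [← det_matRep_frobeniusAt b hΔ hqp hA hφ]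
    show c ^ 2 = (ρ φ).det
    rw [hc, det_smul, det_one, mul_one, Fintype.card_fin]
  have hπ : π φ = c • 1 := by
    have h := hfac (MonoidAlgebra.single φ 1 - c • 1) (by
      rw [map_sub, MonoidAlgebra.lift_single, one_smul, map_smul, map_one, hc, sub_self])
    rwa [map_sub, MonoidAlgebra.lift_single, one_smul, map_smul, map_one, sub_eq_zero] at h
  have hsq : (c ^ 2 - (q : ZMod p) ^ 2) •
      (⟨x, hxe⟩ : eigenTors p (M * q) S a) = 0 := by
    rw [sub_smul, sub_eq_zero]
    have h1 : π φ (π φ ⟨x, hxe⟩) = c ^ 2 • (⟨x, hxe⟩ : eigenTors p (M * q) S a) := by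
      rw [hπ, LinearMap.smul_apply, LinearMap.smul_apply, Module.End.one_apply,
        Module.End.one_apply, smul_smul, pow_two]
    have h2 : π φ (π φ ⟨x, hxe⟩) = (q : ZMod p) ^ 2 • (⟨x, hxe⟩ : eigenTors p (M * q) S a) := by
      rw [pow_two, ← Nat.cast_mul, Nat.cast_smul_eq_nsmul]
      refine Subtype.ext ?_
      rw [AddSubgroup.coe_nsmul, coe_eigenAct, coe_eigenAct]
      exact smul_smul_eq_of_frobenius (hfrob _ hxe) (pushJ_al_galois hwα hwβ φ x).symm
        (pushJ_w_w Set0 x)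
    rw [← h1, h2]
  rcases smul_eq_zero.mp hsq with h | h
  · rw [hdet] at h
    have hq0 : (q : ZMod p) ≠ 0 := fun h0 => hqp
      ((Nat.prime_dvd_prime_iff_eq hp hq).mp ((ZMod.natCast_eq_zero_iff _ _).mp h0)).symm
    have h1 : (q : ZMod p) = 1 := by
      refine mul_left_cancel₀ hq0 ?_
      rw [mul_one, ← pow_two]
      exact (sub_eq_zero.mp h).symm
    have h' := congrArg ZMod.val h1
    rw [ZMod.val_natCast, ZMod.val_one] at h'
    exact hq1 h'
  · exact hne h

/-- Mazur's principle, with an auxiliary prime in the level at `p = 3`. -/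
theorem residual_of_unramified_level (hp2 : p ≠ 2) (hΔ : W.Δ ≠ 0) (_hW : W.IsSemistableModel)
    (hirr : W.ModRepIsIrreducible p) {M q : ℕ} [NeZero M] [NeZero q] [Fact q.Prime]
    (hqM : ¬ q ∣ M) (hqp : q ≠ p) (hq1 : q % p ≠ 1)
    (h3 : p = 3 → ∃ E, E.Prime ∧ E % 3 = 2 ∧ E ∣ M)
    (hunr : WeierstrassCurve.Affine.Point.GaloisRepUnramifiedAt (K := AlgebraicClosure ℚ) ℚ
      (W.map (Int.castRingHom ℚ)) p q)
    (hres : W.IsResiduallyModularOfLevel p (M * q)) : W.IsResiduallyModularOfLevel p M := by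
  classical
  have hp : p.Prime := Fact.out
  have : NeZero p := ⟨hp.ne_zero⟩
  have hq : q.Prime := Fact.out
  obtain ⟨f, 𝔪, hf, hmax, hpm, hfa⟩ := hres
  set S : Finset ℕ := (M * q).primeFactors ∪ W.Δ.natAbs.primeFactors ∪ {p}
  have hS : ∀ r : ℕ, r.Prime → r ∣ M * q → r ∈ S := fun r hr hd =>
    Finset.mem_union_left _
      (Finset.mem_union_left _ (Nat.mem_primeFactors.mpr ⟨hr, hd, NeZero.ne _⟩))
  have hSbad : ∀ r : ℕ, r.Prime → (r : ℤ) ∣ W.Δ → r ∈ S := fun r hr hd =>
    Finset.mem_union_left _ (Finset.mem_union_right _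
      (Nat.mem_primeFactors.mpr ⟨hr, Int.natCast_dvd.mp hd, by simpa using hΔ⟩))
  have hpS : p ∈ S := Finset.mem_union_right _ (Finset.mem_singleton_self p)
  have hout : ∀ ℓ : ℕ, ℓ.Prime → ℓ ∉ S →
      W.IsGoodPrimeFor ℓ ∧ ¬ ℓ ∣ M * q ∧ ℓ ≠ p := fun ℓ hℓ h =>
    ⟨fun hd => h (hSbad ℓ hℓ hd), fun hd => h (hS ℓ hℓ hd), fun e => h (e ▸ hpS)⟩
  let a : ℕ → ℕ := fun ℓ => (W.apOfModel ℓ : ZMod p).val
  have ha : ∀ ℓ : ℕ, (a ℓ : ZMod p) = (W.apOfModel ℓ : ZMod p) := fun ℓ => ZMod.natCast_zmod_val _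
  have hcong : ∀ ℓ : ℕ, ℓ.Prime → ℓ ∉ S → ∃ c : integralClosure ℤ ℂ,
      (c : ℂ) = ModularFormClass.qCoeff f ℓ ∧ c - (a ℓ : integralClosure ℤ ℂ) ∈ 𝔪 := by
    intro ℓ hℓ h
    obtain ⟨hgood, hℓN, hℓp⟩ := hout ℓ hℓ h
    obtain ⟨c, hc, hcm⟩ := hfa ℓ hℓ hgood hℓN hℓp
    exact ⟨c, hc, sub_natCast_mem hpm (ha ℓ) hcm⟩
  obtain ⟨x₁, hx₁, hx₁p, hx₁e⟩ := exists_torsion_eigen hf hmax hpm S hS a hcong
  have hSgood : ∀ r ∈ S, r.Prime → r ∉ ({q} : Finset ℕ) → W.IsGoodPrimeFor r → ¬ r ∣ M →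
      r = p := by
    intro r hr hrp hrq hgood hrM
    rcases Finset.mem_union.mp hr with h | h
    · rcases Finset.mem_union.mp h with h | h
      · exact ((Nat.Prime.dvd_mul hrp).mp (Nat.mem_primeFactors.mp h).2.1).elim (absurd · hrM)
          fun hd =>
            absurd (Finset.mem_singleton.mpr ((Nat.prime_dvd_prime_iff_eq hrp hq).mp hd)) hrq
      · exact absurd (Int.natCast_dvd.mpr (Nat.mem_primeFactors.mp h).2.1) hgood
    · exact Finset.mem_singleton.mp h
  have hdown : (∀ r : GoodRing (M * q) (↑S : Set ℕ),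
      lowerTheta (M * q) M (dvd_mul_right M q) _ r = 0 → evalMod p a r = 0) →
      W.IsResiduallyModularOfLevel p M := fun h => by
    obtain ⟨g, 𝔫, hg, hmax', hpn, hga⟩ := residual_of_evalMod (W := W) (T := {q})
      (dvd_mul_right M q) S hS hSgood a (fun ℓ _ _ => ha ℓ) h
    exact LevelLowering.residual_of_congr_almostAll hΔ hg hmax' hpn {q} hga
  -- a class not killed by a pushforward
  by_cases hold : ∃ x ∈ eigenTors p (M * q) S a,
      pushJ (heckeAlphaBar Qbar M q) x ≠ 0 ∨ pushJ (heckeBetaBar Qbar M q) x ≠ 0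
  · obtain ⟨x, hx, hne⟩ := hold
    exact hdown fun r hr => evalMod_eq_zero_of_pushJ_ne_zero hq hqM hx hne r hr
  push Not at hold
  obtain ⟨A, hA⟩ := Density.exists_liesOverPrime hq
  have := Semistable.charP_residueField hA
  have := Deuring.isAlgClosed_residueField A
  have := Deuring.Modular.isFunctionFieldk (Semistable.Level.setting M q hqM hA).good
  have := GaloisAttach.isFunctionField_bar (M * q)
  set Set0 := Semistable.Level.setting M q hqM hA
  have hk := Semistable.Level.hbar_mem_kj Set0 (Semistable.Level.setting 1 q hq.not_dvd_one hA)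
  obtain ⟨b⟩ := GaloisImage.exists_basis (W := W) (p := p) hΔ
  -- the algebra
  set ρ := GaloisImage.matRep W p b
  set π := eigenAct p (M * q) S a
  have h2 : (2 : ZMod p) ≠ 0 := GaloisImage.two_ne_zero_of_ne_two hp2
  obtain ⟨hspan, hrel⟩ := lift_surjective_and_eigenAct_rel hp2 b hΔ hirr S a
    (fun r hr hd => by
      rcases (Nat.Prime.dvd_mul hr).mp hd with h | h
      · exact hS r hr h
      · exact (Nat.prime_dvd_prime_iff_eq hr hp).mp h ▸ hpS)
    hSbad (fun ℓ _ _ => ha ℓ)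
  set R := MonoidAlgebra.lift (ZMod p) (Matrix (Fin 2) (Fin 2) (ZMod p)) GalQ ρ
  set E := MonoidAlgebra.lift (ZMod p) (Module.End (ZMod p) (eigenTors p (M * q) S a)) GalQ π
  have hfac : ∀ X, R X = 0 → E X = 0 := fun X hX => trace_rel_factor h2 ρ π hspan hrel hX
  -- inertia at `q` fixes the eigenclasses
  have hI : ∀ σ ∈ A.inertiaSubgroupIn ℚ, ∀ x ∈ eigenTors p (M * q) S a, σ • x = x := by
    intro σ hσ x hx
    have hρ : ρ σ = 1 := Matrix.ext_of_mulVec_single fun j => by
      have h := GaloisImage.matRep_mulVec b σ (b j)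
      rw [hunr A hA σ hσ (b j), b.repr_self, Finsupp.single_eq_pi_single] at h
      rw [h, Matrix.one_mulVec]
    have h := hfac (MonoidAlgebra.single σ 1 - 1) (by
      rw [map_sub, map_one, MonoidAlgebra.lift_single, one_smul, hρ, sub_self])
    rw [map_sub, map_one, MonoidAlgebra.lift_single, one_smul, sub_eq_zero] at h
    exact congrArg Subtype.val (LinearMap.congr_fun h ⟨x, hx⟩)
  by_cases hall : ∀ x ∈ eigenTors p (M * q) S a, Triv A p x
  · exact (false_of_triv hp2 hΔ b hqM hqp hq1 hS a hspan hrel hA hx₁ ⟨hx₁p, hx₁e⟩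
      hall).elim
  push Not at hall
  obtain ⟨x₀, hx₀, hx₀t⟩ := hall
  by_cases hsl : SlopeZero A p x₀
  · exact hdown fun r hr =>
      abelianLevel_of_not_dvd hqM hA hx₀.1 hsl hx₀t S hS a hx₀.2 r hr
  exfalso
  obtain ⟨ℓ, hℓ, hℓS, -, -, hℓ1, hap⟩ :=
    LevelRaising.exists_prime_not_eisenstein hp2 hΔ hirr (m := p) hp.pos S
  have h := natCast_eq_succ_of_tame Set0 hk hA hp2 hqp h3 hx₀.1 (fun σ hσ => hI σ hσ x₀ hx₀) hsl
    hℓ (hout ℓ hℓ hℓS).2.1 (hx₀.2 ℓ hℓ hℓS)
  rw [ha, (ZMod.natCast_eq_natCast_iff _ _ _).mpr hℓ1, Nat.cast_one] at h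
  refine hap ?_
  rw [← ZMod.intCast_zmod_eq_zero_iff_dvd, Int.cast_sub, h]
  push_cast
  ring

end FLTAgent.SemistableFinals

namespace FLTAgent.SemistableFinals

open FLTAgent.Density (GalQ Qbar)

/-- **Mazur's principle away from `p`**, for every odd `p`. -/
theorem mazurPrincipleInput {p : ℕ} [Fact p.Prime] (hp2 : p ≠ 2) {W : WeierstrassCurve ℤ}
    (hΔ : W.Δ ≠ 0) (hW : W.IsSemistableModel) (hirr : W.ModRepIsIrreducible p) :
    LevelLowering.MazurPrincipleInput p W := by
  intro N q hN hq hqN hqp hq1 hunr hres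
  have : Fact q.Prime := ⟨hq⟩
  have : NeZero q := ⟨hq.ne_zero⟩
  obtain ⟨M, rfl⟩ := hqN
  rw [mul_comm] at hN hres
  rw [Nat.mul_div_cancel_left _ hq.pos]
  have : NeZero M := ⟨fun h => hN.ne_zero (by rw [h, zero_mul])⟩
  have hqM : ¬ q ∣ M := fun hd => hq.not_isUnit
    ((Nat.squarefree_mul_iff.mp hN).1.symm.eq_one_of_dvd hd ▸ isUnit_one)
  by_cases h3 : p = 3
  swap
  · exact residual_of_unramified_level hp2 hΔ hW hirr hqM hqp hq1 (fun h => absurd h h3) hunr hres
  obtain ⟨C⟩ := LevelLowering.exists_curveResidual hp2 W hΔ hW hirr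
    (RingHom.id (IsLocalRing.ResidueField (ModularityLifting.Start.Coeff p)))
  obtain ⟨E, hE, hES, hE2, htr⟩ :=
    C.three h3 (insert p (insert q (M.primeFactors ∪ ModularityLifting.Start.badPrimes W)))
  simp only [Finset.mem_insert, Finset.mem_union, not_or] at hES
  obtain ⟨hEp, hEq, hEM, hEbad⟩ := hES
  have hEM' : ¬ E ∣ M := fun h => hEM (Nat.mem_primeFactors.mpr ⟨hE, h, NeZero.ne M⟩)
  have hgood : W.IsGoodPrimeFor E := fun h =>
    hEbad ((ModularityLifting.Start.mem_badPrimes hΔ).mpr ⟨hE, h⟩)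
  have : NeZero (M * E) := ⟨mul_ne_zero (NeZero.ne M) hE.ne_zero⟩
  have hqME : ¬ q ∣ M * E := fun h => (hq.dvd_mul.mp h).elim hqM fun h' =>
    hEq ((Nat.prime_dvd_prime_iff_eq hq hE).mp h').symm
  have hresE : W.IsResiduallyModularOfLevel p (M * E * q) :=
    ModularityLifting.Start.residual_of_dvd (Dvd.intro E (by ring)) hres
  refine SemistableThree.residual_remove_prime hp2 hΔ hW hirr hE hEM' hEp hgood
    (fun _ => ⟨E, hE, dvd_mul_left _ _, hE2⟩) ?_
    (residual_of_unramified_level hp2 hΔ hW hirr hqME hqp hq1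
      (fun _ => ⟨E, hE, hE2, dvd_mul_left _ _⟩) hunr hresE)
  subst h3
  have hE1 : (E : ZMod 3) + 1 = 0 := by
    rw [← Nat.cast_succ, ZMod.natCast_eq_zero_iff]
    omega
  rw [hE1, zero_pow two_ne_zero]
  refine pow_ne_zero 2 fun h0 => ?_
  obtain ⟨P, hP⟩ := Density.exists_liesOverPrime hE
  obtain ⟨φ, hφ⟩ := Density.exists_isFrobeniusAt P hE hP
  refine htr P hP φ hφ ?_
  rw [C.trace_good E hE hgood hEp P hP φ hφ]
  exact (CharP.intCast_eq_zero_iff _ 3 _).mpr ((ZMod.intCast_zmod_eq_zero_iff_dvd _ 3).mp h0)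

end FLTAgent.SemistableFinals
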