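import Fermat.Agent.LevelRaising.VarChange
import Fermat.Agent.ECTorsion.GlobalTrace

/-!
# Integral models of a semistable curve

A model of a semistable curve is good only where that curve is (`isGoodPrimeFor_of_model`), and
its traces of Frobenius agree modulo `p` with those of the curve (`apOfModel_congr_model`).  Used
to move residual modularity to the Frey model in `SemistableFinals.MazurLowering`.
-/

set_option autoImplicit false

noncomputable section

open WeierstrassCurve WeierstrassCurve.Affine WeierstrassCurve.Affine.Point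
open scoped WeierstrassCurve.Affine

namespace FLTAgent.SemistableFinals

variable {F W : WeierstrassCurve ℤ}

/-- A prime of good reduction of a model is one of the semistable model. -/
theorem isGoodPrimeFor_of_model (hF : F.IsSemistableModel)
    (hmodel : W.IsIntegralModelOf (F.map (Int.castRingHom ℚ))) {ℓ : ℕ} (hℓ : ℓ.Prime)
    (hgood : W.IsGoodPrimeFor ℓ) : F.IsGoodPrimeFor ℓ := by
  obtain ⟨C, hC⟩ := hmodel
  have e1 := congrArg WeierstrassCurve.c₄ hC
  have e2 := congrArg WeierstrassCurve.Δ hC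
  simp only [WeierstrassCurve.variableChange_c₄, WeierstrassCurve.variableChange_Δ,
    WeierstrassCurve.map_c₄, WeierstrassCurve.map_Δ, eq_intCast] at e1 e2
  have hZ : F.c₄ ^ 3 * W.Δ = W.c₄ ^ 3 * F.Δ := Int.cast_injective (α := ℚ) (by
    push_cast
    rw [← e1, ← e2]
    ring)
  intro hd
  refine hgood ?_
  have h : (ℓ : ℤ) ∣ F.c₄ ^ 3 * W.Δ := hZ ▸ dvd_mul_of_dvd_right hd _
  exact ((Nat.prime_iff_prime_int.mp hℓ).dvd_or_dvd h).resolve_left fun h' =>
    hF ℓ hℓ hd ((Nat.prime_iff_prime_int.mp hℓ).dvd_of_dvd_pow h')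

variable {p : ℕ} [Fact p.Prime]

/-- The traces of Frobenius of two models agree modulo `p`. -/
theorem apOfModel_congr_model (hF : F.IsSemistableModel) (hΔ : F.Δ ≠ 0)
    (hmodel : W.IsIntegralModelOf (F.map (Int.castRingHom ℚ))) {ℓ : ℕ} (hℓ : ℓ.Prime)
    (hℓp : ℓ ≠ p) (hgood : W.IsGoodPrimeFor ℓ) :
    (W.apOfModel ℓ : ZMod p) = (F.apOfModel ℓ : ZMod p) := by
  have hgoodF := isGoodPrimeFor_of_model hF hmodel hℓ hgood
  have : (F.map (Int.castRingHom ℚ)).IsElliptic :=
    ⟨by rw [WeierstrassCurve.map_Δ, isUnit_iff_ne_zero]; simpa using hΔ⟩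
  obtain ⟨-, e, hequiv⟩ := LevelRaising.exists_torsion_equiv_of_isIntegralModelOf hmodel (p := p)
  obtain ⟨A, hA⟩ := FLTAgent.Density.exists_liesOverPrime hℓ
  obtain ⟨σ, hσ⟩ := FLTAgent.Density.exists_isFrobeniusAt A hℓ hA
  rw [← ECTorsion.galoisTrace_eq_apOfModel hℓ hgood hℓp hA hσ,
    ← ECTorsion.galoisTrace_eq_apOfModel hℓ hgoodF hℓp hA hσ, galoisTrace_def, galoisTrace_def,
    ← LinearMap.trace_conj' _ e]
  congr 1
  refine LinearMap.ext fun x => ?_
  obtain ⟨z, rfl⟩ := e.surjective x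
  rw [LinearEquiv.conj_apply_apply, LinearEquiv.symm_apply_apply]
  exact hequiv σ z

end FLTAgent.SemistableFinals
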