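import Fermat.Agent.MazurGeneral.Principle
import Fermat.Agent.SemistableFinals.FreyModels
import Fermat.Agent.Endgame.Frey

/-!
# Lowering at `p` for Frey curves

`loweringAtPInput`: Mazur's principle at `p` for a model of a Frey curve whose level is divisible
by `p`, in the shape consumed by the endgame and by S44.
-/

set_option autoImplicit false

noncomputable section

open WeierstrassCurve FLTAgent.SemistableHecke

namespace FLTAgent.SemistableFinals

/-- The Frey curve is peu ramifié at an exponent dividing `abc`. -/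
theorem freyCurveInt_peu (P : FreyPackage) (habc : (P.p : ℤ) ∣ P.a * P.b * P.c) :
    (P.p : ℤ) ∣ P.freyCurveInt.Δ ∧
      (P.freyCurveInt.map (Int.castRingHom ℚ)).IsPeuRamifieeAt P.p P.p := by
  have : Fact P.p.Prime := ⟨P.pp⟩
  have hp5 := P.hp5
  have h256 : ¬ (P.p : ℤ) ∣ 256 := fun h => by
    have h' : P.p ∣ 2 ^ 8 := by exact_mod_cast h
    have := (Nat.prime_dvd_prime_iff_eq P.pp Nat.prime_two).mp (P.pp.dvd_of_dvd_pow h')
    omega
  have hΔ := Endgame.freyCurveInt_Δ P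
  have hΔ0 := Endgame.freyCurveInt_Δ_ne_zero P
  have hd : (P.p : ℤ) ∣ P.freyCurveInt.Δ := by
    refine ((Nat.prime_iff_prime_int.mp P.pp).dvd_or_dvd ?_).resolve_left h256
    rw [hΔ, show (P.a ^ P.p * P.b ^ P.p * P.c ^ P.p) ^ 2 = (P.a * P.b * P.c) ^ (P.p * 2) by ring]
    exact dvd_pow habc (by omega)
  refine ⟨hd, ?_⟩
  have hv := congrArg (padicValInt P.p) hΔ
  rw [padicValInt.mul (by norm_num) hΔ0, padicValInt.eq_zero_of_not_dvd h256, zero_add,
    show (P.a ^ P.p * P.b ^ P.p * P.c ^ P.p) ^ 2 = (P.a * P.b * P.c) ^ (P.p * 2) by ring,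
    padicValInt, padicValInt, Int.natAbs_pow, padicValNat.pow] at hv
  rw [WeierstrassCurve.IsPeuRamifieeAt, WeierstrassCurve.map_Δ, eq_intCast, padicValRat.of_int,
    padicValInt, hv]
  push_cast
  exact dvd_mul_of_dvd_left (dvd_mul_right _ _) _

/-- **Lowering at the exponent** for Frey curves. -/
theorem loweringAtPInput : Endgame.LoweringAtPInput := by
  intro P N hcond hpN hirr hmod
  have : Fact P.p.Prime := ⟨P.pp⟩
  have : NeZero P.p := ⟨P.hp0⟩
  have hp5 := P.hp5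
  obtain ⟨f, W, 𝔪, hf, hW, hmax, hpm, hfa⟩ := hmod
  obtain ⟨M, hMN⟩ := hpN
  have hN : N = M * P.p := by rw [hMN, mul_comm]
  subst hN
  have : NeZero M := ⟨fun h => hcond.pos.ne' (by rw [h, zero_mul])⟩
  have hndvd : ¬ P.p ∣ M := fun hd =>
    P.pp.not_isUnit ((Nat.squarefree_mul_iff.mp hcond.squarefree).1.symm.eq_one_of_dvd hd ▸
      isUnit_one)
  have hmap := Endgame.freyCurveInt_map P
  have hΔ := Endgame.freyCurveInt_Δ_ne_zero P
  have hF := Endgame.freyCurveInt_isSemistableModel P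
  have hirr' : P.freyCurveInt.ModRepIsIrreducible P.p := by
    rw [WeierstrassCurve.ModRepIsIrreducible, hmap]; exact hirr
  have hmodel : W.IsIntegralModelOf (P.freyCurveInt.map (Int.castRingHom ℚ)) := hmap.symm ▸ hW
  have hΔW : W.Δ ≠ 0 := by
    obtain ⟨C, hC⟩ := hmodel
    intro h
    have e := congrArg WeierstrassCurve.Δ hC
    rw [WeierstrassCurve.variableChange_Δ, WeierstrassCurve.map_Δ, WeierstrassCurve.map_Δ, h,
      map_zero, mul_eq_zero, eq_intCast, Int.cast_eq_zero] at e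
    exact e.elim (fun e => C.u⁻¹.ne_zero (pow_eq_zero_iff (by norm_num) |>.mp e)) hΔ
  have hdiff : ∀ ℓ : ℕ, ℓ.Prime → ℓ ≠ P.p → W.IsGoodPrimeFor ℓ →
      ((W.apOfModel ℓ : ℤ) : integralClosure ℤ ℂ) -
        ((P.freyCurveInt.apOfModel ℓ : ℤ) : integralClosure ℤ ℂ) ∈ 𝔪 := by
    intro ℓ hℓ hℓp hgood
    have h := (ZMod.intCast_eq_intCast_iff_dvd_sub _ _ _).mp
      (apOfModel_congr_model (p := P.p) hF hΔ hmodel hℓ hℓp hgood).symm
    obtain ⟨t, ht⟩ := h
    rw [← Int.cast_sub, ht, Int.cast_mul, Int.cast_natCast]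
    exact 𝔪.mul_mem_right _ hpm
  obtain ⟨g, 𝔫, hg, hnmax, hpn, hga⟩ := residual_of_inputs (by omega) hΔ
    (hF P.p P.pp) hirr' hndvd (MazurGeneral.slopeEisensteinAt_odd (by omega) M hndvd)
    (abelianLevelAt M P.p hndvd)
    (Or.inr (freyCurveInt_peu P (hcond.p_dvd_abc (dvd_mul_left _ _))))
    (T := W.Δ.natAbs.primeFactors) ⟨f, 𝔪, hf, hmax, hpm, fun ℓ hℓ hℓT _ hℓN hℓp => by
      have hgood : W.IsGoodPrimeFor ℓ := fun hd => hℓT
        (Nat.mem_primeFactors.mpr ⟨hℓ, Int.natCast_dvd.mp hd, by simpa using hΔW⟩)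
      obtain ⟨c, hc, hcm⟩ := hfa ℓ hℓ hgood hℓN hℓp
      exact ⟨c, hc, by simpa using add_mem hcm (hdiff ℓ hℓ hℓp hgood)⟩⟩
  refine ⟨M, dvd_mul_right _ _, hndvd, g, W, 𝔫, hg, hW, hnmax, hpn,
    fun ℓ hℓ hgood hℓM hℓp => ?_⟩
  obtain ⟨c, hc, hcm⟩ := hga ℓ hℓ (fun h => hgood (Int.natCast_dvd.mpr
    (Nat.mem_primeFactors.mp h).2.1)) (isGoodPrimeFor_of_model hF hmodel hℓ hgood) hℓM hℓp
  obtain ⟨t, ht⟩ := (ZMod.intCast_eq_intCast_iff_dvd_sub _ _ _).mp
    (apOfModel_congr_model (p := P.p) hF hΔ hmodel hℓ hℓp hgood)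
  refine ⟨c, hc, ?_⟩
  have h' := add_mem hcm (𝔫.mul_mem_right (t : integralClosure ℤ ℂ) hpn)
  rw [← Int.cast_natCast, ← Int.cast_mul, ← ht, Int.cast_sub] at h'
  simpa using h'

end FLTAgent.SemistableFinals
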