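import Fermat.Agent.ECReduction.Torsion
import Fermat.Agent.ECReduction.Multiple

/-!
# Points deep in the kernel of reduction

The scaling of coordinates (`scale`) shows that such points are closed under addition; this bounds
the abscissa of a `p`-torsion point there (`val_natCast_mul_pow_le`).  Used for the local shape of
the `p`-torsion in `SemistableFinals.LocalShape`.
-/

set_option autoImplicit false

noncomputable section

namespace FLTAgent.SemistableFinals

open WeierstrassCurve WeierstrassCurve.Affine FLTAgent.ECReduction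

variable {K : Type*} [Field K] {A : ValuationSubring K} {W : WeierstrassCurve K}

local notation "v" => A.valuation

/-- The curve with coordinates scaled down by `l`. -/
def scale (l : K) (W : WeierstrassCurve K) : WeierstrassCurve K :=
  ⟨W.a₁ / l, W.a₂ / l ^ 2, W.a₃ / l ^ 3, W.a₄ / l ^ 4, W.a₆ / l ^ 6⟩

variable {l : K}

theorem scale_small (hW : IntAt A W) (hl : 1 < v l) :
    v (scale l W).a₁ < 1 ∧ v (scale l W).a₂ < 1 ∧ v (scale l W).a₃ < 1 ∧
      v (scale l W).a₄ < 1 ∧ v (scale l W).a₆ < 1 := by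
  have h : ∀ (a : K) (n : ℕ), n ≠ 0 → v a ≤ 1 → v (a / l ^ n) < 1 := fun a n hn ha => by
    rw [map_div₀, map_pow, div_lt_one₀ (pow_pos (zero_lt_one.trans hl) n)]
    exact ha.trans_lt (one_lt_pow₀ hl hn)
  refine ⟨?_, h _ 2 two_ne_zero hW.h₂, h _ 3 three_ne_zero hW.h₃, h _ 4 four_ne_zero hW.h₄,
    h _ 6 (by norm_num) hW.h₆⟩
  simpa [scale] using h W.a₁ 1 one_ne_zero hW.h₁

theorem intAt_scale (hW : IntAt A W) (hl : 1 < v l) : IntAt A (scale l W) := by
  obtain ⟨h₁, h₂, h₃, h₄, h₆⟩ := scale_small hW hl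
  exact ⟨h₁.le, h₂.le, h₃.le, h₄.le, h₆.le⟩

theorem equation_scale (hl : l ≠ 0) {x y : K} (h : W.toAffine.Equation x y) :
    (scale l W).toAffine.Equation (x / l ^ 2) (y / l ^ 3) := by
  rw [equation_iff] at h ⊢
  simp only [scale]
  field_simp
  linear_combination h

theorem nonsingular_scale (hl : l ≠ 0) {x y : K} (h : W.toAffine.Nonsingular x y) :
    (scale l W).toAffine.Nonsingular (x / l ^ 2) (y / l ^ 3) := by
  refine (nonsingular_iff' _ _).2 ⟨equation_scale hl h.1, ?_⟩
  rcases ((nonsingular_iff' _ _).1 h).2 with h' | h'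
  · left
    contrapose! h'
    simp only [scale] at h'
    field_simp at h'
    linear_combination h'
  · right
    contrapose! h'
    simp only [scale] at h'
    field_simp at h'
    linear_combination h'

/-- For the scaled curve the singular reductions are those with small abscissa. -/
theorem resSingular_scale_iff (hW : IntAt A W) (hl : 1 < v l) {x y : K}
    (h : (scale l W).toAffine.Equation x y) :
    ResSingular A (scale l W) x y ↔ v x < 1 := by
  obtain ⟨h₁, h₂, h₃, h₄, h₆⟩ := scale_small hW hl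
  have hI := intAt_scale hW hl
  have he := (equation_iff ..).1 h
  constructor
  · rintro ⟨hx, hy, hX, hY⟩
    by_contra hc
    have hx1 : v x = 1 := le_antisymm hx (not_lt.1 hc)
    have h3 : v (3 : K) < 1 := by
      have : v (3 * x ^ 2) < 1 := by
        rw [show 3 * x ^ 2 = (scale l W).a₁ * y - dX (scale l W) x y
          - (scale l W).a₂ * (2 * x) - (scale l W).a₄ by simp only [dX]; ring]
        exact val_sub_lt A (val_sub_lt A (val_sub_lt A (val_mul_lt_left A h₁ hy) hX)
          (val_mul_lt_left A h₂ (val_mul_le A (val_ofNat_le A 2) hx))) h₄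
      rwa [map_mul, map_pow, hx1, one_pow, mul_one] at this
    have h2 : v (2 : K) = 1 := by
      refine le_antisymm (val_ofNat_le A 2) (not_lt.1 fun h2 => ?_)
      have := val_sub_lt A h3 h2
      rw [show (3 : K) - 2 = 1 by norm_num, map_one] at this
      exact lt_irrefl _ this
    have hy2 : v y < 1 := by
      have : v (2 * y) < 1 := by
        rw [show 2 * y = dY (scale l W) x y - (scale l W).a₁ * x - (scale l W).a₃ by
          simp only [dY]; ring]
        exact val_sub_lt A (val_sub_lt A hY (val_mul_lt_left A h₁ hx)) h₃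
      rwa [map_mul, h2, one_mul] at this
    have : v (x ^ 3) < 1 := by
      rw [show x ^ 3 = y ^ 2 + (scale l W).a₁ * (x * y) + (scale l W).a₃ * y
        - (scale l W).a₂ * x ^ 2 - (scale l W).a₄ * x - (scale l W).a₆ by linear_combination -he]
      exact val_sub_lt A (val_sub_lt A (val_sub_lt A (val_add_lt A (val_add_lt A
        (val_pow_lt A hy2 two_ne_zero) (val_mul_lt_left A h₁ (val_mul_le A hx hy)))
        (val_mul_lt_left A h₃ hy)) (val_mul_lt_left A h₂ (val_pow_le A hx 2)))
        (val_mul_lt_left A h₄ hx)) h₆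
    rw [map_pow, hx1, one_pow] at this
    exact lt_irrefl _ this
  · intro hx
    have hy : v y ≤ 1 := val_le_of_monic_quadratic hI hx.le he
    have hy2 : v y < 1 := by
      have : v (y ^ 2) < 1 := by
        rw [show y ^ 2 = x ^ 3 + (scale l W).a₂ * x ^ 2 + (scale l W).a₄ * x + (scale l W).a₆
          - (scale l W).a₁ * (x * y) - (scale l W).a₃ * y by linear_combination he]
        exact val_sub_lt A (val_sub_lt A (val_add_lt A (val_add_lt A (val_add_lt A
          (val_pow_lt A hx three_ne_zero) (val_mul_lt_left A h₂ (val_pow_le A hx.le 2)))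
          (val_mul_lt_left A h₄ hx.le)) h₆) (val_mul_lt_left A h₁ (val_mul_le A hx.le hy)))
          (val_mul_lt_left A h₃ hy)
      rw [map_pow] at this
      exact (pow_lt_one_iff_of_nonneg zero_le two_ne_zero).1 this
    refine ⟨hx.le, hy, ?_, ?_⟩
    · simp only [dX]
      exact val_sub_lt A (val_mul_lt_left A h₁ hy) (val_add_lt A (val_add_lt A
        (val_mul_lt_right A (val_ofNat_le A 3) (val_pow_lt A hx two_ne_zero))
        (val_mul_lt_right A (val_mul_le A (val_ofNat_le A 2) h₂.le) hx)) h₄)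
    · simp only [dY]
      exact val_add_lt A (val_add_lt A (val_mul_lt_right A (val_ofNat_le A 2) hy2)
        (val_mul_lt_left A h₁ hx.le)) h₃

variable [DecidableEq K]

/-- The points with abscissa at least as big as `l ^ 2` are closed under addition. -/
theorem deep_add (hW : IntAt A W) (hl : 1 < v l) {x₁ y₁ x₂ y₂ : K}
    (h₁ : W.toAffine.Nonsingular x₁ y₁) (h₂ : W.toAffine.Nonsingular x₂ y₂)
    (hx₁ : v (l ^ 2) ≤ v x₁) (hx₂ : v (l ^ 2) ≤ v x₂) :
    (Point.some x₁ y₁ h₁ + Point.some x₂ y₂ h₂ : W.toAffine.Point) = 0 ∨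
      ∃ x y h, (Point.some x₁ y₁ h₁ + Point.some x₂ y₂ h₂ : W.toAffine.Point) =
        Point.some x y h ∧ v (l ^ 2) ≤ v x := by
  have hl0 : l ≠ 0 := ne_zero_of_one_lt_val A hl
  by_cases hxy : x₁ = x₂ ∧ y₁ = W.toAffine.negY x₂ y₂
  · exact Or.inl (Point.add_of_Y_eq hxy.1 hxy.2)
  refine Or.inr ⟨_, _, _, Point.add_some hxy, ?_⟩
  have hl2 : 0 < v (l ^ 2) := A.valuation.pos_iff.2 (pow_ne_zero _ hl0)
  have hneg : ∀ x y : K, (scale l W).toAffine.negY (x / l ^ 2) (y / l ^ 3) =
      W.toAffine.negY x y / l ^ 3 := fun x y => by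
    simp only [negY, scale]; field_simp
  have hxy' : ¬(x₁ / l ^ 2 = x₂ / l ^ 2 ∧
      y₁ / l ^ 3 = (scale l W).toAffine.negY (x₂ / l ^ 2) (y₂ / l ^ 3)) := fun h => hxy
    ⟨(div_left_inj' (pow_ne_zero 2 hl0)).1 h.1,
      (div_left_inj' (pow_ne_zero 3 hl0)).1 (h.2.trans (hneg x₂ y₂))⟩
  have hslope : (scale l W).toAffine.slope (x₁ / l ^ 2) (x₂ / l ^ 2) (y₁ / l ^ 3) (y₂ / l ^ 3) =
      W.toAffine.slope x₁ x₂ y₁ y₂ / l := by
    by_cases hx : x₁ = x₂
    · have hy : y₁ ≠ W.toAffine.negY x₂ y₂ := fun h => hxy ⟨hx, h⟩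
      have hy' : y₁ / l ^ 3 ≠ (scale l W).toAffine.negY (x₂ / l ^ 2) (y₂ / l ^ 3) := fun h =>
        hxy' ⟨by rw [hx], h⟩
      rw [slope_of_Y_ne (by rw [hx]) hy', slope_of_Y_ne hx hy, hneg, ← sub_div]
      have hd : y₁ - W.toAffine.negY x₁ y₁ ≠ 0 := sub_ne_zero.2 fun h => hy (by
        rw [← hx, ← Y_eq_of_Y_ne h₁.1 h₂.1 hx hy]; exact h)
      simp only [scale]
      field_simp
    · rw [slope_of_X_ne fun h => hx ((div_left_inj' (pow_ne_zero 2 hl0)).1 h), slope_of_X_ne hx]
      have := sub_ne_zero.2 hx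
      field_simp
  have hX : W.toAffine.addX x₁ x₂ (W.toAffine.slope x₁ x₂ y₁ y₂) / l ^ 2 =
      (scale l W).toAffine.addX (x₁ / l ^ 2) (x₂ / l ^ 2)
        ((scale l W).toAffine.slope (x₁ / l ^ 2) (x₂ / l ^ 2) (y₁ / l ^ 3) (y₂ / l ^ 3)) := by
    rw [hslope]
    simp only [addX, scale]
    field_simp
  have hE : ∀ {x y : K} (h : W.toAffine.Nonsingular x y), v (l ^ 2) ≤ v x →
      InE0 A (scale l W) (Point.some (x / l ^ 2) (y / l ^ 3) (nonsingular_scale hl0 h)) := by
    intro x y h hx
    rw [inE0_some, resSingular_scale_iff hW hl (equation_scale hl0 h.1), not_lt, map_div₀,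
      one_le_div₀ hl2]
    exact hx
  have hsum := (hE h₁ hx₁).add (intAt_scale hW hl) (hE h₂ hx₂)
  rw [Point.add_some hxy', inE0_some,
    resSingular_scale_iff hW hl (equation_add (nonsingular_scale hl0 h₁).1
      (nonsingular_scale hl0 h₂).1 hxy'), not_lt, ← hX, map_div₀, one_le_div₀ hl2] at hsum
  exact hsum

variable {p : ℕ}

/-- **The abscissa of a `p`-torsion point reducing to infinity.** -/
theorem val_natCast_mul_pow_le [IsAlgClosed K] (hW : IntAt A W) (hp : p.Prime) (hp2 : p ≠ 2)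
    (hp0 : (p : K) ≠ 0) (hψ : PsiVanish W p) {x y : K} {h : W.toAffine.Nonsingular x y}
    (hP : p • (Point.some x y h : W.toAffine.Point) = 0) (hx : 1 < v x) :
    v (p : K) * v x ^ ((p - 1) / 2) ≤ 1 := by
  classical
  obtain ⟨l, rfl⟩ : ∃ l, l ^ 2 = x := IsAlgClosed.exists_pow_nat_eq x two_pos
  have hl : 1 < v l := by
    by_contra hc
    rw [map_pow] at hx
    exact hx.not_ge (pow_le_one₀ zero_le (not_lt.1 hc))
  set T : W.toAffine.Point := Point.some (l ^ 2) y h with hT
  have hne : ∀ k : ℕ, ¬ p ∣ k → k • T ≠ 0 := fun k hk h0 => by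
    obtain ⟨a, b, hab⟩ : ∃ a b : ℤ, a * p + b * k = 1 :=
      (Int.isCoprime_iff_nat_coprime.mpr (hp.coprime_iff_not_dvd.mpr hk) : IsCoprime (p : ℤ) k)
    have : (1 : ℤ) • T = 0 := by
      rw [← hab, add_smul, mul_smul, mul_smul, natCast_zsmul, natCast_zsmul, hP, h0, smul_zero,
        smul_zero, add_zero]
    rw [one_smul, hT] at this
    exact Point.some_ne_zero h this
  have hmult : ∀ k : ℕ, k • T = 0 ∨ ∃ a b ha, k • T = Point.some a b ha ∧ v (l ^ 2) ≤ v a := by
    intro k
    induction k with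
    | zero => exact Or.inl (zero_smul _ _)
    | succ k ih =>
      rcases ih with h0 | ⟨a, b, ha, e, hav⟩
      · exact Or.inr ⟨_, _, h, by rw [succ_nsmul, h0, zero_add], le_rfl⟩
      · rw [succ_nsmul, e, hT]
        exact deep_add hW hl ha h hav le_rfl
  have hcop : ∀ k ∈ Finset.Icc 1 ((p - 1) / 2), ¬ p ∣ k := fun k hk => by
    rw [Finset.mem_Icc] at hk
    exact Nat.not_dvd_of_pos_of_lt hk.1 (by omega)
  choose! a b ha hab hav using fun k (hk : k ∈ Finset.Icc 1 ((p - 1) / 2)) =>
    (hmult k).resolve_left (hne k (hcop k hk))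
  have hinj : Set.InjOn a (Finset.Icc 1 ((p - 1) / 2) : Set ℕ) := by
    intro i hi j hj hij
    have hi' := Finset.mem_coe.1 hi
    have hj' := Finset.mem_coe.1 hj
    rw [Finset.mem_Icc] at hi' hj'
    by_contra hne'
    rcases Y_eq_of_X_eq (ha i (Finset.mem_coe.1 hi)).1 (ha j (Finset.mem_coe.1 hj)).1 hij with
      hy | hy
    · have e : i • T = j • T := by
        rw [hab i (Finset.mem_coe.1 hi), hab j (Finset.mem_coe.1 hj), Point.some.injEq]
        exact ⟨hij, hy⟩
      rcases Nat.lt_or_ge i j with hlt | hge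
      · refine hne (j - i) (Nat.not_dvd_of_pos_of_lt (by omega) (by omega)) ?_
        have h' : (j - i) • T + i • T = j • T := by rw [← add_nsmul]; congr 1; omega
        rw [e] at h'
        exact add_eq_right.1 h'
      · refine hne (i - j) (Nat.not_dvd_of_pos_of_lt (by omega) (by omega)) ?_
        have h' : (i - j) • T + j • T = i • T := by rw [← add_nsmul]; congr 1; omega
        rw [← e] at h'
        exact add_eq_right.1 h'
    · refine hne (i + j) (Nat.not_dvd_of_pos_of_lt (by omega) (by omega)) ?_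
      rw [add_nsmul, hab i (Finset.mem_coe.1 hi), hab j (Finset.mem_coe.1 hj),
        add_eq_zero_iff_eq_neg, Point.neg_some, Point.some.injEq]
      exact ⟨hij, hy⟩
  have hbound := val_n_mul_prod_le hW hp0 (hp.odd_of_ne_two hp2)
    ((Finset.Icc 1 ((p - 1) / 2)).image a)
    (fun z hz => by
      obtain ⟨k, hk, rfl⟩ := Finset.mem_image.1 hz
      exact hx.trans_le (hav k hk))
    (fun z hz => by
      obtain ⟨k, hk, rfl⟩ := Finset.mem_image.1 hz
      refine hψ _ _ (ha k hk) ?_
      rw [← hab k hk, smul_comm, hP, smul_zero])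
  rw [Finset.prod_image hinj] at hbound
  refine le_trans (mul_le_mul' le_rfl ?_) hbound
  calc v (l ^ 2) ^ ((p - 1) / 2)
      = v (l ^ 2) ^ (Finset.Icc 1 ((p - 1) / 2)).card := by rw [Nat.card_Icc, Nat.add_sub_cancel]
    _ ≤ ∏ k ∈ Finset.Icc 1 ((p - 1) / 2), v (a k) := Finset.pow_card_le_prod _ _ _ hav

end FLTAgent.SemistableFinals
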