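import Fermat.Agent.SemistableWild.Kummer

/-!
# The unit cutting out a character of inertia

`exists_unit_of_character`: a character of the inertia elements fixing a `p`-th root of unity,
twisted by the cyclotomic character, is cut out by the roots of a unit as soon as some integral
element is moved by as much as the root of unity allows.  Used in `SemistableFinals.LocalShape`.
-/

set_option autoImplicit false

noncomputable section

namespace FLTAgent.SemistableFinals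

open FLTAgent.Density FLTAgent.SemistableWild

variable {p : ℕ} {A : ValuationSubring Qbar} {ζ : Qbar}

/-- The eigencomponents of the orbit of an element. -/
def eigComponent (p : ℕ) (ζ : Qbar) (σ : GalQ) (y : Qbar) (j : ℕ) : Qbar :=
  ∑ i ∈ Finset.range p, ζ ^ (i * j) * (σ ^ i) y

/-- A shift along the orbit multiplies a component by a root of unity. -/
theorem pow_mul_apply_eigComponent (hζ : IsPrimitiveRoot ζ p) {σ : GalQ} (hσζ : σ ζ = ζ)
    {y : Qbar} (hy : (σ ^ p) y = y) (j : ℕ) :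
    ζ ^ j * σ (eigComponent p ζ σ y j) = eigComponent p ζ σ y j := by
  have h := Finset.sum_range_succ' (fun i => ζ ^ (i * j) * (σ ^ i) y) p
  rw [Finset.sum_range_succ, hy, pow_zero, AlgEquiv.one_apply, Nat.zero_mul, pow_zero, one_mul,
    pow_mul, hζ.pow_eq_one, one_pow, one_mul] at h
  rw [eigComponent, map_sum, Finset.mul_sum]
  refine Eq.trans (Finset.sum_congr rfl fun i _ => ?_) (add_right_cancel h).symm
  rw [map_mul, map_pow, hσζ, pow_succ', AlgEquiv.mul_apply, Nat.succ_mul, pow_add]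
  ring

theorem sum_eigComponent (hp : p.Prime) (hζ : IsPrimitiveRoot ζ p) (σ : GalQ) (y : Qbar) :
    ∑ j ∈ Finset.range p, eigComponent p ζ σ y j = (p : Qbar) * y := by
  simp only [eigComponent]
  rw [Finset.sum_comm, Finset.sum_eq_single_of_mem 0 (Finset.mem_range.2 hp.pos) fun i hi hi0 => ?_]
  · simp
  rw [← Finset.sum_mul]
  have h1 : ∑ j ∈ Finset.range p, ζ ^ (i * j) = 0 := by
    simp only [pow_mul]
    refine IsPrimitiveRoot.geom_sum_eq_zero ?_ hp.one_lt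
    refine hζ.pow_of_coprime i (Nat.Coprime.symm (hp.coprime_iff_not_dvd.2 fun h => ?_))
    exact hi0 (Nat.eq_zero_of_dvd_of_lt h (Finset.mem_range.1 hi))
  rw [h1, zero_mul]

/-! ### The inertia elements fixing the root of unity -/

/-- The inertia elements fixing `ζ`. -/
private abbrev inertiaFix (A : ValuationSubring Qbar) (ζ : Qbar) : Subgroup GalQ :=
  A.inertiaSubgroupIn ℚ ⊓ MulAction.stabilizer GalQ ζ

/-- Membership in `inertiaFix`. -/
private theorem mem_inertiaFix {σ : GalQ} :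
    σ ∈ inertiaFix A ζ ↔ σ ∈ A.inertiaSubgroupIn ℚ ∧ σ ζ = ζ := by
  rw [Subgroup.mem_inf, MulAction.mem_stabilizer_iff, AlgEquiv.smul_def]

/-- A homomorphism on the inertia elements fixing `ζ`. -/
private def IsChar (A : ValuationSubring Qbar) (ζ : Qbar) (c : GalQ → ZMod p) : Prop :=
  ∀ σ ∈ inertiaFix A ζ, ∀ τ ∈ inertiaFix A ζ, c (σ * τ) = c σ + c τ

/-- Fixed by the kernel of the character. -/
private def KerFixed (A : ValuationSubring Qbar) (ζ : Qbar) (c : GalQ → ZMod p) (y : Qbar) :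
    Prop :=
  ∀ σ ∈ inertiaFix A ζ, c σ = 0 → σ y = y

variable {c : GalQ → ZMod p} {σ₀ : GalQ} {y : Qbar}

/-- A character at a power. -/
private theorem IsChar.pow (hc : IsChar A ζ c) {σ : GalQ} (hσ : σ ∈ inertiaFix A ζ) :
    ∀ n : ℕ, c (σ ^ n) = n * c σ
  | 0 => by
    have := hc 1 (one_mem _) 1 (one_mem _)
    rw [one_mul, left_eq_add] at this
    rw [pow_zero, this, Nat.cast_zero, zero_mul]
  | n + 1 => by
    rw [pow_succ, hc _ (pow_mem hσ n) _ hσ, IsChar.pow hc hσ n]; push_cast; ring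

/-- A nonzero character takes the value one. -/
private theorem IsChar.exists_eq_one [Fact p.Prime] (hc : IsChar A ζ c) {σ : GalQ}
    (hσ : σ ∈ inertiaFix A ζ) (hne : c σ ≠ 0) : ∃ σ₀ ∈ inertiaFix A ζ, c σ₀ = 1 :=
  ⟨σ ^ ((c σ)⁻¹).val, pow_mem hσ _, by
    rw [hc.pow hσ, ZMod.natCast_zmod_val, inv_mul_cancel₀ hne]⟩

section Generator

variable [NeZero p] (hc : IsChar A ζ c) (hσ₀ : σ₀ ∈ inertiaFix A ζ) (hc₀ : c σ₀ = 1)

include hc hσ₀ hc₀

/-- On an element fixed by the kernel, `σ` acts as a power of the generator. -/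
private theorem apply_eq_pow_apply (hy : KerFixed A ζ c y) {σ : GalQ}
    (hσ : σ ∈ inertiaFix A ζ) : σ y = (σ₀ ^ (c σ).val) y := by
  have hmem := pow_mem hσ₀ (c σ).val
  have hk : c ((σ₀ ^ (c σ).val)⁻¹ * σ) = 0 := by
    have h := hc _ hmem _ (mul_mem (inv_mem hmem) hσ)
    rwa [mul_inv_cancel_left, hc.pow hσ₀, hc₀, mul_one, ZMod.natCast_zmod_val,
      left_eq_add] at h
  conv_rhs =>
    rw [← hy _ (mul_mem (inv_mem hmem) hσ) hk, ← AlgEquiv.mul_apply, mul_inv_cancel_left]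

/-- The components of an element fixed by the kernel are fixed by the kernel. -/
private theorem kerFixed_eigComponent (hy : KerFixed A ζ c y) (j : ℕ) :
    KerFixed A ζ c (eigComponent p ζ σ₀ y j) := by
  intro k hk hk0
  rw [eigComponent, map_sum]
  refine Finset.sum_congr rfl fun i _ => ?_
  have hi := pow_mem hσ₀ i
  rw [map_mul, map_pow, (mem_inertiaFix.1 hk).2, ← AlgEquiv.mul_apply,
    apply_eq_pow_apply hc hσ₀ hc₀ hy (mul_mem hk hi), apply_eq_pow_apply hc hσ₀ hc₀ hy hi,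
    hc _ hk _ hi, hk0, zero_add]

/-- An eigenvector of the generator is one of every `σ`. -/
private theorem pow_mul_apply_of_eigen (hy : KerFixed A ζ c y) {j : ℕ}
    (hj : ζ ^ j * σ₀ y = y) {σ : GalQ} (hσ : σ ∈ inertiaFix A ζ) :
    ζ ^ (j * (c σ).val) * σ y = y := by
  rw [apply_eq_pow_apply hc hσ₀ hc₀ hy hσ]
  induction (c σ).val with
  | zero => simp
  | succ n ih =>
    have h2 : (σ₀ ^ (n + 1)) y = σ₀ ((σ₀ ^ n) y) := by rw [pow_succ', AlgEquiv.mul_apply]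
    conv_rhs => rw [← hj, ← ih, map_mul, map_pow, (mem_inertiaFix.1 hσ₀).2]
    rw [h2, Nat.mul_succ, pow_add]
    ring

end Generator

/-- An element moved by `σ₀` has a nonzero component of nonzero index. -/
private theorem exists_eigComponent_ne_zero (hp : p.Prime) (hζ : IsPrimitiveRoot ζ p)
    (hσ₀ζ : σ₀ ζ = ζ) (hy : (σ₀ ^ p) y = y) (hmoved : σ₀ y ≠ y) :
    ∃ j, j ≠ 0 ∧ j < p ∧ eigComponent p ζ σ₀ y j ≠ 0 := by
  by_contra hno
  push Not at hno
  have h := sum_eigComponent hp hζ σ₀ y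
  rw [Finset.sum_eq_single_of_mem 0 (Finset.mem_range.2 hp.pos)
    fun j hj hj0 => hno j hj0 (Finset.mem_range.1 hj)] at h
  have h2 := pow_mul_apply_eigComponent hζ hσ₀ζ hy 0
  rw [pow_zero, one_mul, h, map_mul, map_natCast,
    mul_right_inj' (Nat.cast_ne_zero.mpr hp.ne_zero : (p : Qbar) ≠ 0)] at h2
  exact hmoved h2

/-! ### Products over the inertia orbit of the root of unity -/

open scoped Classical in
/-- The inertia orbit of `ζ`. -/
private def inertiaOrbit (p : ℕ) (A : ValuationSubring Qbar) (ζ : Qbar) : Finset Qbar :=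
  (primitiveRoots p Qbar).filter fun μ => ∃ τ ∈ A.inertiaSubgroupIn ℚ, τ ζ = μ

open scoped Classical in
/-- An inertia element carrying `ζ` to `μ`. -/
private def orbitLift (A : ValuationSubring Qbar) (ζ μ : Qbar) : GalQ :=
  if h : ∃ τ ∈ A.inertiaSubgroupIn ℚ, τ ζ = μ then h.choose else 1

/-- The product over the inertia orbit of `ζ`. -/
private def orbitNorm (p : ℕ) (A : ValuationSubring Qbar) (ζ y : Qbar) : Qbar :=
  ∏ μ ∈ inertiaOrbit p A ζ, orbitLift A ζ μ y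

/-- The chosen lift is an inertia element reaching the point of the orbit. -/
private theorem orbitLift_spec {μ : Qbar} (hμ : μ ∈ inertiaOrbit p A ζ) :
    orbitLift A ζ μ ∈ A.inertiaSubgroupIn ℚ ∧ orbitLift A ζ μ ζ = μ := by
  classical
  have h := (Finset.mem_filter.1 hμ).2
  rw [orbitLift, dif_pos h]
  exact h.choose_spec

/-- The order of the orbit is prime to `p`. -/
private theorem not_dvd_card_inertiaOrbit (hp : p.Prime) (hζ : IsPrimitiveRoot ζ p) :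
    ¬ p ∣ (inertiaOrbit p A ζ).card := by
  classical
  refine Nat.not_dvd_of_pos_of_lt (Finset.card_pos.2 ⟨ζ, Finset.mem_filter.2
    ⟨(mem_primitiveRoots hp.pos).2 hζ, 1, one_mem _, rfl⟩⟩) ?_
  have := (show (inertiaOrbit p A ζ).card ≤ (primitiveRoots p Qbar).card from
    Finset.card_le_card (Finset.filter_subset _ _)).trans_eq
    (hζ.card_primitiveRoots.trans (Nat.totient_prime hp))
  have := hp.two_le
  omega

/-- Inertia permutes the orbit. -/
private theorem apply_mem_inertiaOrbit (hp : p.Prime) {g : GalQ}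
    (hg : g ∈ A.inertiaSubgroupIn ℚ) {μ : Qbar} (hμ : μ ∈ inertiaOrbit p A ζ) :
    g μ ∈ inertiaOrbit p A ζ := by
  classical
  obtain ⟨hτ, hτζ⟩ := orbitLift_spec hμ
  exact Finset.mem_filter.2 ⟨(mem_primitiveRoots hp.pos).2
    (((mem_primitiveRoots hp.pos).1 (Finset.mem_filter.1 hμ).1).map_of_injective g.injective),
    g * orbitLift A ζ μ, mul_mem hg hτ, by rw [AlgEquiv.mul_apply, hτζ]⟩

/-- Products over the orbit of elements fixed by the stabiliser of `ζ` are fixed by inertia. -/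
private theorem apply_orbitNorm (hp : p.Prime) (hy : ∀ σ ∈ inertiaFix A ζ, σ y = y) {g : GalQ}
    (hg : g ∈ A.inertiaSubgroupIn ℚ) : g (orbitNorm p A ζ y) = orbitNorm p A ζ y := by
  classical
  have hkey : ∀ μ ∈ inertiaOrbit p A ζ, g (orbitLift A ζ μ y) = orbitLift A ζ (g μ) y := by
    intro μ hμ
    obtain ⟨hτ, hτζ⟩ := orbitLift_spec hμ
    obtain ⟨hτ', hτζ'⟩ := orbitLift_spec (apply_mem_inertiaOrbit hp hg hμ)
    have h := hy ((orbitLift A ζ (g μ))⁻¹ * (g * orbitLift A ζ μ))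
      (mem_inertiaFix.2 ⟨mul_mem (inv_mem hτ') (mul_mem hg hτ), by
        rw [AlgEquiv.mul_apply, AlgEquiv.mul_apply, hτζ]
        rw [AlgEquiv.aut_inv, AlgEquiv.symm_apply_eq, hτζ']⟩)
    conv_rhs => rw [← h, ← AlgEquiv.mul_apply, mul_inv_cancel_left, AlgEquiv.mul_apply]
  rw [orbitNorm, map_prod, Finset.prod_congr rfl hkey]
  refine (Finset.prod_image (f := fun μ => orbitLift A ζ μ y) (g := ⇑g)
    fun a _ b _ h => g.injective h).symm.trans ?_
  rw [Finset.eq_of_subset_of_card_le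
    (Finset.image_subset_iff.2 fun μ hμ => apply_mem_inertiaOrbit hp hg hμ)
    (Finset.card_image_of_injective _ g.injective).ge]

/-- The valuation of the product over the orbit is a power of that of the element. -/
private theorem valuation_orbitNorm (hp : p.Prime) (hA : A.LiesOverPrime p) (y : Qbar) :
    A.valuation (orbitNorm p A ζ y) = A.valuation y ^ (inertiaOrbit p A ζ).card := by
  rw [orbitNorm, map_prod]
  exact Finset.prod_eq_pow_card fun μ hμ => valuation_apply hp hA (orbitLift_spec hμ).1 y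

/-- The product over the orbit of a non-zero element is non-zero. -/
private theorem orbitNorm_ne_zero (h : y ≠ 0) : orbitNorm p A ζ y ≠ 0 :=
  Finset.prod_ne_zero_iff.2 fun _ _ => (map_ne_zero _).2 h

/-- The product over the orbit commutes with powers. -/
private theorem orbitNorm_pow (n : ℕ) : orbitNorm p A ζ (y ^ n) = orbitNorm p A ζ y ^ n := by
  rw [orbitNorm, orbitNorm, ← Finset.prod_pow]
  exact Finset.prod_congr rfl fun μ _ => map_pow _ _ _

/-- The value of an element fixed by the stabiliser of `ζ` is, on the orbit, a power of `p`. -/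
private theorem exists_zpow_valuation (hp : p.Prime) (hA : A.LiesOverPrime p) (hy0 : y ≠ 0)
    (hy : ∀ σ ∈ inertiaFix A ζ, σ y = y) :
    ∃ k : ℤ, A.valuation y ^ (inertiaOrbit p A ζ).card = A.valuation (p : Qbar) ^ k := by
  obtain ⟨k, hk⟩ := LocalThree.exists_val_zpow hp hA (orbitNorm_ne_zero (p := p) (A := A) hy0)
    fun σ hσ => apply_orbitNorm hp hy hσ
  exact ⟨k, (valuation_orbitNorm hp hA y).symm.trans hk⟩

/-! ### The exponent of an eigenvector -/

/-- A unit eigenvector has index divisible by `p` when the exponent of a second one does not. -/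
private theorem dvd_of_eigen_unit [Fact p.Prime] [NeZero p] (hp : p.Prime)
    (hA : A.LiesOverPrime p) (hζ : IsPrimitiveRoot ζ p) (hc : IsChar A ζ c)
    (hσ₀ : σ₀ ∈ inertiaFix A ζ) (hc₀ : c σ₀ = 1) {X : Qbar} {j₀ : ℕ}
    (hj₀ : ¬ p ∣ j₀) (hX0 : X ≠ 0) (hXK : KerFixed A ζ c X) (hXe : ζ ^ j₀ * σ₀ X = X) {k₀ : ℤ}
    (hk₀ : (A.valuation X ^ p) ^ (inertiaOrbit p A ζ).card = A.valuation (p : Qbar) ^ k₀)
    (hndvd : ¬ (p : ℤ) ∣ k₀) (hy : KerFixed A ζ c y) (hy1 : A.valuation y = 1) {d : ℕ}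
    (hd : ζ ^ d * σ₀ y = y) : p ∣ d := by
  have hj : (j₀ : ZMod p) ≠ 0 := by rwa [Ne, CharP.cast_eq_zero_iff (ZMod p) p]
  set e : ℕ := (-((d : ZMod p) * (j₀ : ZMod p)⁻¹)).val with he
  have hfixed : ∀ σ ∈ inertiaFix A ζ, σ (y * X ^ e) = y * X ^ e := by
    have hK : KerFixed A ζ c (y * X ^ e) := fun k hk hk0 => by
      rw [map_mul, map_pow, hy k hk hk0, hXK k hk hk0]
    have h1 : ζ ^ (d + j₀ * e) = 1 := by
      rw [hζ.pow_eq_one_iff_dvd, ← CharP.cast_eq_zero_iff (ZMod p) p]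
      push_cast
      rw [he, ZMod.natCast_zmod_val]
      field_simp
      ring
    have h2 : ζ ^ 0 * σ₀ (y * X ^ e) = y * X ^ e := by
      conv_rhs => rw [← hd, ← hXe]
      rw [pow_zero, one_mul, map_mul, map_pow, mul_pow, ← pow_mul, mul_mul_mul_comm, ← pow_add,
        h1, one_mul]
    intro σ hσ
    simpa using pow_mul_apply_of_eigen hc hσ₀ hc₀ hK h2 hσ
  obtain ⟨k, hk⟩ := exists_zpow_valuation hp hA
    (mul_ne_zero (fun h => by simp [h] at hy1) (pow_ne_zero _ hX0)) hfixed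
  rw [map_mul, hy1, one_mul, map_pow] at hk
  have h3 : A.valuation (p : Qbar) ^ (k * p) = A.valuation (p : Qbar) ^ (k₀ * e) := by
    rw [zpow_mul, ← hk, zpow_mul, ← hk₀, zpow_natCast, zpow_natCast, ← pow_mul, ← pow_mul,
      ← pow_mul, ← pow_mul]
    congr 1
    ring
  have h4 := zpow_right_injective₀ (valuation_natCast_pos (A := A) hp)
    (valuation_natCast_lt (p := p) hA).ne h3
  have h5 : (p : ℤ) ∣ (e : ℤ) :=
    ((Nat.prime_iff_prime_int.mp hp).dvd_mul.mp ⟨k, by rw [← h4]; ring⟩).resolve_left hndvd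
  have h6 : (e : ZMod p) = 0 :=
    (CharP.cast_eq_zero_iff (ZMod p) p _).2 (Int.natCast_dvd_natCast.mp h5)
  rw [he, ZMod.natCast_zmod_val, neg_eq_zero, mul_eq_zero, inv_eq_zero] at h6
  exact (CharP.cast_eq_zero_iff (ZMod p) p _).1 (h6.resolve_right hj)

/-- An element whose orbit has components of distinct values is moved little. -/
private theorem valuation_apply_sub_le (hp : p.Prime) (hζ : IsPrimitiveRoot ζ p)
    (hσ₀ζ : σ₀ ζ = ζ) (hy : (σ₀ ^ p) y = y)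
    (hdist : ∀ i < p, ∀ j < p, i ≤ j → eigComponent p ζ σ₀ y i ≠ 0 →
      eigComponent p ζ σ₀ y j ≠ 0 →
      A.valuation (eigComponent p ζ σ₀ y i) = A.valuation (eigComponent p ζ σ₀ y j) → i = j) :
    A.valuation (σ₀ y - y) ≤ A.valuation (ζ - 1) * A.valuation y := by
  classical
  set R : ℕ → Qbar := fun j => eigComponent p ζ σ₀ y j with hR
  obtain ⟨jm, hjm, hmax⟩ := Finset.exists_max_image (Finset.range p)
    (fun j => A.valuation (R j)) ⟨0, Finset.mem_range.2 hp.pos⟩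
  have hsum : A.valuation ((p : Qbar) * y) = A.valuation (R jm) := by
    rw [← sum_eigComponent hp hζ σ₀ y]
    rcases eq_or_ne (R jm) 0 with h0 | h0
    · rw [h0, map_zero]
      refine le_antisymm (A.valuation.map_sum_le fun j hj => ?_) zero_le
      exact (hmax j hj).trans (by rw [h0, map_zero])
    refine A.valuation.map_sum_eq_of_lt hjm fun j hj => ?_
    rw [Finset.mem_sdiff, Finset.mem_singleton] at hj
    refine lt_of_le_of_ne (hmax j hj.1) fun he => hj.2 ?_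
    have hj0 : R j ≠ 0 := fun h =>
      h0 ((map_eq_zero A.valuation).1 (he.symm.trans ((map_eq_zero A.valuation).2 h)))
    rcases le_total j jm with hle | hle
    · exact hdist j (Finset.mem_range.1 hj.1) jm (Finset.mem_range.1 hjm) hle hj0 h0 he
    · exact (hdist jm (Finset.mem_range.1 hjm) j (Finset.mem_range.1 hj.1) hle h0 hj0 he.symm).symm
  have hdiff : A.valuation (σ₀ ((p : Qbar) * y) - (p : Qbar) * y) ≤
      A.valuation (ζ - 1) * A.valuation (R jm) := by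
    rw [← sum_eigComponent hp hζ σ₀ y, map_sum, ← Finset.sum_sub_distrib]
    refine A.valuation.map_sum_le fun j hj => ?_
    show A.valuation (σ₀ (R j) - R j) ≤ _
    have e : ζ ^ j * (σ₀ (R j) - R j) = (1 - ζ ^ j) * R j := by
      linear_combination pow_mul_apply_eigComponent hζ hσ₀ζ hy j
    have h := congrArg A.valuation e
    rw [map_mul, map_pow, valuation_root_of_unity hp.ne_zero hζ.pow_eq_one, one_pow, one_mul,
      map_mul] at h
    rw [h, A.valuation.map_sub_swap ζ 1]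
    exact mul_le_mul' (valuation_one_sub_le hp hζ
      (by rw [← pow_mul, mul_comm, pow_mul, hζ.pow_eq_one, one_pow])) (hmax j hj)
  rw [← hsum, map_mul σ₀, map_natCast, ← mul_sub, map_mul, map_mul, mul_left_comm] at hdiff
  exact le_of_mul_le_mul_left hdiff (valuation_natCast_pos (A := A) hp)

/-- The exponent of a nonzero component is divisible by `p`. -/
private theorem dvd_exponent [Fact p.Prime] [NeZero p] (hp : p.Prime) (hA : A.LiesOverPrime p)
    (hζ : IsPrimitiveRoot ζ p) (hc : IsChar A ζ c) (hσ₀ : σ₀ ∈ inertiaFix A ζ) (hc₀ : c σ₀ = 1)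
    {θ : Qbar} (hθ1 : A.valuation θ ≤ 1) (hθK : KerFixed A ζ c θ)
    (hmove : A.valuation (ζ - 1) ≤ A.valuation (σ₀ θ - θ)) {j₀ : ℕ} (hj₀ : ¬ p ∣ j₀)
    (hX0 : eigComponent p ζ σ₀ θ j₀ ≠ 0) {k₀ : ℤ}
    (hk₀ : (A.valuation (eigComponent p ζ σ₀ θ j₀) ^ p) ^ (inertiaOrbit p A ζ).card =
      A.valuation (p : Qbar) ^ k₀) : (p : ℤ) ∣ k₀ := by
  by_contra hndvd
  obtain ⟨hσ₀I, hσ₀ζ⟩ := mem_inertiaFix.1 hσ₀
  have hpow : ∀ {y}, KerFixed A ζ c y → (σ₀ ^ p) y = y := fun hy =>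
    hy _ (pow_mem hσ₀ p) (by rw [hc.pow hσ₀, ZMod.natCast_self, zero_mul])
  obtain ⟨a, ha, hares⟩ := exists_fixed_residue hA
    (IsLocalRing.residue A ⟨θ, (A.valuation_le_one_iff θ).1 hθ1⟩)
  set θ' := θ - (a : Qbar) with hθ'
  have hθ'lt : A.valuation θ' < 1 := by
    have h : IsLocalRing.residue A (⟨θ, (A.valuation_le_one_iff θ).1 hθ1⟩ - a) = 0 := by
      rw [map_sub, hares, sub_self]
    rw [IsLocalRing.residue_eq_zero_iff, ← ValuationSubring.coe_mem_nonunits_iff,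
      ValuationSubring.mem_nonunits_iff] at h
    exact h
  have hθ'K : KerFixed A ζ c θ' := fun k hk hk0 => by
    rw [hθ', map_sub, hθK k hk hk0, ha k (mem_inertiaFix.1 hk).1]
  have hζ0 : ζ ≠ 0 := hζ.ne_zero hp.ne_zero
  have hRe := pow_mul_apply_eigComponent hζ hσ₀ζ (hpow hθ'K)
  have hle := valuation_apply_sub_le (A := A) hp hζ hσ₀ζ (hpow hθ'K)
    fun i hi j hj hij hi0 hj0 hval => by
      have hK := kerFixed_eigComponent hc hσ₀ hc₀ hθ'K
      have := dvd_of_eigen_unit hp hA hζ hc hσ₀ hc₀ hj₀ hX0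
        (kerFixed_eigComponent hc hσ₀ hc₀ hθK j₀)
        (pow_mul_apply_eigComponent hζ hσ₀ζ (hpow hθK) j₀) hk₀ hndvd
        (y := eigComponent p ζ σ₀ θ' j / eigComponent p ζ σ₀ θ' i)
        (fun k hk hk0 => by rw [map_div₀, hK j k hk hk0, hK i k hk hk0])
        (by rw [map_div₀, hval, div_self ((Valuation.ne_zero_iff _).mpr hj0)]) (d := j - i) (by
          conv_rhs => rw [← hRe i, ← hRe j]
          rw [map_div₀, mul_div_mul_comm, pow_sub₀ ζ hζ0 hij, div_eq_mul_inv (ζ ^ j)])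
      have := Nat.eq_zero_of_dvd_of_lt this (by omega)
      omega
  rw [hθ', map_sub σ₀, ha σ₀ hσ₀I, sub_sub_sub_cancel_right] at hle
  refine (hle.trans_lt ?_).not_ge hmove
  exact mul_lt_of_lt_one_right
    (zero_lt_iff.mpr ((Valuation.ne_zero_iff _).mpr (sub_ne_zero.mpr (hζ.ne_one hp.one_lt))))
    hθ'lt

/-- `σ` multiplies every translate of an eigenvector by the same root of unity. -/
private theorem pow_mul_apply_orbitLift [NeZero p] (hζ : IsPrimitiveRoot ζ p)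
    (hc : IsChar A ζ c) (hσ₀ : σ₀ ∈ inertiaFix A ζ) (hc₀ : c σ₀ = 1)
    (hconj : ∀ σ ∈ A.inertiaSubgroupIn ℚ, σ ζ = ζ → ∀ τ ∈ A.inertiaSubgroupIn ℚ, ∀ m : ℕ,
      τ ζ = ζ ^ m → c (τ * σ * τ⁻¹) = m * c σ)
    {X : Qbar} {j₀ : ℕ} (hXK : KerFixed A ζ c X) (hXe : ζ ^ j₀ * σ₀ X = X) {σ : GalQ}
    (hσH : σ ∈ inertiaFix A ζ) {μ : Qbar} (hμ : μ ∈ inertiaOrbit p A ζ) :
    ζ ^ (j₀ * (c σ).val) * σ (orbitLift A ζ μ X) = orbitLift A ζ μ X := by
  obtain ⟨hσ, hσζ⟩ := mem_inertiaFix.1 hσH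
  obtain ⟨hIμ, -⟩ := orbitLift_spec hμ
  set τ := orbitLift A ζ μ
  obtain ⟨m, -, hm⟩ := hζ.eq_pow_of_pow_eq_one
    (show (τ⁻¹ ζ) ^ p = 1 by rw [← map_pow, hζ.pow_eq_one, map_one])
  set σ' := τ⁻¹ * σ * τ with hσ'
  have hτp : (τ ζ) ^ p = 1 := by rw [← map_pow, hζ.pow_eq_one, map_one]
  have hσ'H : σ' ∈ inertiaFix A ζ := by
    refine mem_inertiaFix.2 ⟨mul_mem (mul_mem (inv_mem hIμ) hσ) hIμ, ?_⟩
    obtain ⟨n, -, hn⟩ := hζ.eq_pow_of_pow_eq_one hτp
    rw [hσ', AlgEquiv.mul_apply, AlgEquiv.mul_apply, ← hn, map_pow σ, hσζ, hn,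
      ← AlgEquiv.mul_apply, inv_mul_cancel, AlgEquiv.one_apply]
  have hc' : c σ' = m * c σ := by
    have := hconj σ hσ hσζ τ⁻¹ (inv_mem hIμ) m hm.symm
    rwa [inv_inv] at this
  have h := congrArg τ (pow_mul_apply_of_eigen hc hσ₀ hc₀ hXK hXe hσ'H)
  rw [map_mul, map_pow, ← AlgEquiv.mul_apply, hσ',
    show τ * (τ⁻¹ * σ * τ) = σ * τ by group, AlgEquiv.mul_apply] at h
  have hτm : (τ ζ) ^ m = ζ := by
    rw [← map_pow, hm, ← AlgEquiv.mul_apply, mul_inv_cancel, AlgEquiv.one_apply]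
  have hexp : (τ ζ) ^ (j₀ * (c σ').val) = ζ ^ (j₀ * (c σ).val) := by
    rw [hc', ← pow_mod_orderOf]
    conv_rhs => rw [← hτm, ← pow_mul, ← pow_mod_orderOf]
    congr 1
    rw [← (hζ.map_of_injective τ.injective).eq_orderOf]
    refine (ZMod.natCast_eq_natCast_iff' _ _ _).1 ?_
    push_cast
    rw [ZMod.natCast_zmod_val, ZMod.natCast_zmod_val]
    ring
  rwa [hexp] at h

/-- An element fixing the product over the orbit of an eigenvector lies in the kernel. -/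
private theorem char_eq_zero_of_fixed [NeZero p] (hp : p.Prime)
    (hζ : IsPrimitiveRoot ζ p) (hc : IsChar A ζ c) (hσ₀ : σ₀ ∈ inertiaFix A ζ) (hc₀ : c σ₀ = 1)
    (hconj : ∀ σ ∈ A.inertiaSubgroupIn ℚ, σ ζ = ζ → ∀ τ ∈ A.inertiaSubgroupIn ℚ, ∀ m : ℕ,
      τ ζ = ζ ^ m → c (τ * σ * τ⁻¹) = m * c σ)
    {X : Qbar} {j₀ : ℕ} (hj₀ : ¬ p ∣ j₀) (hX0 : X ≠ 0) (hXK : KerFixed A ζ c X)
    (hXe : ζ ^ j₀ * σ₀ X = X) {σ : GalQ} (hσ : σ ∈ inertiaFix A ζ)
    (hfix : σ (orbitNorm p A ζ X) = orbitNorm p A ζ X) : c σ = 0 := by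
  have hprod : (ζ ^ (j₀ * (c σ).val)) ^ (inertiaOrbit p A ζ).card * σ (orbitNorm p A ζ X) =
      orbitNorm p A ζ X := by
    rw [orbitNorm, map_prod, ← Finset.prod_const, ← Finset.prod_mul_distrib]
    exact Finset.prod_congr rfl fun μ hμ =>
      pow_mul_apply_orbitLift hζ hc hσ₀ hc₀ hconj hXK hXe hσ hμ
  rw [hfix, mul_eq_right₀ (orbitNorm_ne_zero hX0), ← pow_mul, hζ.pow_eq_one_iff_dvd] at hprod
  have h := ((hp.dvd_mul.1 hprod).resolve_right (not_dvd_card_inertiaOrbit hp hζ))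
  rw [← ZMod.natCast_zmod_val (c σ), CharP.cast_eq_zero_iff (ZMod p) p]
  exact (hp.dvd_mul.1 h).resolve_left hj₀

/-- **The unit of a character.** -/
theorem exists_unit_of_character (hp : p.Prime) (hA : A.LiesOverPrime p)
    (hζ : IsPrimitiveRoot ζ p) (c : GalQ → ZMod p)
    (hadd : ∀ σ ∈ A.inertiaSubgroupIn ℚ, σ ζ = ζ → ∀ τ ∈ A.inertiaSubgroupIn ℚ, τ ζ = ζ →
      c (σ * τ) = c σ + c τ)
    (hconj : ∀ σ ∈ A.inertiaSubgroupIn ℚ, σ ζ = ζ → ∀ τ ∈ A.inertiaSubgroupIn ℚ, ∀ m : ℕ,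
      τ ζ = ζ ^ m → c (τ * σ * τ⁻¹) = m * c σ)
    (θ : Qbar) (hθ1 : A.valuation θ ≤ 1)
    (hfix : ∀ σ ∈ A.inertiaSubgroupIn ℚ, σ ζ = ζ → c σ = 0 → σ θ = θ)
    (hmove : ∀ σ ∈ A.inertiaSubgroupIn ℚ, σ ζ = ζ → c σ ≠ 0 →
      A.valuation (ζ - 1) ≤ A.valuation (σ θ - θ)) :
    ∃ u : Qbar, A.valuation u = 1 ∧ (∀ σ ∈ A.inertiaSubgroupIn ℚ, σ u = u) ∧
      ∀ σ ∈ A.inertiaSubgroupIn ℚ, σ ζ = ζ → (∀ w : Qbar, w ^ p = u → σ w = w) → c σ = 0 := by
  have : Fact p.Prime := ⟨hp⟩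
  have : NeZero p := ⟨hp.ne_zero⟩
  have hc : IsChar A ζ c := fun σ hσ τ hτ =>
    hadd σ (mem_inertiaFix.1 hσ).1 (mem_inertiaFix.1 hσ).2 τ (mem_inertiaFix.1 hτ).1
      (mem_inertiaFix.1 hτ).2
  by_cases hall : ∀ σ ∈ inertiaFix A ζ, c σ = 0
  · exact ⟨1, map_one _, fun σ _ => map_one σ,
      fun σ hσ h _ => hall σ (mem_inertiaFix.2 ⟨hσ, h⟩)⟩
  push Not at hall
  obtain ⟨σ₁, hσ₁, hcσ₁⟩ := hall
  obtain ⟨σ₀, hσ₀, hc₀⟩ := hc.exists_eq_one hσ₁ hcσ₁
  obtain ⟨hσ₀I, hσ₀ζ⟩ := mem_inertiaFix.1 hσ₀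
  have hθK : KerFixed A ζ c θ := fun k hk hk0 =>
    hfix k (mem_inertiaFix.1 hk).1 (mem_inertiaFix.1 hk).2 hk0
  have hθp : (σ₀ ^ p) θ = θ :=
    hθK _ (pow_mem hσ₀ p) (by rw [hc.pow hσ₀, ZMod.natCast_self, zero_mul])
  have hmove₀ := hmove σ₀ hσ₀I hσ₀ζ (by rw [hc₀]; exact one_ne_zero)
  obtain ⟨j₀, hj₀, hj₀p, hX0⟩ := exists_eigComponent_ne_zero hp hζ hσ₀ζ hθp fun h => by
    rw [h, sub_self, map_zero] at hmove₀
    exact hmove₀.not_gt
      (zero_lt_iff.mpr ((Valuation.ne_zero_iff _).mpr (sub_ne_zero.mpr (hζ.ne_one hp.one_lt))))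
  have hj₀dvd : ¬ p ∣ j₀ := Nat.not_dvd_of_pos_of_lt (Nat.pos_of_ne_zero hj₀) hj₀p
  set X := eigComponent p ζ σ₀ θ j₀ with hXdef
  have hXK : KerFixed A ζ c X := kerFixed_eigComponent hc hσ₀ hc₀ hθK j₀
  have hXe : ζ ^ j₀ * σ₀ X = X := pow_mul_apply_eigComponent hζ hσ₀ζ hθp j₀
  have hXp : ∀ σ ∈ inertiaFix A ζ, σ (X ^ p) = X ^ p := fun σ hσ => by
    conv_rhs => rw [← pow_mul_apply_of_eigen hc hσ₀ hc₀ hXK hXe hσ]
    rw [map_pow, mul_pow, ← pow_mul, mul_comm (j₀ * _) p, pow_mul ζ p, hζ.pow_eq_one, one_pow,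
      one_mul]
  obtain ⟨k₀, hk₀⟩ := LocalThree.exists_val_zpow hp hA
    (orbitNorm_ne_zero (p := p) (A := A) (ζ := ζ) (pow_ne_zero p hX0))
    fun σ hσ => apply_orbitNorm hp hXp hσ
  rw [valuation_orbitNorm hp hA, map_pow] at hk₀
  obtain ⟨l, rfl⟩ := dvd_exponent hp hA hζ hc hσ₀ hc₀ hθ1 hθK hmove₀ hj₀dvd hX0 hk₀
  have hP0 := valuation_natCast_pos (A := A) hp
  set w₀ := orbitNorm p A ζ X / (p : Qbar) ^ l with hw₀
  have hw₀p : w₀ ^ p = orbitNorm p A ζ (X ^ p) / (p : Qbar) ^ ((p : ℤ) * l) := by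
    rw [hw₀, div_pow, mul_comm (p : ℤ) l, zpow_mul, zpow_natCast, orbitNorm_pow]
  refine ⟨w₀ ^ p, ?_, fun σ hσ => ?_, fun σ hσ hσζ hroots => ?_⟩
  · rw [hw₀p, map_div₀, map_zpow₀, valuation_orbitNorm hp hA, map_pow, hk₀,
      div_self (zpow_ne_zero _ hP0.ne')]
  · rw [hw₀p, map_div₀, apply_orbitNorm hp hXp hσ, map_zpow₀, map_natCast]
  · have hw := hroots w₀ rfl
    rw [hw₀, map_div₀, map_zpow₀, map_natCast,
      div_left_inj' (zpow_ne_zero _ (Nat.cast_ne_zero.mpr hp.ne_zero : (p : Qbar) ≠ 0))] at hw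
    exact char_eq_zero_of_fixed hp hζ hc hσ₀ hc₀ hconj hj₀dvd hX0 hXK hXe
      (mem_inertiaFix.2 ⟨hσ, hσζ⟩) hw

end FLTAgent.SemistableFinals
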