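import Fermat.Agent.ECReduction.Multiple
import Mathlib.AlgebraicGeometry.EllipticCurve.DivisionPolynomial.Basic

/-!
# Computations at a node

The discriminant (`val_node_Δ`), the size of division polynomials at the node, the order of the
classes of singular points (`two_mul_dvd_of_smul_inE0`), and the abscissa of the difference of two
points of one class (`plus_sub_val`).  Used for the multiplicative case of
`SemistableFinals.LocalShape`.
-/

set_option autoImplicit false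

noncomputable section

namespace FLTAgent.SemistableFinals

open WeierstrassCurve WeierstrassCurve.Affine FLTAgent.ECReduction

variable {K : Type*} [Field K] {A : ValuationSubring K} {W : WeierstrassCurve K}

local notation "v" => A.valuation

theorem node_coeff (nd : NodeData A W) :
    W.a₃ = -2 * nd.t - W.a₁ * nd.r ∧
      W.a₄ = W.a₁ * nd.t - 3 * nd.r ^ 2 - 2 * W.a₂ * nd.r ∧
      W.a₂ = nd.s ^ 2 + W.a₁ * nd.s - 3 * nd.r ∧
      W.a₆ = nd.c - nd.r ^ 3 - W.a₂ * nd.r ^ 2 - W.a₄ * nd.r + nd.t ^ 2 +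
        W.a₁ * nd.r * nd.t + W.a₃ * nd.t := by
  refine ⟨?_, ?_, by linear_combination -nd.es, ?_⟩
  · have := nd.eY; simp only [dY] at this; linear_combination this
  · have := nd.eX; simp only [dX] at this; linear_combination -this
  · simp only [NodeData.c]; ring

theorem node_Δ (nd : NodeData A W) : W.Δ = -nd.c * (nd.u ^ 6 + 432 * nd.c) := by
  obtain ⟨ha3, ha4, ha2, ha6⟩ := node_coeff nd
  simp only [WeierstrassCurve.Δ, WeierstrassCurve.b₂, WeierstrassCurve.b₄, WeierstrassCurve.b₆,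
    WeierstrassCurve.b₈, NodeData.u]
  rw [ha6, ha4, ha3, ha2]
  ring

theorem val_node_Δ (nd : NodeData A W) : v W.Δ = v nd.c := by
  rw [node_Δ nd, map_mul, A.valuation.map_neg, A.valuation.map_add_eq_of_lt_left, map_pow,
    nd.val_u, one_pow, mul_one]
  rw [map_pow, nd.val_u, one_pow]
  exact val_mul_lt_right A (val_ofNat_le A 432) nd.val_c

/-- The terms from the third on of an elliptic divisibility sequence are as small as the third
and fourth ones. -/
theorem val_preNormEDS'_le {b c d : K} {g : A.ValueGroup} (hb : v b ≤ 1) (hc1 : v c ≤ 1)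
    (hd1 : v d ≤ 1) (hc : v c ≤ g) (hd : v d ≤ g) (n : ℕ) :
    v (preNormEDS' b c d n) ≤ 1 ∧ (3 ≤ n → v (preNormEDS' b c d n) ≤ g) := by
  induction n using Nat.strong_induction_on with
  | _ n ih =>
    have hle : ∀ {j}, j < n → v (preNormEDS' b c d j) ≤ 1 := fun h => (ih _ h).1
    have hg : ∀ {j}, j < n → 3 ≤ j → v (preNormEDS' b c d j) ≤ g := fun h => (ih _ h).2
    have hif : ∀ (P : Prop) [Decidable P], v (if P then b else 1) ≤ 1 :=
      fun P _ => by split_ifs <;> simp [hb]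
    have hif' : ∀ (P : Prop) [Decidable P], v (if P then 1 else b) ≤ 1 :=
      fun P _ => by split_ifs <;> simp [hb]
    have hl : ∀ {x y : K}, v x ≤ g → v y ≤ 1 → v (x * y) ≤ g := fun hx hy => by
      rw [map_mul]; exact (mul_le_of_le_one_right' hy).trans hx
    have hr : ∀ {x y : K}, v x ≤ 1 → v y ≤ g → v (x * y) ≤ g := fun hx hy => by
      rw [map_mul]; exact (mul_le_of_le_one_left' hx).trans hy
    rcases (by omega : n = 0 ∨ n = 1 ∨ n = 2 ∨ n = 3 ∨ n = 4 ∨ 5 ≤ n) with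
      rfl | rfl | rfl | rfl | rfl | h5
    · simp
    · simp
    · simp
    · simp [hc, hc1]
    · simp [hd, hd1]
    rcases Nat.even_or_odd n with he | ho
    · obtain ⟨m, rfl⟩ : ∃ m, n = 2 * (m + 3) :=
        ⟨n / 2 - 3, by obtain ⟨r, rfl⟩ := he; omega⟩
      rw [preNormEDS'_even]
      refine ⟨val_sub_le A (val_mul_le A (val_mul_le A (val_pow_le A (hle (by omega)) 2)
        (hle (by omega))) (hle (by omega))) (val_mul_le A (val_mul_le A (hle (by omega))
        (hle (by omega))) (val_pow_le A (hle (by omega)) 2)), fun _ => ?_⟩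
      refine A.valuation.map_sub_le (hr (val_mul_le A (val_pow_le A (hle (by omega)) 2)
        (hle (by omega))) (hg (by omega) (by omega)))
        (hl (hr (hle (by omega)) (hg (by omega) (by omega))) (val_pow_le A (hle (by omega)) 2))
    · obtain ⟨m, rfl⟩ : ∃ m, n = 2 * (m + 2) + 1 :=
        ⟨n / 2 - 2, by obtain ⟨r, rfl⟩ := ho; omega⟩
      rw [preNormEDS'_odd]
      refine ⟨val_sub_le A (val_mul_le A (val_mul_le A (hle (by omega))
        (val_pow_le A (hle (by omega)) 3)) (hif _)) (val_mul_le A (val_mul_le A (hle (by omega))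
        (val_pow_le A (hle (by omega)) 3)) (hif' _)), fun _ => ?_⟩
      refine A.valuation.map_sub_le (hl (hl (hg (by omega) (by omega))
        (val_pow_le A (hle (by omega)) 3)) (hif _)) (hl (hr (hle (by omega)) ?_) (hif' _))
      rw [pow_succ]
      exact hr (val_pow_le A (hle (by omega)) 2) (hg (by omega) (by omega))

/-- The division polynomials from `ψ₃` on are at the node as small as the node constant. -/
theorem val_eval_preΨ'_node_le (nd : NodeData A W) {n : ℕ} (hn : 3 ≤ n) :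
    v ((W.preΨ' n).eval nd.r) ≤ v nd.c := by
  obtain ⟨ha3, ha4, ha2, ha6⟩ := node_coeff nd
  have hu := nd.val_u.le
  have e2 : W.Ψ₂Sq.eval nd.r = 4 * nd.c := by
    simp [WeierstrassCurve.Ψ₂Sq, WeierstrassCurve.b₂, WeierstrassCurve.b₄, WeierstrassCurve.b₆]
    rw [ha6, ha4, ha3, ha2]; ring
  have e3 : W.Ψ₃.eval nd.r = nd.u ^ 2 * nd.c := by
    simp [WeierstrassCurve.Ψ₃, WeierstrassCurve.b₂, WeierstrassCurve.b₄, WeierstrassCurve.b₆,
      WeierstrassCurve.b₈, NodeData.u]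
    rw [ha6, ha4, ha3, ha2]; ring
  have e4 : W.preΨ₄.eval nd.r = -(16 * nd.c ^ 2) := by
    simp [WeierstrassCurve.preΨ₄, WeierstrassCurve.b₂, WeierstrassCurve.b₄, WeierstrassCurve.b₆,
      WeierstrassCurve.b₈]
    rw [ha6, ha4, ha3, ha2]; ring
  have e : (W.preΨ' n).eval nd.r =
      preNormEDS' ((W.Ψ₂Sq.eval nd.r) ^ 2) (W.Ψ₃.eval nd.r) (W.preΨ₄.eval nd.r) n := by
    rw [← Polynomial.coe_evalRingHom, WeierstrassCurve.preΨ', map_preNormEDS', map_pow]
  rw [e, e2, e3, e4]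
  have h4 : v (-(16 * nd.c ^ 2)) ≤ v nd.c := by
    rw [A.valuation.map_neg, map_mul, map_pow, sq]
    exact (mul_le_of_le_one_left' (val_ofNat_le A 16)).trans (mul_le_of_le_one_left' nd.val_c.le)
  have h3 : v (nd.u ^ 2 * nd.c) ≤ v nd.c := by
    rw [map_mul, map_pow, nd.val_u, one_pow, one_mul]
  exact (val_preNormEDS'_le (val_pow_le A (val_mul_le A (val_ofNat_le A 4) nd.val_c.le) 2)
    (h3.trans nd.val_c.le) (h4.trans nd.val_c.le) h3 h4 n).2 hn

variable [DecidableEq K]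

/-- The difference of two points of one class with close abscissae. -/
theorem plus_sub_val (nd : NodeData A W) {γ : A.ValueGroup} {x₁ y₁ x₂ y₂ : K}
    (h₁ : W.toAffine.Nonsingular x₁ y₁) (h₂ : W.toAffine.Nonsingular x₂ y₂) (hγ : γ < 1)
    (hX₁ : v (nd.X x₁) = γ) (hY₁ : v (nd.Y x₁ y₁) < γ)
    (hX₂ : v (nd.X x₂) = γ) (hY₂ : v (nd.Y x₂ y₂) < γ) :
    (x₁ = x₂ → (Point.some x₁ y₁ h₁ - Point.some x₂ y₂ h₂ : W.toAffine.Point) = 0) ∧
    (x₁ ≠ x₂ → v (x₁ - x₂) < γ → ∃ x y h,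
      (Point.some x₁ y₁ h₁ - Point.some x₂ y₂ h₂ : W.toAffine.Point) = Point.some x y h ∧
        1 < v x ∧ v x * v (x₁ - x₂) ^ 2 = γ ^ 2) := by
  have hγ0 : 0 < γ := zero_le.trans_lt hY₁
  set z := W.toAffine.negY x₂ y₂ with hz
  have hzY : nd.Y x₂ z = -nd.Y x₂ y₂ - nd.u * nd.X x₂ := nd.negY_eq x₂ y₂
  refine ⟨fun hx => ?_, fun hx hd => ?_⟩
  · subst hx
    rcases Y_eq_of_X_eq h₁.1 h₂.1 rfl with hy | hy
    · subst hy; exact sub_self _
    · exfalso
      rw [hy, ← hz, hzY, ← neg_add', A.valuation.map_neg,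
        A.valuation.map_add_eq_of_lt_right (by rwa [nd.val_u_mul, hX₂]), nd.val_u_mul, hX₂] at hY₁
      exact lt_irrefl _ hY₁
  have hnum : ∀ X, v X = γ → v (nd.Y x₁ y₁ + nd.Y x₂ y₂ + nd.u * X) = γ := fun X hX => by
    rw [A.valuation.map_add_eq_of_lt_right, nd.val_u_mul, hX]
    rw [nd.val_u_mul, hX]
    exact A.valuation.map_add_lt hY₁ hY₂
  rw [sub_eq_add_neg, Point.neg_some]
  refine ⟨_, _, _, Point.add_of_X_ne hx, ?_⟩
  set L := W.toAffine.slope x₁ x₂ y₁ z - nd.s with hL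
  have e1 : L * (x₁ - x₂) = nd.Y x₁ y₁ + nd.Y x₂ y₂ + nd.u * nd.X x₂ := by
    rw [hL, slope_of_X_ne hx, sub_mul, div_mul_cancel₀ _ (sub_ne_zero.2 hx)]
    simp only [NodeData.Y, NodeData.X] at hzY ⊢
    linear_combination -hzY
  have e2 : (L + nd.u) * (x₁ - x₂) = nd.Y x₁ y₁ + nd.Y x₂ y₂ + nd.u * nd.X x₁ := by
    simp only [NodeData.X] at e1 ⊢
    linear_combination e1
  have hd0 : 0 < v (x₁ - x₂) := A.valuation.pos_iff.2 (sub_ne_zero.2 hx)
  have hXX : v (L * (L + nd.u)) * v (x₁ - x₂) ^ 2 = γ ^ 2 := by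
    have h := congrArg₂ (fun a b => v a * v b) e1 e2
    simp only [map_mul, hnum _ hX₂, hnum _ hX₁] at h
    rw [sq, sq, map_mul, ← h]
    ac_rfl
  have hbig : 1 < v (L * (L + nd.u)) := by
    by_contra hc
    rw [not_lt] at hc
    exact absurd hXX ((mul_le_of_le_one_left' hc).trans_lt
      (pow_lt_pow_left₀ hd zero_le two_ne_zero)).ne
  set x₃ := W.toAffine.addX x₁ x₂ (W.toAffine.slope x₁ x₂ y₁ z) with hx₃
  have hX₃ : v (nd.X x₃) = v (L * (L + nd.u)) := by
    rw [hx₃, nd.addX_eq, sub_sub, A.valuation.map_sub_eq_of_lt_left]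
    exact (A.valuation.map_add_lt (hX₁ ▸ hγ) (hX₂ ▸ hγ)).trans hbig
  have hx₃' : v x₃ = v (L * (L + nd.u)) := by
    rw [show x₃ = nd.X x₃ + nd.r by simp [NodeData.X],
      A.valuation.map_add_eq_of_lt_left (nd.hr.trans_lt (hX₃ ▸ hbig)), hX₃]
  exact ⟨hx₃' ▸ hbig, by rw [hx₃', hXX]⟩

/-- The classes have order exactly `2 h`. -/
theorem two_mul_dvd_of_smul_inE0 [IsAlgClosed K] (nd : NodeData A W) (hW : IntAt A W)
    (hΔ : W.Δ ≠ 0) {π ζ : K} (hπ0 : π ≠ 0) (hπ : v π < 1) (hζ : v ζ = 1) (hζ1 : v (ζ - 1) = 1)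
    {h : ℕ} (hc : v nd.c = v π ^ (2 * h)) {P : W.toAffine.Point} {e : ℕ} (he : 1 ≤ e)
    (heh : e < h) (hP : nd.Plus P (v π ^ e)) {m : ℕ} (hm : InE0 A W (m • P)) :
    2 * h ∣ m * e := by
  obtain ⟨Q, claim⟩ := nd.exists_branch_generator hW hΔ hπ0 hπ hζ hζ1 (by omega) hc
  set N := E0 hW with hN
  have hT : ∀ n, 1 ≤ n → n ≤ h → n • Q ∉ N := by
    intro n hn1 hnh hmem
    obtain ⟨T, hTp, hTm, hTE⟩ := claim n hn1 hnh
    have hTN : InE0 A W T := by
      have := add_mem (mem_E0 (hW := hW).2 hTE) hmem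
      rwa [sub_add_cancel] at this
    rcases Nat.lt_or_ge n h with hlt | hge
    · exact NodeData.Plus.not_inE0 nd hW (hTp hlt) hTN
    · obtain ⟨a, b, hab, rfl, hXa, hYa, -, -⟩ := hTm (by omega)
      exact hTN ((nd.resSingular_iff hW hab.1).2 ⟨hXa, hYa⟩)
  have h2Q : (2 * h) • Q ∈ N := by
    obtain ⟨T, -, hTm, hTE⟩ := claim h (by omega) le_rfl
    have e' : (2 * h) • Q = (T + T) - ((T - h • Q) + (T - h • Q)) := by
      rw [mul_comm, mul_smul, two_smul, smul_add]; abel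
    rw [e']
    exact sub_mem (mem_E0.2 ((hTm rfl).two_inE0 nd hW)) (add_mem (mem_E0.2 hTE) (mem_E0.2 hTE))
  have hPe : P - e • Q ∈ N := by
    obtain ⟨T, hTp, -, hTE⟩ := claim e he heh.le
    have e' : P - e • Q = (P - T) + (T - e • Q) := by abel
    rw [e']
    exact add_mem (mem_E0.2 (NodeData.Plus.sub_inE0 nd hW hP (hTp heh))) (mem_E0.2 hTE)
  have hme : (m * e) • Q ∈ N := by
    have e' : (m * e) • Q = m • P - m • (P - e • Q) := by
      rw [smul_sub, sub_sub_cancel, mul_smul]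
    rw [e']
    exact sub_mem (mem_E0.2 hm) (nsmul_mem hPe m)
  have hr : (m * e % (2 * h)) • Q ∈ N := by
    have e' : (m * e) • Q = (m * e % (2 * h)) • Q + (m * e / (2 * h)) • ((2 * h) • Q) := by
      rw [← mul_nsmul', ← add_nsmul, Nat.mod_add_div' (m * e) (2 * h)]
    rw [e'] at hme
    have := sub_mem hme (nsmul_mem h2Q (m * e / (2 * h)))
    rwa [add_sub_cancel_right] at this
  refine Nat.dvd_of_mod_eq_zero ?_
  have hlt : m * e % (2 * h) < 2 * h := Nat.mod_lt _ (by omega)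
  generalize m * e % (2 * h) = r at hr hlt
  by_contra hr0
  rcases Nat.lt_or_ge h r with hgt | hle
  · refine hT (2 * h - r) (by omega) (by omega) ?_
    have e' : (2 * h - r) • Q = (2 * h) • Q - r • Q := by
      rw [eq_sub_iff_add_eq, ← add_nsmul, Nat.sub_add_cancel hlt.le]
    rw [e']
    exact sub_mem h2Q hr
  · exact hT r (Nat.pos_of_ne_zero hr0) hle hr

/-- The difference of two integral points with close abscissae and a unit `y`-derivative. -/
theorem good_sub_val (hW : IntAt A W) {x₁ y₁ x₂ y₂ : K}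
    (h₁ : W.toAffine.Nonsingular x₁ y₁) (h₂ : W.toAffine.Nonsingular x₂ y₂)
    (hx₁ : v x₁ ≤ 1) (hx₂ : v x₂ ≤ 1) (hdY : v (dY W x₁ y₁) = 1) (hyy : v (y₁ - y₂) < 1) :
    (x₁ = x₂ → (Point.some x₁ y₁ h₁ - Point.some x₂ y₂ h₂ : W.toAffine.Point) = 0) ∧
    (x₁ ≠ x₂ → v (x₁ - x₂) < 1 → ∃ x y h,
      (Point.some x₁ y₁ h₁ - Point.some x₂ y₂ h₂ : W.toAffine.Point) = Point.some x y h ∧
        1 < v x ∧ v x * v (x₁ - x₂) ^ 2 = 1) := by
  set z := W.toAffine.negY x₂ y₂ with hz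
  refine ⟨fun hx => ?_, fun hx hd => ?_⟩
  · subst hx
    rcases Y_eq_of_X_eq h₁.1 h₂.1 rfl with hy | hy
    · subst hy; exact sub_self _
    · exfalso
      rw [show y₁ - y₂ = dY W x₁ y₁ by rw [hy]; simp only [negY, dY]; ring, hdY] at hyy
      exact lt_irrefl _ hyy
  rw [sub_eq_add_neg, Point.neg_some]
  refine ⟨_, _, _, Point.add_of_X_ne hx, ?_⟩
  set l := W.toAffine.slope x₁ x₂ y₁ z with hl
  have hnum : v (y₁ - z) = 1 := by
    refine val_eq_one_of_sub_lt A hdY ?_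
    rw [show y₁ - z - dY W x₁ y₁ = -((y₁ - y₂) + W.a₁ * (x₁ - x₂)) by
      rw [hz]; simp only [negY, dY]; ring]
    exact val_neg_lt A (val_add_lt A hyy (val_mul_lt_right A hW.h₁ hd))
  have hd0 : 0 < v (x₁ - x₂) := A.valuation.pos_iff.2 (sub_ne_zero.2 hx)
  have hvl : v l * v (x₁ - x₂) = 1 := by
    rw [← map_mul, hl, slope_of_X_ne hx, div_mul_cancel₀ _ (sub_ne_zero.2 hx), hnum]
  have hl1 : 1 < v l := by
    by_contra hc
    rw [not_lt] at hc
    exact absurd hvl ((mul_le_of_le_one_left' hc).trans_lt hd).ne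
  have hX : v (W.toAffine.addX x₁ x₂ l) = v l ^ 2 := by
    rw [show W.toAffine.addX x₁ x₂ l = l ^ 2 + W.a₁ * l + (-W.a₂ - x₁ - x₂) by rw [addX]; ring]
    exact val_sq_add_of_one_lt A hW.h₁
      (val_sub_le A (val_sub_le A (val_neg_le A hW.h₂) hx₁) hx₂) hl1
  exact ⟨hX ▸ one_lt_pow₀ hl1 two_ne_zero, by rw [hX, ← mul_pow, hvl, one_pow]⟩

end FLTAgent.SemistableFinals
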