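import Fermat.Agent.SemistableFinals.KummerUnit
import Fermat.Agent.SemistableFinals.NodeBranch
import Fermat.Agent.SemistableFinals.DeepPoints
import Fermat.Agent.GaloisImage.Det
import Fermat.Prelude.Def_WeierstrassCurve_PeuRamifiee

/-!
# The `p`-torsion at `p` of an ordinary or peu ramifié curve

`exists_kummer_unit`: for a curve over `ℤ` with good reduction at `p` whose `p`-torsion does not all
reduce to infinity, or with multiplicative reduction at `p` and `p ∣ v_p(Δ)`, the inertia elements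
at `p` fixing the `p`-th roots of unity and the `p`-th roots of one unit fixed by inertia act
trivially on the `p`-torsion.  A local input of Mazur's principle at `q = p`.
-/

set_option autoImplicit false

noncomputable section

open Matrix WeierstrassCurve WeierstrassCurve.Affine WeierstrassCurve.Affine.Point
open scoped WeierstrassCurve.Affine

namespace FLTAgent.SemistableFinals

open FLTAgent.Density (Qbar GalQ)
open FLTAgent.ECReduction hiding torE0 mem_torE0 torE1 mem_torE1 smul_sub_mem_torE1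
  smul_sub_mem_torE0
open FLTAgent.GaloisImage

variable {W : WeierstrassCurve ℤ} {p : ℕ} [Fact p.Prime]
  {A : ValuationSubring (AlgebraicClosure ℚ)}

local notation "v" => A.valuation

/-- The torsion abscissae are roots of the division polynomial. -/
theorem psiVanish (hp2 : p ≠ 2) : PsiVanish (EK W : WeierstrassCurve (AlgebraicClosure ℚ)) p :=
  fun _ _ h hP => (FLTAgent.ECTorsion.preΨ'_eval_eq_zero_iff h
    ((Fact.out : p.Prime).odd_of_ne_two hp2)).1 hP

/-- The `p`-torsion abscissae reducing to infinity bound the displacement from below. -/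
theorem le_of_mul_sq_eq_one (hp2 : p ≠ 2) {ζ : AlgebraicClosure ℚ} (hζ : IsPrimitiveRoot ζ p)
    {x y e : AlgebraicClosure ℚ} {h : (EK W).Nonsingular x y}
    (hP : p • (Point.some x y h : (EK W).Point) = 0) (hx : 1 < v x)
    (he : v x * v e ^ 2 = 1) : v (ζ - 1) ≤ v e := by
  have hp : p.Prime := Fact.out
  have hb := val_natCast_mul_pow_le (intAt W) hp hp2 (Nat.cast_ne_zero.2 hp.ne_zero)
    (psiVanish hp2) hP hx
  have hk : 2 * ((p - 1) / 2) = p - 1 := by
    obtain ⟨k, hk⟩ := hp.odd_of_ne_two hp2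
    omega
  rw [val_prime_eq_pow hζ, show v (1 - ζ) ^ (p - 1) = (v (1 - ζ) ^ 2) ^ ((p - 1) / 2) by
    rw [← pow_mul, hk], ← mul_pow, A.valuation.map_sub_swap 1 ζ] at hb
  have hle : v (ζ - 1) ^ 2 * v x ≤ 1 :=
    (pow_le_one_iff_of_nonneg zero_le (by have := hp.two_le; omega)).1 hb
  rw [← he, mul_comm] at hle
  exact (pow_le_pow_iff_left₀ zero_le zero_le two_ne_zero).1
    (le_of_mul_le_mul_left hle (zero_lt_one.trans hx))

/-- The value of an integer in terms of its `p`-adic valuation. -/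
theorem val_intCast_eq_pow (hA : A.LiesOverPrime p) {n : ℤ} (hn : n ≠ 0) :
    v (n : AlgebraicClosure ℚ) = v (p : AlgebraicClosure ℚ) ^ padicValInt p n := by
  have hp : p.Prime := Fact.out
  have hf : FiniteMultiplicity (p : ℤ) n :=
    Int.finiteMultiplicity_iff.mpr ⟨by simpa using hp.ne_one, hn⟩
  obtain ⟨m, hm, hndvd⟩ := hf.exists_eq_pow_mul_and_not_dvd
  have hk : multiplicity (p : ℤ) n = padicValInt p n := by
    rw [hm, padicValInt.mul (pow_ne_zero _ (Int.natCast_ne_zero.2 hp.ne_zero))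
      (fun h => hndvd (by rw [h]; exact dvd_zero _)), padicValInt.eq_zero_of_not_dvd hndvd,
      add_zero, ← hm, padicValInt, Int.natAbs_pow, Int.natAbs_natCast, padicValNat.prime_pow]
  conv_lhs => rw [hm]
  rw [Int.cast_mul, Int.cast_pow, Int.cast_natCast, map_mul, map_pow, hk,
    val_int_eq_one hp hA hndvd, mul_one]

variable (W p A) in
/-- Data moving exactly as much as roots of units allow. -/
def HasMovedElement (ζ : AlgebraicClosure ℚ) : Prop :=
  ∃ (U : Submodule (ZMod p) (Tors W p)) (z : Tors W p) (θ : AlgebraicClosure ℚ),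
    (∀ σ ∈ A.inertiaSubgroupIn ℚ, ∀ y : Tors W p, σ • y - y ∈ U) ∧ z ∉ U ∧ v θ ≤ 1 ∧
      (∀ σ ∈ A.inertiaSubgroupIn ℚ, σ • z = z → σ θ = θ) ∧
      ∀ σ ∈ A.inertiaSubgroupIn ℚ, σ • z ≠ z → v (ζ - 1) ≤ v (σ θ - θ)

variable {ζ : AlgebraicClosure ℚ}

/-- Good ordinary reduction. -/
theorem hasMovedElement_good (hp2 : p ≠ 2) (hA : A.LiesOverPrime p)
    (hζ : IsPrimitiveRoot ζ p) (hgood : W.IsGoodPrimeFor p)
    (htop : torE1 (p := p) W A ≠ ⊤) : HasMovedElement W p A ζ := by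
  have hp : p.Prime := Fact.out
  have hE0 : ∀ y : Tors W p, y ∈ torE0 W A := fun y => by
    rw [mem_torE0]
    rcases (y : (EK W).Point) with _ | ⟨a, b, h⟩
    · exact trivial
    · exact inE0_some.2 (not_resSingular_of_good hp hA hgood h)
  obtain ⟨z, hz⟩ : ∃ z, z ∉ torE1 (p := p) W A := by
    by_contra hc
    push Not at hc
    exact htop (eq_top_iff.2 fun y _ => hc y)
  rcases hze : (z : (EK W).Point) with _ | ⟨x, y, h⟩
  · exact absurd (mem_torE1.2 (by rw [hze]; exact trivial)) hz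
  have hx : v x ≤ 1 := by
    by_contra hx
    exact hz (mem_torE1.2 (by rw [hze]; exact inE1_some.2 (not_le.1 hx)))
  have hI := intAt W (A := A)
  have hy : v y ≤ 1 := val_le_of_monic_quadratic hI hx ((equation_iff ..).1 h.1)
  have hns : ¬ ResSingular A (EK W) x y := not_resSingular_of_good hp hA hgood h
  -- the point is not of order two modulo the kernel of reduction
  have hdY : v (dY (EK W) x y) = 1 := by
    refine le_antisymm (dY_le hI hx hy) (not_lt.1 fun hlt => hz ?_)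
    have h2 : InE1 A (EK W) ((z : (EK W).Point) + z) := by
      rw [hze]
      have hn : (Point.some x y h : (EK W).Point) + Point.some x y h =
          Point.some x y h - -(Point.some x y h : (EK W).Point) := by rw [sub_neg_eq_add]
      rw [hn, Point.neg_some]
      rcases one_lt_val_sub_of_residue_eq hI (h₁ := h) (h₂ := (nonsingular_neg x y).2 h) hns hx hy
        (by rw [sub_self, _root_.map_zero]; exact zero_lt_one)
        (by rw [show y - (EK W).negY x y = dY (EK W) x y by simp only [negY, dY]; ring]; exact hlt)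
        with h0 | ⟨a, b, h', e, hbig⟩
      · rw [h0]; exact trivial
      · rw [e]; exact inE1_some.2 hbig
    rw [mem_torE1, ← mem_E1 (hW := hI)]
    obtain ⟨k, hk⟩ := hp.odd_of_ne_two hp2
    have hpz := nsmul_tors W z
    rw [congrArg (· • (z : (EK W).Point)) hk] at hpz
    rw [add_smul, one_smul, mul_smul, two_smul] at hpz
    rw [eq_neg_of_add_eq_zero_right hpz, ← nsmul_add]
    exact neg_mem (nsmul_mem ((mem_E1 (hW := hI)).2 h2) k)
  have hmemU : ∀ σ ∈ A.inertiaSubgroupIn ℚ, ∀ w : Tors W p, σ • w - w ∈ torE1 (p := p) W A := by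
    intro σ hσ w
    exact smul_sub_mem_torE1 (inertiaElt_of_mem hσ) (hE0 w)
  refine ⟨torE1 W A, z, x, hmemU, hz,
    hx, fun σ _ hfix => ?_, fun σ hσ hne => ?_⟩
  · have h' := congrArg Subtype.val hfix
    rw [coe_smul_tors, hze, smul_some] at h'
    exact ((Point.some.injEq ..).mp h').1
  have hi := inertiaElt_of_mem hσ
  obtain ⟨hsame, hdiff⟩ := good_sub_val hI h (nonsingular_smul σ h) hx
    (by rw [hi.val_map]; exact hx) hdY (by rw [A.valuation.map_sub_swap]; exact hi.sub_lt y hy)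
  have hT : ((z - σ • z : Tors W p) : (EK W).Point) =
      Point.some x y h - Point.some (σ x) (σ y) (nonsingular_smul σ h) := by
    rw [AddSubgroupClass.coe_sub, coe_smul_tors, hze, smul_some]
  have hxne : x ≠ σ x := fun he => hne (sub_eq_zero.1 (Subtype.ext (hT.trans (hsame he)))).symm
  obtain ⟨a, b, hab, e, hbig, hmul⟩ :=
    hdiff hxne (by rw [A.valuation.map_sub_swap]; exact hi.sub_lt x hx)
  refine le_of_mul_sq_eq_one hp2 hζ (h := hab) ?_ hbig (by rwa [A.valuation.map_sub_swap x] at hmul)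
  rw [← e, ← hT]
  exact nsmul_tors W _

/-- At a peu ramifié node the exponent is a positive multiple of `p`. -/
private theorem exists_node_exponent (hA : A.LiesOverPrime p) (hΔ : W.Δ ≠ 0)
    (hbad : (p : ℤ) ∣ W.Δ) (hpeu : (W.map (Int.castRingHom ℚ)).IsPeuRamifieeAt p p)
    (nd : NodeData A (EK W : WeierstrassCurve (AlgebraicClosure ℚ)))
    (hEKΔ : (EK W : WeierstrassCurve (AlgebraicClosure ℚ)).Δ = (W.Δ : AlgebraicClosure ℚ)) :
    ∃ n', 0 < n' ∧ v nd.c = v (p : AlgebraicClosure ℚ) ^ (p * n') := by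
  have hp : p.Prime := Fact.out
  rw [WeierstrassCurve.IsPeuRamifieeAt, WeierstrassCurve.map_Δ, eq_intCast, padicValRat.of_int,
    Int.natCast_dvd_natCast] at hpeu
  obtain ⟨n', hn'⟩ := hpeu
  refine ⟨n', Nat.pos_of_ne_zero fun h0 => ?_, ?_⟩
  · rw [h0, mul_zero] at hn'
    rcases padicValInt.eq_zero_iff.1 hn' with h | h | h
    · exact hp.ne_one h
    · exact hΔ h
    · exact h hbad
  · rw [← val_node_Δ nd, hEKΔ, val_intCast_eq_pow hA hΔ, hn']

/-- Some torsion point is singular modulo `A`: the division polynomial is small at the node. -/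
private theorem exists_not_mem_torE0 (hp2 : p ≠ 2) (hΔ : W.Δ ≠ 0)
    (hI : IntAt A (EK W : WeierstrassCurve (AlgebraicClosure ℚ)))
    (nd : NodeData A (EK W : WeierstrassCurve (AlgebraicClosure ℚ)))
    (hcp : v nd.c < v (p : AlgebraicClosure ℚ)) : ∃ z, z ∉ torE0 (p := p) W A := by
  have hp : p.Prime := Fact.out
  have := isElliptic_qbar hΔ
  by_contra hall
  push Not at hall
  have hroot : ∀ a ∈ (divPol W p).roots, 1 ≤ v (nd.r - a) := by
    intro a ha
    have hev : (divPol W p).eval a = 0 := (Polynomial.mem_roots'.1 ha).2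
    obtain ⟨b, h, -⟩ := FLTAgent.ECTorsion.exists_point (EK W) a
    have hP : p • (Point.some a b h : (EK W).Point) = 0 :=
      (FLTAgent.ECTorsion.preΨ'_eval_eq_zero_iff h (hp.odd_of_ne_two hp2)).2
        (by rw [← divPol_eq]; exact hev)
    have hmem := mem_torE0.1 (hall ⟨Point.some a b h, (Submodule.mem_torsionBy_iff _ _).2
      (by rw [natCast_zsmul]; exact hP)⟩)
    rw [inE0_some, nd.resSingular_iff hI h.1] at hmem
    by_contra hlt
    rw [not_le, A.valuation.map_sub_swap] at hlt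
    refine hmem ⟨hlt, ?_⟩
    by_contra hY
    rw [not_lt] at hY
    have hsum : v (nd.Y a b + nd.u * nd.X a) = v (nd.Y a b) :=
      A.valuation.map_add_eq_of_lt_left (by
        rw [nd.val_u_mul]; exact lt_of_lt_of_le hlt hY)
    have he := congrArg v (nd.eq_XY h.1)
    rw [map_mul, hsum] at he
    have : v (nd.X a ^ 3 + nd.c) < 1 := val_add_lt A (val_pow_lt A hlt three_ne_zero) nd.val_c
    exact this.not_ge (he ▸ one_le_mul hY hY)
  have hlead : (divPol W p).leadingCoeff = (p : AlgebraicClosure ℚ) := by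
    rw [Polynomial.leadingCoeff, natDegree_divPol hp2, leadingCoeff_divPol hp2]
  have hev : (divPol W p).eval nd.r = (p : AlgebraicClosure ℚ) *
      ((divPol W p).roots.map fun a => nd.r - a).prod := by
    conv_lhs => rw [(IsAlgClosed.splits (divPol W p)).eq_prod_roots]
    rw [Polynomial.eval_mul, Polynomial.eval_C, hlead, Polynomial.eval_multiset_prod,
      Multiset.map_map]
    congr 2
    refine Multiset.map_congr rfl fun a _ => ?_
    simp
  have hone : ∀ s : Multiset (AlgebraicClosure ℚ), (∀ a ∈ s, 1 ≤ v (nd.r - a)) →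
      1 ≤ v (s.map fun a => nd.r - a).prod := by
    intro s
    induction s using Multiset.induction with
    | empty => intro _; simp
    | cons a s ih =>
      intro h
      rw [Multiset.map_cons, Multiset.prod_cons, map_mul]
      exact one_le_mul (h a (Multiset.mem_cons_self a s))
        (ih fun b hb => h b (Multiset.mem_cons_of_mem hb))
  have hle : v (p : AlgebraicClosure ℚ) ≤ v ((divPol W p).eval nd.r) := by
    rw [hev, map_mul]
    exact le_mul_of_one_le_right' (hone _ hroot)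
  refine (hle.trans ?_).not_gt hcp
  rw [divPol_eq]
  exact val_eval_preΨ'_node_le nd (by have := hp.two_le; omega)

/-- Up to sign a singular torsion point lies on the first branch. -/
private theorem exists_plus_of_not_mem_torE0 (hp2 : p ≠ 2)
    (hI : IntAt A (EK W : WeierstrassCurve (AlgebraicClosure ℚ)))
    (nd : NodeData A (EK W : WeierstrassCurve (AlgebraicClosure ℚ)))
    {z₀ : Tors W p} (hz₀ : z₀ ∉ torE0 (p := p) W A) :
    ∃ z, z ∉ torE0 (p := p) W A ∧ ∃ γ, nd.Plus (z : (EK W).Point) γ := by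
  have hp : p.Prime := Fact.out
  rcases nd.trichotomy hI (fun h => hz₀ (mem_torE0.2 h)) with ⟨γ, h⟩ | ⟨γ, h⟩ | h
  · exact ⟨z₀, hz₀, γ, h⟩
  · exact ⟨-z₀, fun hm => hz₀ (neg_mem_iff.1 hm), γ, by rw [Submodule.coe_neg]; exact h⟩
  · exfalso
    refine hz₀ (mem_torE0.2 ?_)
    obtain ⟨i, hi⟩ := hp.odd_of_ne_two hp2
    have h2 := h.two_inE0 nd hI
    have hpz := nsmul_tors W z₀
    rw [congrArg (· • (z₀ : (EK W).Point)) hi] at hpz
    rw [add_smul, one_smul, mul_smul, two_smul] at hpz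
    rw [eq_neg_of_add_eq_zero_right hpz, ← nsmul_add, ← mem_E0 (hW := hI)]
    exact neg_mem (nsmul_mem (mem_E0.2 h2) i)

/-- The depth of a torsion point on a branch is a power of `v p`. -/
private theorem exists_depth_eq_pow (hp2 : p ≠ 2) (hA : A.LiesOverPrime p) (hΔ : W.Δ ≠ 0)
    (hI : IntAt A (EK W : WeierstrassCurve (AlgebraicClosure ℚ)))
    (nd : NodeData A (EK W : WeierstrassCurve (AlgebraicClosure ℚ)))
    {n' : ℕ} (hn' : 0 < n') (hc : v nd.c = v (p : AlgebraicClosure ℚ) ^ (p * n'))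
    {z : Tors W p} {γ : A.ValueGroup} (hplus : nd.Plus (z : (EK W).Point) γ)
    {x : AlgebraicClosure ℚ} (hX : v (nd.X x) = γ) (hX0 : nd.X x ≠ 0) (hγ : γ < 1) :
    ∃ k : ℕ, γ = v (p : AlgebraicClosure ℚ) ^ k := by
  have hp : p.Prime := Fact.out
  have := isElliptic_qbar hΔ
  have hP1 : v (p : AlgebraicClosure ℚ) < 1 := A.mem_nonunits_iff.1 hA
  have hP0 : 0 < v (p : AlgebraicClosure ℚ) :=
    A.valuation.pos_iff.2 (Nat.cast_ne_zero.2 hp.ne_zero)
  have hEKΔ : (EK W : WeierstrassCurve (AlgebraicClosure ℚ)).Δ = (W.Δ : AlgebraicClosure ℚ) := by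
    rw [map_castQbar, WeierstrassCurve.map_Δ, eq_intCast]
  obtain ⟨e, he, m, hm⟩ :=
    (LocalThree.residueChar_of_liesOverPrime hp hA).exists_pow_eq_zpow hX0
  rw [hX] at hm
  obtain ⟨m', rfl⟩ : ∃ m' : ℕ, m = m' := by
    refine ⟨m.toNat, (Int.toNat_of_nonneg ?_).symm⟩
    by_contra hneg
    exact (pow_lt_one₀ zero_le hγ he.ne').not_ge
      (hm ▸ one_le_zpow_of_nonpos₀ hP0 hP1.le (le_of_lt (not_le.1 hneg)))
  rw [zpow_natCast] at hm
  obtain ⟨π, hπ⟩ := IsAlgClosed.exists_pow_nat_eq (p : AlgebraicClosure ℚ)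
    (n := 2 * e) (Nat.mul_pos two_pos he)
  have hvπ : v π ^ (2 * e) = v (p : AlgebraicClosure ℚ) := by rw [← map_pow, hπ]
  have hπ1 : v π < 1 := lt_of_not_ge fun hge => hP1.not_ge (hvπ ▸ one_le_pow₀ hge)
  have hπ0 : π ≠ 0 := fun h0 => by
    rw [h0, zero_pow (Nat.mul_pos two_pos he).ne'] at hπ
    exact Nat.cast_ne_zero.2 hp.ne_zero hπ.symm
  have hγπ : γ = v π ^ (2 * m') := by
    refine (pow_left_inj₀ zero_le zero_le he.ne').1 ?_
    rw [hm, ← hvπ, ← pow_mul, ← pow_mul]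
    congr 1
    ring
  have hcπ : v nd.c = v π ^ (2 * (e * (p * n'))) := by
    rw [hc, ← hvπ, ← pow_mul]
    congr 1
    ring
  have hπp : 0 < v π := A.valuation.pos_iff.2 hπ0
  have hm0 : 0 < m' := by
    by_contra h0
    rw [show m' = 0 by omega, mul_zero, pow_zero] at hγπ
    exact hγ.ne hγπ
  have hmh : 2 * m' < e * (p * n') := by
    have hlt := NodeData.Plus.pow_lt nd hπ1
      (Nat.mul_pos he (Nat.mul_pos hp.pos hn')) hcπ hplus
    rw [hγπ] at hlt
    exact (pow_lt_pow_iff_right_of_lt_one₀ hπp hπ1).1 hlt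
  have hdvd := two_mul_dvd_of_smul_inE0 nd hI
    (hEKΔ ▸ Int.cast_ne_zero.2 hΔ) hπ0 hπ1 (ζ := -1)
    (by rw [A.valuation.map_neg, _root_.map_one])
    (by
      rw [show (-1 - 1 : AlgebraicClosure ℚ) = -((2 : ℕ) : AlgebraicClosure ℚ) by norm_num,
        A.valuation.map_neg]
      exact val_nat_eq_one hp hA fun h =>
        hp2 ((Nat.prime_dvd_prime_iff_eq hp Nat.prime_two).1 h))
    hcπ (by omega : 1 ≤ 2 * m') hmh (hγπ ▸ hplus) (m := p)
    (by rw [nsmul_tors]; exact trivial)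
  obtain ⟨l, hl⟩ : e * n' ∣ m' := by
    have h' : (2 * p) * (e * n') ∣ (2 * p) * m' := by
      rw [show 2 * p * (e * n') = 2 * (e * (p * n')) by ring,
        show 2 * p * m' = p * (2 * m') by ring]
      exact hdvd
    exact Nat.dvd_of_mul_dvd_mul_left (Nat.mul_pos two_pos hp.pos) h'
  refine ⟨n' * l, (pow_left_inj₀ zero_le zero_le he.ne').1 ?_⟩
  rw [hm, ← pow_mul, hl]
  congr 1
  ring

/-- Peu ramifié multiplicative reduction. -/
theorem hasMovedElement_node (hp2 : p ≠ 2) (hΔ : W.Δ ≠ 0)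
    (hss : (p : ℤ) ∣ W.Δ → ¬ (p : ℤ) ∣ W.c₄)
    (hA : A.LiesOverPrime p) (hζ : IsPrimitiveRoot ζ p) (hbad : (p : ℤ) ∣ W.Δ)
    (hpeu : (W.map (Int.castRingHom ℚ)).IsPeuRamifieeAt p p) : HasMovedElement W p A ζ := by
  classical
  have hp : p.Prime := Fact.out
  have hI := intAt W (A := A)
  have := isElliptic_qbar hΔ
  have hEKΔ : (EK W : WeierstrassCurve (AlgebraicClosure ℚ)).Δ = (W.Δ : AlgebraicClosure ℚ) := by
    rw [map_castQbar, WeierstrassCurve.map_Δ, eq_intCast]
  obtain ⟨nd⟩ := ConductorMatch.nonempty_nodeData (W := (EK W)) (A := A) two_ne_zero three_ne_zero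
    hI (hEKΔ ▸ val_int_lt hA hbad)
    (by rw [map_castQbar, WeierstrassCurve.map_c₄]; exact val_int_eq_one hp hA (hss hbad))
  have hP1 : v (p : AlgebraicClosure ℚ) < 1 := A.mem_nonunits_iff.1 hA
  have hP0 : 0 < v (p : AlgebraicClosure ℚ) :=
    A.valuation.pos_iff.2 (Nat.cast_ne_zero.2 hp.ne_zero)
  -- the exponent of the node is a positive multiple of `p`
  obtain ⟨n', hn', hc⟩ := exists_node_exponent hA hΔ hbad hpeu nd hEKΔ
  have hcp : v nd.c < v (p : AlgebraicClosure ℚ) := by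
    rw [hc]
    refine (pow_lt_pow_right_of_lt_one₀ hP0 hP1 ?_).trans_eq (pow_one _)
    have := hp.two_le
    exact this.trans_lt' one_lt_two |>.trans_le (Nat.le_mul_of_pos_right p hn')
  obtain ⟨z₀, hz₀⟩ := exists_not_mem_torE0 hp2 hΔ hI nd hcp
  -- one of `± z₀` lies on the first branch
  obtain ⟨z, hz, γ, hplus⟩ := exists_plus_of_not_mem_torE0 hp2 hI nd hz₀
  obtain ⟨x, y, h, hze, hγ, hX, hY⟩ := id hplus
  have hγ0 : 0 < γ := zero_le.trans_lt hY
  have hX0 : nd.X x ≠ 0 := fun h0 => by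
    rw [h0, _root_.map_zero] at hX
    exact hγ0.ne hX
  -- the depth is a power of `p`
  obtain ⟨k, hk⟩ := exists_depth_eq_pow hp2 hA hΔ hI nd hn' hc hplus hX hX0 hγ
  have hpk : (p : AlgebraicClosure ℚ) ^ k ≠ 0 := pow_ne_zero _ (Nat.cast_ne_zero.2 hp.ne_zero)
  refine ⟨torE0 W A, z, nd.X x / (p : AlgebraicClosure ℚ) ^ k,
    fun σ hσ w => smul_sub_mem_torE0 hp2 hss hp hA (inertiaElt_of_mem hσ) w, hz, ?_,
    fun σ hσ hfix => ?_, fun σ hσ hne => ?_⟩
  · rw [map_div₀, hX, map_pow, ← hk, div_self hγ0.ne']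
  · have h' := congrArg Subtype.val hfix
    rw [coe_smul_tors, hze, smul_some] at h'
    have hi := inertiaElt_of_mem hσ
    have hx' := ((Point.some.injEq ..).mp h').1
    simp only [map_div₀, map_pow, map_natCast, NodeData.X, map_sub,
      (nd.map_r_t hi (fixesCoeffs σ)).1, hx']
  have hi := inertiaElt_of_mem hσ
  have hf := fixesCoeffs (W₀ := (W.map (Int.castRingHom ℚ)).toAffine)
    (K := AlgebraicClosure ℚ) σ
  obtain ⟨hsame, hdiff⟩ := plus_sub_val nd (nonsingular_smul σ h) h hγ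
    ((nd.val_X_map hi hf x).trans hX) ((nd.val_Y_map hi hf x y).trans_lt hY) hX hY
  have hT : ((σ • z - z : Tors W p) : (EK W).Point) =
      Point.some (σ x) (σ y) (nonsingular_smul σ h) - Point.some x y h := by
    rw [AddSubgroupClass.coe_sub, coe_smul_tors, hze, smul_some]
  have hxne : σ x ≠ x := fun he => hne (sub_eq_zero.1 (Subtype.ext (hT.trans (hsame he))))
  have he : σ (nd.X x / (p : AlgebraicClosure ℚ) ^ k) - nd.X x / (p : AlgebraicClosure ℚ) ^ k =
      (σ x - x) / (p : AlgebraicClosure ℚ) ^ k := by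
    simp only [map_div₀, map_pow, map_natCast, NodeData.X, map_sub, (nd.map_r_t hi hf).1]
    rw [← sub_div, sub_sub_sub_cancel_right]
  rw [he]
  have hle1 : v (ζ - 1) ≤ 1 := by
    refine (A.valuation.map_sub _ _).trans (max_le (le_of_eq ?_) (_root_.map_one v).le)
    exact SemistableWild.valuation_root_of_unity hp.ne_zero hζ.pow_eq_one
  rcases lt_or_ge (v (σ x - x)) γ with hlt | hge
  · obtain ⟨a, b, hab, e, hbig, hmul⟩ := hdiff hxne hlt
    refine le_of_mul_sq_eq_one hp2 hζ (h := hab) ?_ hbig ?_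
    · rw [← e, ← hT]
      exact nsmul_tors W _
    · rw [map_div₀, map_pow, ← hk, div_pow, ← mul_div_assoc, hmul, div_self (pow_ne_zero _ hγ0.ne')]
  · refine hle1.trans ?_
    rw [map_div₀, map_pow, ← hk, one_le_div₀ hγ0]
    exact hge

/-- **The local shape at `p`.** -/
theorem exists_kummer_unit (hp2 : p ≠ 2) (hΔ : W.Δ ≠ 0) (hss : (p : ℤ) ∣ W.Δ → ¬ (p : ℤ) ∣ W.c₄)
    (hA : A.LiesOverPrime p) (hζ : IsPrimitiveRoot ζ p)
    (hloc : (W.IsGoodPrimeFor p ∧ torE1 (p := p) W A ≠ ⊤) ∨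
      ((p : ℤ) ∣ W.Δ ∧ (W.map (Int.castRingHom ℚ)).IsPeuRamifieeAt p p)) :
    ∃ u : AlgebraicClosure ℚ, v u = 1 ∧ (∀ σ ∈ A.inertiaSubgroupIn ℚ, σ u = u) ∧
      ∀ σ ∈ A.inertiaSubgroupIn ℚ, σ ζ = ζ → (∀ w, w ^ p = u → σ w = w) →
        ∀ y : Tors W p, σ • y = y := by
  classical
  have hp : p.Prime := Fact.out
  set I := A.inertiaSubgroupIn ℚ with hIdef
  obtain ⟨U, z, θ, hU, hz, hθ, hfix, hmove⟩ : HasMovedElement W p A ζ :=
    hloc.elim (fun h => hasMovedElement_good hp2 hA hζ h.1 h.2)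
      fun h => hasMovedElement_node hp2 hΔ hss hA hζ h.1 h.2
  by_cases hUbot : U = ⊥
  · refine ⟨1, _root_.map_one _, fun σ _ => _root_.map_one σ, fun σ hσ _ _ y => ?_⟩
    have := hU σ hσ y
    rwa [hUbot, Submodule.mem_bot, sub_eq_zero] at this
  obtain ⟨w₀, hw₀U, hw₀⟩ := Submodule.exists_mem_ne_zero_of_ne_bot hUbot
  obtain ⟨b₀⟩ := exists_basis (W := W) (p := p) hΔ
  have hli : LinearIndependent (ZMod p) ![w₀, z] := by
    refine (LinearIndependent.pair_iff' hw₀).2 fun c hc => hz ?_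
    rw [← hc]
    exact U.smul_mem c hw₀U
  let b : Module.Basis (Fin 2) (ZMod p) (Tors W p) := basisOfLinearIndependentOfCardEqFinrank hli
    (by rw [Module.finrank_eq_card_basis b₀])
  have hb : ⇑b = ![w₀, z] := coe_basisOfLinearIndependentOfCardEqFinrank hli _
  have hb0 : b 0 = w₀ := by rw [hb]; rfl
  have hb1 : b 1 = z := by rw [hb]; rfl
  -- membership in `U` is vanishing of the second coordinate
  have hcoord : ∀ y ∈ U, b.repr y 1 = 0 := by
    intro y hy
    by_contra hne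
    refine hz ?_
    have hsum := b.sum_repr y
    rw [Fin.sum_univ_two, hb0, hb1] at hsum
    have h1 : b.repr y 1 • z ∈ U := by
      rw [eq_sub_of_add_eq' hsum]
      exact U.sub_mem hy (U.smul_mem _ hw₀U)
    have h2 := U.smul_mem (b.repr y 1)⁻¹ h1
    rwa [smul_smul, inv_mul_cancel₀ hne, one_smul] at h2
  set M := matRep W p b with hM
  have hMe : ∀ σ i j, M σ i j = b.repr (σ • b j) i := fun σ i j => by
    simp only [hM, matRep, MonoidHom.coe_mk, OneHom.coe_mk, LinearMap.toMatrix_apply]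
    rfl
  have hM10 : ∀ σ ∈ I, M σ 1 0 = 0 := fun σ hσ => by
    rw [hMe, hb0, ← sub_add_cancel (σ • w₀) w₀]
    exact hcoord _ (U.add_mem (hU σ hσ w₀) hw₀U)
  have hM11 : ∀ σ ∈ I, M σ 1 1 = 1 := fun σ hσ => by
    have h := hcoord _ (hU σ hσ z)
    rw [map_sub, Finsupp.sub_apply, sub_eq_zero] at h
    rw [hMe, hb1, h, ← hb1, b.repr_self, Finsupp.single_eq_same]
  have hdet : ∀ σ ∈ I, ∀ m : ℕ, σ ζ = ζ ^ m → M σ 0 0 = m := by
    intro σ hσ m hm
    have hall : ∀ ξ : AlgebraicClosure ℚ, ξ ^ p = 1 → σ ξ = ξ ^ m := fun ξ hξ => by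
      have : NeZero p := ⟨hp.ne_zero⟩
      obtain ⟨i, -, rfl⟩ := hζ.eq_pow_of_pow_eq_one hξ
      rw [map_pow, hm, ← pow_mul, ← pow_mul, mul_comm]
    have h := det_eq_of_apply_eq_pow b hΔ hall
    rw [← hM, Matrix.det_fin_two, hM10 σ hσ, hM11 σ hσ, mul_one, mul_zero, sub_zero] at h
    exact h
  have hM00 : ∀ σ ∈ I, σ ζ = ζ → M σ 0 0 = 1 := fun σ hσ h => by
    rw [hdet σ hσ 1 (by rw [pow_one, h]), Nat.cast_one]
  have hmul : ∀ σ ∈ I, ∀ τ ∈ I, M (σ * τ) 0 1 = M σ 0 0 * M τ 0 1 + M σ 0 1 := by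
    intro σ _ τ hτ
    rw [_root_.map_mul, Matrix.mul_apply, Fin.sum_univ_two, hM11 τ hτ, mul_one]
  have hone : ∀ σ ∈ I, σ ζ = ζ → M σ 0 1 = 0 → ∀ y : Tors W p, σ • y = y := by
    intro σ hσ hσζ hc y
    have e : M σ = 1 := by
      ext i j
      fin_cases i <;> fin_cases j
      · exact hM00 σ hσ hσζ
      · exact hc
      · exact hM10 σ hσ
      · exact hM11 σ hσ
    have h := matRep_mulVec b σ y
    rw [← hM, e, one_mulVec] at h
    exact (b.repr.injective (DFunLike.coe_injective h)).symm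
  obtain ⟨u, hu1, hu2, hu3⟩ := exists_unit_of_character hp hA hζ (fun σ => M σ 0 1)
    (fun σ hσ hσζ τ hτ _ => by
      show M (σ * τ) 0 1 = M σ 0 1 + M τ 0 1
      rw [hmul σ hσ τ hτ, hM00 σ hσ hσζ, one_mul, add_comm])
    (fun σ hσ hσζ τ hτ m hm => by
      show M (τ * σ * τ⁻¹) 0 1 = (m : ZMod p) * M σ 0 1
      have h1 := hmul _ (I.mul_mem (I.mul_mem hτ hσ) (I.inv_mem hτ)) τ hτ
      rw [inv_mul_cancel_right, hmul τ hτ σ hσ, hdet τ hτ m hm] at h1
      have h2 : M (τ * σ * τ⁻¹) 0 0 = 1 := by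
        refine hM00 _ (I.mul_mem (I.mul_mem hτ hσ) (I.inv_mem hτ)) ?_
        have : NeZero p := ⟨hp.ne_zero⟩
        obtain ⟨i, -, hi⟩ := hζ.eq_pow_of_pow_eq_one
          (show (τ⁻¹ ζ) ^ p = 1 by rw [← map_pow, hζ.pow_eq_one, _root_.map_one])
        rw [AlgEquiv.mul_apply, AlgEquiv.mul_apply, ← hi, map_pow σ, hσζ, hi,
          ← AlgEquiv.mul_apply, mul_inv_cancel, AlgEquiv.one_apply]
      rw [h2, one_mul, add_comm (M τ 0 1)] at h1
      exact (add_right_cancel h1).symm)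
    θ hθ
    (fun σ hσ hσζ hc => hfix σ hσ (hone σ hσ hσζ hc z))
    (fun σ hσ hσζ hc => hmove σ hσ fun hfz => hc (by
      show M σ 0 1 = 0
      rw [hMe, hb1, hfz, ← hb1, b.repr_self, Finsupp.single_eq_of_ne (by decide)]))
  exact ⟨u, hu1, hu2, fun σ hσ hσζ hr => hone σ hσ hσζ (hu3 σ hσ hσζ hr)⟩

end FLTAgent.SemistableFinals
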