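import Fermat.Agent.CongruenceRel.Assembly
import Fermat.Agent.SemistableHecke.FixedClasses
import Fermat.Agent.SemistableHecke.FormsKill
import Fermat.Agent.GaloisAttach.Stabilizer
import Fermat.Agent.Jacobian.General
import Fermat.Agent.Semistable.Setting
import Fermat.Agent.GaloisAttach.Supplied

/-!
# Hecke elements killing cusp forms kill torsion of reduced classes

If `r` kills the forms of level `M` then `r • Y` is, for every `n`, `p ^ n` times a class fixed by
a power of a Frobenius, as soon as `Y` is.  Such reduced classes form a finite group, so `r • Y`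
reduces to zero when the reduction of `Y` is killed by `p` (`reduction_smul_eq_zero_of_lowerTheta`,
used in `SemistableFinals.PrincipleLevel`).
-/

set_option autoImplicit false

noncomputable section

open AlgebraicCurve ModularCurve FLTAgent.CongruenceRel FLTAgent.GaloisAttach
open FLTAgent.SemistableHecke IsLocalRing

namespace FLTAgent.SemistableFinals

open FLTAgent.Density (GalQ Qbar)

/-- In a finite group an element of exponent `p` that is a multiple of a large power of `p`
vanishes. -/
theorem eq_zero_of_deep_multiple {G : Type*} [AddCommGroup G] {p N : ℕ} (hp : p.Prime)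
    (hN : 0 < N) {z w : G} (hw : N • w = 0) (hz : p • z = 0) (he : z = p ^ N • w) : z = 0 := by
  have h1 : addOrderOf w ∣ p ^ (N + 1) := addOrderOf_dvd_of_nsmul_eq_zero (by
    rw [pow_succ, mul_comm, mul_nsmul', ← he, hz])
  have h2 : addOrderOf w ∣ N := addOrderOf_dvd_of_nsmul_eq_zero hw
  obtain ⟨i, -, hi'⟩ := (Nat.dvd_prime_pow hp).mp h1
  rw [he]
  refine addOrderOf_dvd_iff_nsmul_eq_zero.mp (hi' ▸ pow_dvd_pow p ?_)
  have h3 := Nat.le_of_dvd hN (hi' ▸ h2)
  exact le_trans (Nat.lt_pow_self hp.one_lt).le h3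

theorem pow_smul_eq {G α : Type*} [Group G] [MulAction G α] {g : G} {a : α} (h : g • a = a) :
    ∀ n : ℕ, g ^ n • a = a
  | 0 => by rw [pow_zero, one_smul]
  | n + 1 => by rw [pow_succ, mul_smul, h, pow_smul_eq h n]

/-- A power of a semilinear automorphism fixing a non-constant function fixes a pole of it. -/
theorem exists_pow_fixes_place {K F : Type*} [Field K] [Field F] [Algebra K F]
    [FFBasic.IsFunctionField K F] {g : SemilinearAut K F} {x : F} (hx : Transcendental K x)
    (hgx : g • x = x) :
    ∃ (e : ℕ) (P₀ : Place K F), 0 < e ∧ g ^ e • P₀ = P₀ := by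
  classical
  have hS : {v : Place K F | v.ord x < 0}.Finite :=
    (FFBasic.finite_setOf_ord_ne_zero (K := K) x).subset fun v (hv : v.ord x < 0) => hv.ne
  obtain ⟨P, hP⟩ : ∃ P : Place K F, P.ord x < 0 := by
    by_contra hc
    push Not at hc
    have h0 : Deuring.pol (K := K) x = 0 := Finsupp.ext fun v => by
      rw [Deuring.pol_apply, Finsupp.zero_apply]
      exact max_eq_right (neg_nonpos.mpr (hc v))
    have := Deuring.degree_pol_pos (K := K) hx
    rw [h0, map_zero] at this
    exact lt_irrefl _ this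
  have horb : ∀ i : ℕ, g ^ i • P ∈ {v : Place K F | v.ord x < 0} := fun i => by
    show (g ^ i • P).ord x < 0
    rw [← pow_smul_eq hgx i, SemilinearAut.ord_smul]
    exact hP
  have := hS.to_subtype
  obtain ⟨i, j, hne, hij⟩ := Finite.exists_ne_map_eq_of_infinite
    (fun i : ℕ => (⟨g ^ i • P, horb i⟩ : {v : Place K F | v.ord x < 0}))
  replace hij : g ^ i • P = g ^ j • P := congrArg Subtype.val hij
  wlog hlt : i < j generalizing i j
  · exact this j i (Ne.symm hne) hij.symm (lt_of_le_of_ne (not_lt.mp hlt) (Ne.symm hne))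
  refine ⟨j - i, P, Nat.sub_pos_of_lt hlt, MulAction.injective (g ^ i) ?_⟩
  show g ^ i • g ^ (j - i) • P = g ^ i • P
  rw [← mul_smul, ← pow_add, Nat.add_sub_cancel' hlt.le]
  exact hij.symm

/-- A power of a given automorphism of `ℚ̄` fixes a given number field. -/
theorem exists_pow_mem_fixingSubgroup (σ : GalQ) (L : IntermediateField ℚ Qbar)
    [FiniteDimensional ℚ L] : ∃ f : ℕ, 0 < f ∧ σ ^ f ∈ L.fixingSubgroup := by
  let L' := IntermediateField.normalClosure ℚ L Qbar
  have : Normal ℚ L' := normalClosure.normal ..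
  have : FiniteDimensional ℚ L' := inferInstance
  set ψ : GalQ →* (L' ≃ₐ[ℚ] L') := AlgEquiv.restrictNormalHom L'
  refine ⟨orderOf (ψ σ), orderOf_pos _, ?_⟩
  rw [IntermediateField.mem_fixingSubgroup_iff]
  intro y hy
  have h : ψ (σ ^ orderOf (ψ σ)) = 1 := by rw [map_pow, pow_orderOf_eq_one]
  have := AlgEquiv.restrictNormal_commutes (σ ^ orderOf (ψ σ)) L' ⟨y, L.le_normalClosure hy⟩
  rw [show (σ ^ orderOf (ψ σ)).restrictNormal L' = 1 from h, AlgEquiv.one_apply] at this
  exact this.symm

variable {M : ℕ} [NeZero M] {q : ℕ} [Fact q.Prime] {A : ValuationSubring Qbar}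

/-- Finitely many reduced classes are fixed by a suitable power of Frobenius, uniformly. -/
theorem exists_exponent_frobenius_power (hqM : ¬ q ∣ M) (hA : A.LiesOverPrime q)
    {ρ : ResidueField A ≃+* ResidueField A} (hρ : ∀ a, ρ a = a ^ q) {f : ℕ} (hf : 0 < f) :
    ∃ e N : ℕ, 0 < e ∧ 0 < N ∧
      ∀ y : JZeroC (ResidueField A) M, (specialAut M ρ ^ f) ^ e • y = y → N • y = 0 := by
  classical
  have := Semistable.charP_residueField hA
  have := Deuring.isAlgClosed_residueField A
  have := Deuring.Modular.isFunctionFieldk (GoodReduction.x0GoodReduction M Fact.out hqM A hA)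
  set G := specialAut M ρ
  set x := Deuring.Modular.jFb (k := ResidueField A) M
  have hx := Deuring.Modular.transcendental_jFb (k := ResidueField A) M
  have hGx : G • x = x := Semistable.specialAut_smul_jFb M _
  obtain ⟨e, P₀, he, hP₀⟩ := exists_pow_fixes_place hx (pow_smul_eq hGx f)
  have hbase : ∀ (n : ℕ) (c : ResidueField A),
      SemilinearAut.baseAut (G ^ n) c = c ^ q ^ n := by
    intro n
    induction n with
    | zero => intro c; rw [pow_zero, pow_zero, pow_one, SemilinearAut.baseAut_one]; rfl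
    | succ n ih =>
      intro c
      rw [pow_succ, SemilinearAut.baseAut_mul, RingAut.mul_apply]
      show SemilinearAut.baseAut (G ^ n) (ρ c) = _
      rw [ih, hρ, ← pow_mul, ← pow_succ']
  obtain ⟨N, hN, hN'⟩ := exists_nsmul_eq_zero_of_fixed ((G ^ f) ^ e) hP₀ fun j hj => by
    rw [← pow_mul, ← pow_mul]
    refine finite_fixed_places _ hx (pow_smul_eq hGx _) ?_
    set n := f * e * j
    have hn : 0 < n := by positivity
    refine ((Polynomial.X ^ q ^ n - Polynomial.X : Polynomial (ResidueField A)).roots.toFinset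
      |>.finite_toSet).subset fun c hc => ?_
    have h1 : 1 < q ^ n := Nat.one_lt_pow hn.ne' (Fact.out : q.Prime).one_lt
    have hne : (Polynomial.X ^ q ^ n - Polynomial.X : Polynomial (ResidueField A)) ≠ 0 :=
      FiniteField.X_pow_card_sub_X_ne_zero _ h1
    rw [Finset.mem_coe, Multiset.mem_toFinset, Polynomial.mem_roots hne]
    simp only [Polynomial.IsRoot.def, Polynomial.eval_sub, Polynomial.eval_pow, Polynomial.eval_X]
    rw [← hbase, show n = f * (e * j) from mul_assoc f e j, hc, sub_self]
  exact ⟨e, N, he, hN, hN'⟩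

omit [Fact q.Prime] in
/-- Reduction turns a power of a Frobenius into the power of the Frobenius of the special fibre. -/
theorem reduction_frobenius_pow {h : ReductionInputsModL A M}
    (hI : FibreInputs A M (placeReductionModL h))
    (ρ : ResidueField A ≃+* ResidueField A) (hρ : ∀ a, ρ a = a ^ q) {σ : GalQ}
    (hσ : A.IsFrobeniusAt σ q) (x : JZero M) :
    ∀ n : ℕ, reductionModL A M (σ ^ n • x) = specialAut M ρ ^ n • reductionModL A M x
  | 0 => by rw [pow_zero, pow_zero, one_smul, one_smul]
  | n + 1 => by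
    rw [pow_succ', pow_succ', mul_smul, mul_smul, reduction_frobenius hI ρ hρ hσ,
      reduction_frobenius_pow hI ρ hρ hσ x n]

/-- A Hecke element killing the forms of level `M` kills the `p`-torsion of the reduced
classes. -/
theorem reduction_smul_eq_zero_of_lowerTheta {p : ℕ} (hp : p.Prime) (hqM : ¬ q ∣ M)
    (hA : A.LiesOverPrime q) {N : ℕ} [NeZero N] (hMN : M ∣ N) (S : Set ℕ) (r : GoodRing N S)
    (hr : lowerTheta N M hMN S r = 0) (Y : JZero M) (hY : p • reductionModL A M Y = 0) :
    (letI := heckeModuleBar M; reductionModL A M (goodIncl N S r • Y)) = 0 := by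
  let := heckeModuleBar M
  have : Fact p.Prime := ⟨hp⟩
  have := (jacobianInputs M hp).smulComm
  obtain ⟨h, hI⟩ := fibreInputs M (Fact.out : q.Prime) hqM A hA
  obtain ⟨ρ, hρ⟩ := exists_frobeniusEquiv (Fact.out : q.Prime) hA
  obtain ⟨σ, hσ⟩ := Density.exists_isFrobeniusAt A (Fact.out : q.Prime) hA
  obtain ⟨L, hL, hfix⟩ := GaloisAttach.openStabilizers (N := M) Y
  obtain ⟨f, hf, hσf⟩ := exists_pow_mem_fixingSubgroup σ L
  obtain ⟨e, c, he, hc, hkill⟩ := exists_exponent_frobenius_power hqM hA hρ hf
  set t := goodIncl N S r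
  have hred : p • reductionModL A M (t • Y) = 0 := by
    rw [← map_nsmul, smul_comm]
    exact reduction_smul_zero (HeckeJacobian.heckeOperatorsCommuteBar M) hI t _
      (by rw [map_nsmul, hY])
  obtain ⟨Z, hZ⟩ := Jacobian.exists_nsmul_eq Qbar (modularFunctionFieldBar M)
    (pow_ne_zero c hp.ne_zero) Y
  have hτ : (σ ^ f) ^ e • Y = Y :=
    pow_smul_eq (hfix _ ((IntermediateField.mem_fixingSubgroup_iff _ _).mp hσf)) e
  have hgt : ∀ (g : GalQ) (n : ℕ) (y : JZero M), g • (n • y) = n • (g • y) := fun g n y =>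
    map_nsmul (DistribSMul.toAddMonoidHom (JZero M) g) n y
  have hfixZ : (σ ^ f) ^ e • (t • Z) = t • Z := by
    rw [smul_comm, ← sub_eq_zero, ← smul_sub]
    exact formsKillTorsion N M p hMN hp S r hr c _ (by
      rw [nsmul_sub, ← hgt, hZ, hτ, sub_self])
  have hfix' : (specialAut M ρ ^ f) ^ e • reductionModL A M (t • Z) =
    reductionModL A M (t • Z) := by
    rw [← pow_mul, ← reduction_frobenius_pow hI ρ hρ hσ, pow_mul, hfixZ]
  refine eq_zero_of_deep_multiple hp hc (hkill _ hfix') hred ?_
  rw [← map_nsmul, smul_comm, hZ]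

end FLTAgent.SemistableFinals
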