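import Fermat.Agent.SemistableThree.Elliptic
import Fermat.Agent.Semistable.Compat
import Fermat.Agent.ModularFF.Descent
import Fermat.Agent.ModularFF.JExpansion
import Fermat.Agent.HeckeJacobian.ModularRatio

/-!
# Widths at the crossings divisible by three

With a prime `2 (mod 3)` in the level the widths at the crossings of `X₀(Mq)` are divisible by
three (`three_dvd_ord_hbar`): `Δ(τ)/Δ(qτ)` times the cube of `E₄(qτ) E₄(τ)²/Δ(τ)` is
`j(τ)² j(qτ)`.  Used for `p = 3` in `SemistableFinals.PrincipleSlope`.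
-/

set_option autoImplicit false

noncomputable section

open AlgebraicCurve ModularCurve IsLocalRing FLTAgent.FFBasic UpperHalfPlane
open FLTAgent.Semistable FLTAgent.Semistable.Level
open scoped MatrixGroups Manifold

namespace FLTAgent.SemistableFinals

local notation "Qbar" => AlgebraicClosure ℚ

/-- A form of level one as a form of level `L`. -/
def onGamma0 (L : ℕ) {k : ℤ} (G : ModularForm 𝒮ℒ k) :
    ModularForm (CongruenceSubgroup.Gamma0 L) k where
  toFun := ⇑G
  slash_action_eq' γ hγ := G.slash_action_eq' γ (Subgroup.map_le_range _ _ hγ)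
  holo' := G.holo'
  bdd_at_cusps' hc := G.bdd_at_cusps' (hc.mono (Subgroup.map_le_range _ _))

theorem qser_onGamma0 (L : ℕ) {k : ℤ} (G : ModularForm 𝒮ℒ k) {P : PowerSeries ℂ}
    (hP : ModularFF.PowerSum 1 ⇑G P) :
    HeckeJacobian.qser (onGamma0 L G) = HahnSeries.ofPowerSeries ℤ ℂ P := by
  rw [HeckeJacobian.qser]
  refine congrArg _ ?_
  exact hP.qExpansion_eq one_pos (analyticAt_cuspFunction_zero one_pos (hP.periodic one_ne_zero)
    G.holo' (hP.isBoundedAtImInfty one_pos))

section Series

variable (R : Type*) [CommRing R] (q : ℕ) [NeZero q]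

/-- The expansion of `E₄`. -/
def e4Laurent : LaurentSeries R :=
  HahnSeries.ofPowerSeries ℤ R (eisenstein4.map (Int.castRingHom R))

/-- The expansion of `Δ`. -/
def deltaLaurent : LaurentSeries R :=
  HahnSeries.single (1 : ℤ) 1 *
    HahnSeries.ofPowerSeries ℤ R (dedekindEtaUnit.map (Int.castRingHom R))

/-- The expansion of `1 / Δ`. -/
def deltaInvLaurent : LaurentSeries R :=
  HahnSeries.single (-1 : ℤ) 1 *
    HahnSeries.ofPowerSeries ℤ R (dedekindEtaUnitInv.map (Int.castRingHom R))

/-- The expansion of `E₄(qτ) E₄(τ)² / Δ(τ)`. -/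
def tSeries : LaurentSeries R := qExpand R q (e4Laurent R) * e4Laurent R ^ 2 * deltaInvLaurent R

theorem deltaInv_mul : deltaInvLaurent R * deltaLaurent R = 1 := by
  rw [deltaInvLaurent, deltaLaurent, mul_mul_mul_comm, HahnSeries.single_mul_single, ← map_mul,
    ← map_mul, mul_comm dedekindEtaUnitInv, dedekindEtaUnit_mul_inv, map_one, map_one]
  simp

theorem jqModC_eq : jqModC R = e4Laurent R ^ 3 * deltaInvLaurent R := by
  rw [jqModC, e4Laurent, deltaInvLaurent, jNum, map_mul, map_mul, map_pow, map_pow]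
  ring

theorem unitSeries_eq :
    unitSeries R q = deltaLaurent R * qExpand R q (deltaInvLaurent R) := by
  rw [unitSeries, deltaLaurent, deltaInvLaurent, map_mul, qExpand_single,
    show (1 - (q : ℤ)) = 1 + (q : ℤ) * (-1) by ring,
    show (1 : R) = 1 * 1 from (one_mul 1).symm, ← HahnSeries.single_mul_single, one_mul]
  ring

/-- `Δ(τ)/Δ(qτ) · T³ = j(τ)² j(qτ)`. -/
theorem unitSeries_mul_tSeries :
    unitSeries R q * tSeries R q ^ 3 = jqModC R ^ 2 * qExpand R q (jqModC R) := by
  rw [unitSeries_eq, tSeries, jqModC_eq, map_mul, map_pow]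
  have h := deltaInv_mul R
  linear_combination (qExpand R q (e4Laurent R) ^ 3 * qExpand R q (deltaInvLaurent R) *
    e4Laurent R ^ 6 * deltaInvLaurent R ^ 2) * h

variable {R}

theorem coeffMap_intSeries {S : Type*} [CommRing S] (f : R →+* S) (P : PowerSeries ℤ) :
    coeffMap f (HahnSeries.ofPowerSeries ℤ R (P.map (Int.castRingHom R))) =
      HahnSeries.ofPowerSeries ℤ S (P.map (Int.castRingHom S)) := by
  rw [coeffMap_ofPowerSeries, ← RingHom.comp_apply (PowerSeries.map f), ← PowerSeries.map_comp,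
    RingHom.ext_int (f.comp (Int.castRingHom R)) (Int.castRingHom S)]

theorem coeffMap_tSeries {S : Type*} [CommRing S] (f : R →+* S) :
    coeffMap f (tSeries R q) = tSeries S q := by
  simp only [tSeries, e4Laurent, deltaInvLaurent, map_mul, map_pow, coeffMap_qExpand,
    coeffMap_single, map_one, coeffMap_intSeries]

end Series

variable (M q : ℕ) [NeZero M] [NeZero q]

/-- `E₄(qτ) E₄(τ)² / Δ(τ)` is a function on `X₀(Mq)`. -/
theorem tSeries_mem : tSeries Qbar q ∈ modularFunctionFieldBar (M * q) := by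
  set D : ModularForm (CongruenceSubgroup.Gamma0 (M * q)) 12 :=
    onGamma0 (M * q) (CuspForm.discriminant : ModularForm 𝒮ℒ 12)
  set E := onGamma0 (M * q) ModularForm.E₄
  set E' := HeckeJacobian.rescale (M := M * q) (d := q) (dvd_refl _) (onGamma0 M ModularForm.E₄)
  obtain ⟨B, -, hB⟩ := HeckeJacobian.exists_mul E' E
  obtain ⟨C, -, hC⟩ := HeckeJacobian.exists_mul B E
  have hE : ∀ L, HeckeJacobian.qser (onGamma0 L ModularForm.E₄) = e4Laurent ℂ := fun L =>
    qser_onGamma0 L _ ModularFF.powerSum_E₄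
  have hD : HeckeJacobian.qser D = deltaLaurent ℂ := by
    rw [qser_onGamma0 (M * q) _ (P := PowerSeries.X *
      PowerSeries.map (Int.castRingHom ℂ) dedekindEtaUnit) (by
        simpa using ModularFF.powerSum_discriminant), deltaLaurent, map_mul,
      HahnSeries.ofPowerSeries_X]
  refine ModularFF.mem_modField_of_qExpansion HeckeJacobian.qbarToC
    (ModularForm.mcast (show (4 + 4 + 4 : ℤ) = 12 by norm_num) C) D ?_ ?_
  · show HeckeJacobian.qser D ≠ 0
    rw [hD]
    exact right_ne_zero_of_mul_eq_one (deltaInv_mul ℂ)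
  · show _ * HeckeJacobian.qser D = HeckeJacobian.qser C
    rw [coeffMap_tSeries, hD, hC, hB, HeckeJacobian.qser_rescale, hE, hE, tSeries, mul_assoc,
      deltaInv_mul, mul_one, pow_two, ← mul_assoc]

/-- `E₄(qτ) E₄(τ)² / Δ(τ)` on `X₀(Mq)`. -/
def tFun : modularFunctionFieldBar (M * q) := ⟨tSeries Qbar q, tSeries_mem M q⟩

variable {M q} {A : ValuationSubring (AlgebraicClosure ℚ)}

/-- The widths at the crossings are divisible by three. -/
theorem three_dvd_ord_hbar [Fact q.Prime] [IsAlgClosed (ResidueField A)]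
    [CharP (ResidueField A) q] (S : Semistable.Level.Setting M q A (residue A)) {E : ℕ}
    (hE : E.Prime) (hE3 : E % 3 = 2) (hdvd : E ∣ M)
    {s : Place (ResidueField A) (modularFunctionFieldFullC (ResidueField A) M)}
    (hs : s ∈ nodeSet S) : (3 : ℤ) ∣ s.ord (hbar S) := by
  have hmem : tFun M q ∈ Gauss.ring A (residue A) (ι₁ M q) :=
    ⟨tSeries A q, 1, by rw [map_one]; exact one_ne_zero, by
      rw [map_one, mul_one, Gauss.incl, coeffMap_tSeries]
      rfl⟩
  have hres : Gauss.res A (residue A) (ι₁ M q) ⟨tFun M q, hmem⟩ = tSeries (ResidueField A) q := by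
    rw [Gauss.res_mk A (residue A) (ι₁ M q) (y := tSeries A q) (z := 1) hmem
      (by rw [map_one]; exact one_ne_zero) (by
        rw [map_one, mul_one, Gauss.incl, coeffMap_tSeries]
        rfl),
      map_one, div_one, coeffMap_tSeries]
  set t := (branch₁ S).res ⟨tFun M q, hmem⟩
  set j := Deuring.Modular.jFb (k := ResidueField A) M
  have key : hbar S * t ^ 3 = j ^ (q + 2) := by
    refine Subtype.ext ?_
    have ht : (t : LaurentSeries (ResidueField A)) = tSeries (ResidueField A) q :=
      (coe_res₁ S hmem).trans hres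
    have hj : (expandSpecial q M j : LaurentSeries (ResidueField A)) =
        qExpand (ResidueField A) q (jqModC (ResidueField A)) := by
      rw [coe_expandSpecial]; rfl
    rw [MulMemClass.coe_mul, SubmonoidClass.coe_pow, coe_hbar, ht, unitSeries_mul_tSeries, ← hj,
      expandSpecial_jFb, SubmonoidClass.coe_pow, SubmonoidClass.coe_pow, pow_add,
      mul_comm _ ((j : LaurentSeries (ResidueField A)) ^ 2)]
    rfl
  have ht0 : t ≠ 0 := fun h => pow_ne_zero (q + 2)
    (fun hj0 => Deuring.Modular.transcendental_jFb (k := ResidueField A) M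
      (show IsAlgebraic _ j by rw [hj0]; exact isAlgebraic_zero) : j ≠ 0)
    (by rw [← key, h, zero_pow three_ne_zero, mul_zero])
  have h := congrArg s.ord key
  rw [s.ord_mul (hbar_ne_zero S) (pow_ne_zero 3 ht0), FFBasic.ord_pow, FFBasic.ord_pow] at h
  have h3 : (3 : ℤ) ∣ s.ord j :=
    Deuring.Modular.three_dvd_ord_jFb S.good IsLocalRing.residue_surjective hE hE3 hdvd hs.1
  rw [show s.ord (hbar S) = ((q + 2 : ℕ) : ℤ) * s.ord j - ((3 : ℕ) : ℤ) * s.ord t by omega]
  exact dvd_sub (h3.mul_left _) (dvd_mul_right _ _)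

end FLTAgent.SemistableFinals
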