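import Fermat.Agent.SemistableFinals.PrincipleTame
import Fermat.Agent.SemistableSplit.SlopeNeZero
import Fermat.Agent.SemistableFinals.PrincipleWidth
import Fermat.Agent.SemistableThree.CommonFactor
import Fermat.Agent.SemistableEisenstein.NodeUnitX0
import Fermat.Agent.SemistableWild.InertiaField
import Fermat.Agent.SemistableHecke.MazurInterface
import Fermat.Agent.Semistable.Galois
import Fermat.Agent.Semistable.Divisible
import Fermat.Agent.LocalThree.TameValues

/-!
# Classes fixed by inertia at `q ≠ p` with nonzero slope have Eisenstein eigenvalues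

An element of inertia at `q` moving `q^(1/p)` fixes the class, so its slopes are proportional to the
orders of `Δ(τ)/Δ(qτ)` at the crossings divided by a common power of `p`; these are Eisenstein
(`natCast_eq_succ_of_tame`).  At `p = 3` the orders are divisible by `3` as soon as a prime
`2 (mod 3)` divides the level.  Used in `SemistableFinals.PrincipleMain`.
-/

set_option autoImplicit false

noncomputable section

open AlgebraicCurve ModularCurve IsLocalRing FLTAgent.HeckeJacobian FLTAgent.FFBasic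
open FLTAgent.Semistable FLTAgent.Semistable.Level
open FLTAgent.SemistableHecke (IsData SlopeZero)

namespace FLTAgent.SemistableFinals

open FLTAgent.Density (GalQ Qbar)

variable {A : ValuationSubring Qbar}

/-- Inertia at `q ≠ p` moves a `p`-th root of `q` by a root of unity with primitive residue. -/
theorem exists_inertia_root {p q : ℕ} [Fact p.Prime] [Fact q.Prime] (hqp : q ≠ p)
    (hA : A.LiesOverPrime q) {r : Qbar} (hr : r ^ p = (q : Qbar)) :
    ∃ σ ∈ A.inertiaSubgroupIn ℚ, ∃ h : σ r / r ∈ A,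
      IsPrimitiveRoot (residue A ⟨σ r / r, h⟩) p := by
  have hp : p.Prime := Fact.out
  have hq : q.Prime := Fact.out
  have hr0 : r ≠ 0 := fun h0 => by
    rw [h0, zero_pow hp.ne_zero] at hr
    exact hq.ne_zero (Nat.cast_eq_zero.mp hr.symm)
  have hvq : A.valuation (q : Qbar) < 1 := by
    simpa using (LocalThree.residueChar_of_liesOverPrime hq hA).lt_one
  have hvq0 : A.valuation (q : Qbar) ≠ 0 :=
    (Valuation.ne_zero_iff _).mpr (Nat.cast_ne_zero.mpr hq.ne_zero)
  obtain ⟨σ, hσ, hσr⟩ : ∃ σ ∈ A.inertiaSubgroupIn ℚ, σ r ≠ r := by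
    by_contra hc
    push Not at hc
    obtain ⟨k, hk⟩ := LocalThree.exists_val_zpow hq hA hr0 hc
    have h := congrArg (fun t => t ^ p) hk
    simp only [← map_pow, hr] at h
    have h1 : k * p = 1 := (zpow_right_strictAnti₀ (zero_lt_iff.mpr hvq0) hvq).injective (by
      show A.valuation (q : Qbar) ^ (k * p) = A.valuation (q : Qbar) ^ (1 : ℤ)
      rw [zpow_mul, zpow_natCast, zpow_one]
      exact h.symm)
    have h2 : (p : ℤ) ∣ 1 := ⟨k, by rw [← h1]; ring⟩
    exact hp.one_lt.ne' (Nat.dvd_one.mp (by exact_mod_cast h2))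
  refine ⟨σ, hσ, ?_⟩
  have hz : (σ r / r) ^ p = 1 := by
    rw [div_pow, ← map_pow, hr, map_natCast, div_self (Nat.cast_ne_zero.mpr hq.ne_zero)]
  have hmem : σ r / r ∈ A := Semistable.Eisenstein.mem_of_pow_eq_one hp.ne_zero hz
  refine ⟨hmem, ?_⟩
  have hne : σ r / r ≠ 1 := fun h1 => hσr ((div_eq_one_iff_eq hr0).mp h1)
  have hpow : residue A ⟨σ r / r, hmem⟩ ^ p = 1 := by
    rw [← map_pow, show (⟨σ r / r, hmem⟩ : A) ^ p = 1 from Subtype.ext hz, map_one]
  refine IsPrimitiveRoot.iff_orderOf.mpr (orderOf_eq_prime hpow fun h1 => ?_)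
  have := charP_residueField hA
  have hsum : ∑ i ∈ Finset.range p, (⟨σ r / r, hmem⟩ : A) ^ i = 0 := Subtype.ext (by
    push_cast
    rw [geom_sum_eq hne, hz, sub_self, zero_div])
  have h2 := congrArg (residue A) hsum
  simp only [map_sum, map_pow, h1, one_pow, map_zero, Finset.sum_const, Finset.card_range,
    nsmul_eq_mul, mul_one] at h2
  exact hqp ((Nat.prime_dvd_prime_iff_eq hq hp).mp
    ((CharP.cast_eq_zero_iff (ResidueField A) q p).mp h2))

variable {M q : ℕ} [NeZero M] [Fact q.Prime] {p : ℕ} [Fact p.Prime] [NeZero p]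
variable [IsAlgClosed (ResidueField A)] [CharP (ResidueField A) q]
variable [IsFunctionField (ResidueField A) (modularFunctionFieldFullC (ResidueField A) M)]
variable [IsFunctionField Qbar (modularFunctionFieldBar (M * q))]
variable (S : Setting M q A (residue A))
  (hk : (hbar S : LaurentSeries (ResidueField A)) ∈
    IntermediateField.adjoin (ResidueField A) {jqModC (ResidueField A)})

/-- Slopes of classes fixed by inertia are proportional to the widths divided by a common
factor. -/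
theorem exists_slope₁_tame (hA : A.LiesOverPrime q) (hp2 : p ≠ 2) (hqp : q ≠ p)
    (h3 : p = 3 → ∀ s : nodeSet S, (3 : ℤ) ∣ (node₁ S s).ord (hbar S))
    (s₀ : nodeSet S) {x : JZero (M * q)} (hx : p • x = 0)
    (hI : ∀ σ ∈ A.inertiaSubgroupIn ℚ, σ • x = x) :
    ∃ (g : ℕ) (c : ZMod p), g ≠ 0 ∧ (∀ s : nodeSet S, (g : ℤ) ∣ (node₁ S s).ord (hbar S)) ∧
      ∀ s, (pairReduction S hk).slope₁ p x s =
        c * (((node₁ S s).ord (hbar S) / (g : ℤ) : ℤ) : ZMod p) := by
  classical
  have hp : p.Prime := Fact.out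
  set U := Semistable.Eisenstein.nodeUnit S hk
  -- the common power of `p`
  have hex : ∃ n : ℕ, ∃ s : nodeSet S, ¬ ((p ^ (n + 1) : ℕ) : ℤ) ∣ U.width₁ s := by
    refine ⟨(U.width₁ s₀).natAbs, s₀, fun hd => ?_⟩
    have h1 := Int.natCast_dvd.mp hd
    have h0 : 0 < (U.width₁ s₀).natAbs := Int.natAbs_pos.mpr (U.width₁_pos s₀).ne'
    have h2 := Nat.le_of_dvd h0 h1
    have h3' := Nat.lt_pow_self (n := (U.width₁ s₀).natAbs + 1) hp.one_lt
    omega
  set n := Nat.find hex with hn
  obtain ⟨s₁, hs₁⟩ := Nat.find_spec hex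
  have hdvd : ∀ s : nodeSet S, ((p ^ n : ℕ) : ℤ) ∣ U.width₁ s := by
    intro s
    rcases Nat.eq_zero_or_pos n with h0 | h0
    · rw [h0, pow_zero, Nat.cast_one]; exact one_dvd _
    · have h1 := Nat.find_min hex (show n - 1 < Nat.find hex by omega)
      push Not at h1
      have h2 := h1 s
      rwa [Nat.sub_add_cancel h0] at h2
  have h3' : p = 3 → 0 < n := by
    intro h
    by_contra h0
    apply hs₁
    rw [show Nat.find hex = 0 by omega, zero_add, pow_one, h]
    exact_mod_cast h3 h s₁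
  -- the roots
  obtain ⟨r, hr⟩ := IsAlgClosed.exists_pow_nat_eq (q : Qbar) hp.pos
  obtain ⟨σ, hσ, hmem, hζ⟩ := exists_inertia_root hqp hA hr
  obtain ⟨ϖ, hϖ⟩ := IsAlgClosed.exists_pow_nat_eq ((q : Qbar) ^ 12)
    (Nat.mul_pos hp.pos (pow_pos hp.pos n))
  have hτ' : ∀ a : A, residue A ⟨σ a, MazurStep.inertia_mem hσ a.2⟩ =
      RingEquiv.refl (ResidueField A) (residue A a) := MazurStep.residue_inertia hσ
  set Φ := galoisMorph (hσ := fun _ => MazurStep.inertia_mem hσ) S hk hτ'
  have hbase : ∀ l : Qbar, SemilinearAut.baseAut Φ.g l = σ l := fun l => by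
    show SemilinearAut.baseAut (arithmeticGalois (modularFunctionFieldFull (M * q)) σ) l = σ l
    rw [baseAut_arithmeticGalois]; rfl
  have hD : σ ∈ A.decompositionSubgroup ℚ := (Density.mem_inertiaSubgroupIn_iff.mp hσ).1
  have hτ : ActsTrivially (residue A) (SemilinearAut.baseAut Φ.g) :=
    ⟨fun l => by rw [hbase]; exact LocalThree.val_apply Fact.out hA hD l,
      fun a b hb => by
        rw [show b = ⟨σ a, MazurStep.inertia_mem hσ a.2⟩ from
          Subtype.ext (hb.trans (hbase _))]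
        exact MazurStep.residue_inertia hσ a⟩
  have hchir : hτ.chi r = residue A ⟨σ r / r, hmem⟩ :=
    congrArg (residue A) (Subtype.ext (congrArg (· / r) (hbase r)))
  -- a power of the deep root has the value of a unit power of `r`
  obtain ⟨j, e, he, hje⟩ : ∃ j e : ℕ, ¬ p ∣ e ∧ A.valuation (ϖ ^ j) = A.valuation (r ^ e) := by
    by_cases h : p = 3
    · refine ⟨p ^ (n - 1), 4, by rw [h]; decide, ?_⟩
      refine (pow_left_inj₀ zero_le zero_le (pow_ne_zero 2 hp.ne_zero)).mp ?_
      rw [← map_pow, ← map_pow, ← pow_mul, ← pow_mul,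
        show p ^ (n - 1) * p ^ 2 = p * p ^ n by
          obtain ⟨m, hm⟩ : ∃ m, n = m + 1 := ⟨n - 1, by have := h3' h; omega⟩
          rw [hm, Nat.add_sub_cancel]; ring,
        hϖ, show 4 * p ^ 2 = p * 12 by rw [h]; norm_num, pow_mul, hr]
    · refine ⟨p ^ n, 12, fun hd => ?_, ?_⟩
      · rcases hp.dvd_mul.mp (show p ∣ 2 ^ 2 * 3 by norm_num; exact hd) with h2 | h2
        · exact hp2 ((Nat.prime_dvd_prime_iff_eq hp Nat.prime_two).mp (hp.dvd_of_dvd_pow h2))
        · exact h ((Nat.prime_dvd_prime_iff_eq hp Nat.prime_three).mp h2)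
      refine (pow_left_inj₀ zero_le zero_le hp.ne_zero).mp ?_
      rw [← map_pow, ← map_pow, ← pow_mul, ← pow_mul, mul_comm (p ^ n), hϖ, mul_comm 12,
        pow_mul, hr]
  have hr0 : r ≠ 0 := fun h0 => by
    rw [h0, zero_pow hp.ne_zero] at hr
    exact (Fact.out : q.Prime).ne_zero (Nat.cast_eq_zero.mp hr.symm)
  have hchi : ∀ a : ℤ, hτ.chi ϖ ^ a = 1 → (p : ℤ) ∣ a := by
    intro a ha
    have h1 := hτ.chi_eq_of_valuation_eq (pow_ne_zero e hr0) hje
    rw [hτ.chi_pow, hτ.chi_pow, hchir] at h1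
    have h2 : residue A ⟨σ r / r, hmem⟩ ^ ((e : ℤ) * a) = 1 := by
      rw [zpow_mul, zpow_natCast, ← h1, ← zpow_natCast, ← zpow_mul, mul_comm (j : ℤ) a, zpow_mul,
        ha, one_zpow]
    have h3 := (hζ.zpow_eq_one_iff_dvd _).mp h2
    refine ((Nat.prime_iff_prime_int.mp hp).dvd_or_dvd h3).resolve_left fun hd => he ?_
    exact_mod_cast hd
  have h1 : ∀ y : modularFunctionFieldFullC (ResidueField A) M,
      CongruenceRel.specialAut M (RingEquiv.refl (ResidueField A)) • y = y := fun y => by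
    rw [CongruenceRel.specialAut_refl, one_smul]
  have hunit : IsUnit ((U.width₁ s₁ / ((p ^ n : ℕ) : ℤ) : ℤ) : ZMod p) := by
    refine (Ne.isUnit fun h0 => hs₁ ?_)
    rw [ZMod.intCast_zmod_eq_zero_iff_dvd] at h0
    rw [pow_succ, Nat.cast_mul, ← Int.mul_ediv_cancel' (hdvd s₁)]
    exact mul_dvd_mul_left _ h0
  obtain ⟨c, hc⟩ := PairReduction.slope_congr_tame_div U (fun a b ha hb => S.arch a b ha hb) Φ h1 h1
    (galoisMorph_map_E S hk hτ') hτ (pow_pos hp.pos n) (ϖ := ϖ) (by rw [hϖ]; rfl) hchi hdvd hunit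
    hx (by show arithmeticGalois (modularFunctionFieldFull (M * q)) σ • x = x
           rw [← galois_smul_pic0_def]; exact hI σ hσ)
  exact ⟨p ^ n, c, pow_ne_zero n hp.ne_zero, hdvd, hc⟩

include S hk in
/-- Classes fixed by inertia with nonzero slope have Eisenstein eigenvalues. -/
theorem natCast_eq_succ_of_tame (hA : A.LiesOverPrime q) (hp2 : p ≠ 2) (hqp : q ≠ p)
    (h3 : p = 3 → ∃ E, E.Prime ∧ E % 3 = 2 ∧ E ∣ M) {x : JZero (M * q)} (hx : p • x = 0)
    (hI : ∀ σ ∈ A.inertiaSubgroupIn ℚ, σ • x = x) (hns : ¬ SlopeZero A p x)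
    {ℓ n : ℕ} (hℓ : ℓ.Prime) (hℓN : ¬ ℓ ∣ M * q)
    (hT : heckeOperatorBar (M * q) ⟨ℓ, hℓ⟩ x = n • x) : (n : ZMod p) = ℓ + 1 := by
  obtain ⟨s, hs⟩ := SemistableSplit.exists_slope₁_ne_zero S hk hns
  obtain ⟨g, c, hg, hgw, hc⟩ := exists_slope₁_tame S hk hA hp2 hqp (fun h t => by
    obtain ⟨E, hE, hE3, hd⟩ := h3 h
    exact three_dvd_ord_hbar S hE hE3 hd t.2) s hx hI
  have h := Semistable.Eisenstein.slope₁_hecke_div S hk hℓ hℓN hx hg hgw hc s
  obtain ⟨T, hTc⟩ := (pairReduction S hk).exists_torsionData hx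
  have hn : (T.npow n).cls = n • x := by rw [← hTc]; rfl
  rw [hT, PairReduction.slope₁_eq hn, T.bar_npow, Prod.pow_fst, FFBasic.ord_pow, Int.cast_mul,
    Int.cast_natCast, ← PairReduction.slope₁_eq hTc] at h
  exact mul_right_cancel₀ hs h

end FLTAgent.SemistableFinals
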