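import Fermat.Agent.SemistableNodes.Tame

/-!
# Slopes of classes fixed by a tame automorphism

`slope_congr_tame_div`: a class fixed by an automorphism moving a deeper root of the node constant
tamely has slopes proportional to the widths divided by a common factor.  Used in
`SemistableFinals.PrincipleSlope`.
-/

set_option autoImplicit false

noncomputable section

open AlgebraicCurve FLTAgent.FFRiemannRoch FLTAgent.FFBasic

namespace FLTAgent.Semistable.PairReduction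

variable {L k : Type*} [Field L] [Field k] {A : ValuationSubring L} {π : A →+* k}
variable {F F₁ F₂ : Type*} [Field F] [Field F₁] [Field F₂]
  [Algebra L F] [Algebra k F₁] [Algebra k F₂] {ι : Type*} [Fintype ι]
variable [IsAlgClosed k] [IsFunctionField k F₁] [IsFunctionField k F₂]
  [IsAlgClosed L] [IsFunctionField L F]
variable {C : PairReduction A π F F₁ F₂ ι} {m : ℕ} {τ : L ≃+* L}

/-- A class fixed by a morphism moving an `m d`-th root of the node constant by a root of unity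
whose order is divisible by `m`, where `d` divides all the widths, has slopes proportional to the
widths divided by `d`. -/
theorem slope_congr_tame_div [NeZero m] (U : NodeUnit C) (harch : Arch π) (Φ : Morph C C)
    (h₁ : ∀ a, Φ.σ₁ a = a) (h₂ : ∀ a, Φ.σ₂ a = a) (hE : Φ.g • C.E = C.E)
    (hτ : ActsTrivially π (SemilinearAut.baseAut Φ.g)) {d : ℕ} (hd : 0 < d)
    {ϖ : L} (hϖ : A.valuation (ϖ ^ (m * d)) = A.valuation U.Q)
    (hζ : ∀ a : ℤ, hτ.chi ϖ ^ a = 1 → (m : ℤ) ∣ a)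
    (hdw : ∀ s, (d : ℤ) ∣ U.width₁ s) {s₁ : ι}
    (hs₁ : IsUnit ((U.width₁ s₁ / (d : ℤ) : ℤ) : ZMod m))
    {x : Pic0 L F} (hx : m • x = 0) (hfix : Φ.g • x = x) :
    ∃ a : ZMod m, ∀ s, C.slope₁ m x s = a * ((U.width₁ s / (d : ℤ) : ℤ) : ZMod m) := by
  have hm := NeZero.pos m
  obtain ⟨T, hT⟩ := C.exists_torsionData hx
  obtain ⟨v, hv0, hvord, hvf⟩ := T.exists_comparison Φ hm (by rw [hT, hfix])
  have hmap := Φ.red_map T.mem
  have hmem := Φ.mem_map T.mem
  simp only [h₁, h₂] at hmap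
  obtain ⟨hv₁, δ₁, hδ₁, hvr₁⟩ := TorsionData.red_comparison C.b₁ C.π_surj hm hv0 hvf T.mem.1
    T.ne₁ hmem.1 (congrArg Prod.fst hmap) (hτ.valuation_eq T.c.1)
  obtain ⟨hv₂, δ₂, hδ₂, hvr₂⟩ := TorsionData.red_comparison C.b₂ C.π_surj hm hv0 hvf T.mem.2
    T.ne₂ hmem.2 (congrArg Prod.snd hmap) (hτ.valuation_eq T.c.2)
  obtain ⟨γ, hγ⟩ := IsAlgClosed.exists_pow_nat_eq (T.c.2 / T.c.1) hm
  have key : ∀ s, (δ₂ / δ₁ * hτ.chi γ) ^ (U.width₁ s / (d : ℤ))
      = hτ.chi ϖ ^ (-(C.node₁ s).ord T.bar.1) := by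
    intro s
    obtain ⟨N, hN⟩ : ∃ N : ℕ, U.width₁ s = N :=
      ⟨_, (Int.toNat_of_nonneg (U.width₁_pos s).le).symm⟩
    have hpos := U.width₁_pos s
    have hb : 0 < N := by omega
    set z := -(C.node₁ s).ord T.bar.1 with hz
    obtain ⟨g, hg₁, hg₂, hbal⟩ := T.exists_balanced U hm hb z
    obtain ⟨n₀, hn₀⟩ := T.exists_exact U harch hb z
    obtain ⟨u, hu, hug, hu₁, hu₂⟩ := (hn₀ n₀ le_rfl s).2 (by
      rw [show T.low₁ U N z s = 0 by rw [TorsionData.low₁, hN, hz]; ring]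
      exact dvd_zero _) g hg₁ hg₂ hbal
    -- the moved function, compared at the scales `g`
    set G := Φ.base g with hG
    have hG₁ : A.valuation g.1 = A.valuation G.1 := (hτ.valuation_eq g.1).symm
    have hG₂ : A.valuation g.2 = A.valuation G.2 := (hτ.valuation_eq g.2).symm
    have hG₁0 : G.1 ≠ 0 := (map_ne_zero _).mpr hg₁
    have hG₂0 : G.2 ≠ 0 := (map_ne_zero _).mpr hg₂
    set u' := Φ.g • u * v with hu'
    have hm' : C.Mem (G * (1, 1)) u' := (Φ.mem_map hug).mul ⟨hv₁, hv₂⟩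
    have hr' : C.red (G * (1, 1)) u'
        = ((C.red g u).1 * algebraMap k F₁ δ₁, (C.red g u).2 * algebraMap k F₂ δ₂) := by
      rw [red_mul (Φ.mem_map hug) ⟨hv₁, hv₂⟩, Φ.red_map hug, h₁, h₂]
      refine Prod.ext ?_ ?_
      · show (C.red g u).1 * C.b₁.red 1 v = _
        rw [hvr₁]
      · show (C.red g u).2 * C.b₂.red 1 v = _
        rw [hvr₂]
    rw [show G * (1, 1) = G from mul_one G] at hm' hr'
    have hgm : C.Mem g u' := ⟨C.b₁.mem_of_le hG₁0 hG₁.le hm'.1, C.b₂.mem_of_le hG₂0 hG₂.le hm'.2⟩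
    have hchi₁ : π ⟨g.1 / G.1, div_mem_of_valuation_le hG₁0 hG₁.le⟩ = (hτ.chi g.1)⁻¹ := by
      refine eq_inv_of_mul_eq_one_left ?_
      rw [ActsTrivially.chi, ← map_mul, ← map_one π]
      exact congrArg π (Subtype.ext (by
        show g.1 / G.1 * (SemilinearAut.baseAut Φ.g g.1 / g.1) = 1
        show g.1 / SemilinearAut.baseAut Φ.g g.1 * _ = 1
        have : SemilinearAut.baseAut Φ.g g.1 ≠ 0 := hG₁0
        field_simp))
    have hchi₂ : π ⟨g.2 / G.2, div_mem_of_valuation_le hG₂0 hG₂.le⟩ = (hτ.chi g.2)⁻¹ := by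
      refine eq_inv_of_mul_eq_one_left ?_
      rw [ActsTrivially.chi, ← map_mul, ← map_one π]
      exact congrArg π (Subtype.ext (by
        show g.2 / G.2 * (SemilinearAut.baseAut Φ.g g.2 / g.2) = 1
        show g.2 / SemilinearAut.baseAut Φ.g g.2 * _ = 1
        have : SemilinearAut.baseAut Φ.g g.2 ≠ 0 := hG₂0
        field_simp))
    have e₁ : (C.red g u').1 = (δ₁ * (hτ.chi g.1)⁻¹) • (C.red g u).1 := by
      show C.b₁.red g.1 u' = _
      rw [C.b₁.red_eq_smul_of_le hG₁0 hG₁.le hm'.1, hchi₁,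
        show C.b₁.red G.1 u' = _ from congrArg Prod.fst hr', mul_comm δ₁, mul_smul,
        mul_comm (C.red g u).1, ← Algebra.smul_def]
    have e₂ : (C.red g u').2 = (δ₂ * (hτ.chi g.2)⁻¹) • (C.red g u).2 := by
      show C.b₂.red g.2 u' = _
      rw [C.b₂.red_eq_smul_of_le hG₂0 hG₂.le hm'.2, hchi₂,
        show C.b₂.red G.2 u' = _ from congrArg Prod.snd hr', mul_comm δ₂, mul_smul,
        mul_comm (C.red g u).2, ← Algebra.smul_def]
    have hu'r : u' ∈ riemannRochSpace (T.D + n₀ • C.E) := by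
      have h := SemistableHecke.smul_mem_riemannRochSpace Φ.g hu
      rw [smul_add, smul_comm Φ.g n₀ C.E, hE] at h
      rw [mem_riemannRochSpace_iff] at h ⊢
      intro P
      rcases eq_or_ne (Φ.g • u) 0 with h0 | h0
      · exact Or.inl (by rw [hu', h0, zero_mul])
      right
      have := (h P).resolve_left h0
      rw [hu', P.ord_mul h0 hv0, hvord P]
      simp only [Finsupp.add_apply] at this ⊢
      omega
    obtain ⟨a, ha⟩ := C.π_surj (δ₁ * (hτ.chi g.1)⁻¹)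
    set w := u' - (a : L) • u with hw
    have hwm : C.Mem g w := hgm.sub (hug.smul a)
    have hw₁ : (C.red g w).1 = 0 := by
      rw [hw, red_sub hgm (hug.smul a), Prod.fst_sub, e₁, red_smul hug, Prod.smul_fst, ha, sub_self]
    have hw₂ : (C.red g w).2
        = (δ₂ * (hτ.chi g.2)⁻¹ - δ₁ * (hτ.chi g.1)⁻¹) • (C.red g u).2 := by
      rw [hw, red_sub hgm (hug.smul a), Prod.snd_sub, e₂, red_smul hug, Prod.smul_snd, ha, sub_smul]
    have hzero : δ₂ * (hτ.chi g.2)⁻¹ - δ₁ * (hτ.chi g.1)⁻¹ = 0 := by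
      by_contra hne
      refine ((T.node_bounds U hm hb hg₁ hg₂ hbal
        (Submodule.sub_mem _ hu'r (Submodule.smul_mem _ _ hu)) hwm s).2.2.mpr ⟨?_, ?_⟩).1 hw₁
      · rw [hw₂]; exact smul_ne_zero hne hu₂.1
      · rw [hw₂, FFBasic.ord_smul_const _ hne]; exact hu₂.2
    have hρ : δ₂ / δ₁ = hτ.chi g.2 / hτ.chi g.1 := by
      have c₁ := hτ.chi_ne_zero hg₁
      have c₂ := hτ.chi_ne_zero hg₂
      field_simp at hzero ⊢
      linear_combination hzero
    -- the balance, one root extracted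
    obtain ⟨n, hn⟩ : d ∣ N := by
      have := hdw s
      rw [hN] at this
      exact_mod_cast this
    have hvv : A.valuation ((g.2 ^ m * T.c.2) ^ N)
        = A.valuation ((g.1 ^ m * T.c.1) ^ N * U.Q ^ z) := hbal
    have hpow : A.valuation ((g.2 / g.1 * γ) ^ n) ^ (m * d) = A.valuation (ϖ ^ z) ^ (m * d) := by
      rw [← map_pow, ← map_pow, ← pow_mul, show n * (m * d) = m * N by rw [hn]; ring, pow_mul,
        mul_pow, hγ]
      rw [show (ϖ ^ z) ^ (m * d) = (ϖ ^ (m * d)) ^ z by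
        rw [← zpow_natCast, ← zpow_natCast, ← zpow_mul, ← zpow_mul, mul_comm], map_zpow₀, hϖ,
        ← map_zpow₀]
      have hd₁ : g.1 ^ m * T.c.1 ≠ 0 := mul_ne_zero (pow_ne_zero m hg₁) T.c_ne₁
      rw [show (g.2 / g.1) ^ m * (T.c.2 / T.c.1) = g.2 ^ m * T.c.2 / (g.1 ^ m * T.c.1) by
        rw [div_pow, div_mul_div_comm], div_pow, map_div₀, hvv, map_mul,
        mul_div_cancel_left₀ _ ((Valuation.ne_zero_iff _).mpr (pow_ne_zero N hd₁))]
    have hϖ0 : ϖ ≠ 0 := by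
      intro h0
      rw [h0, zero_pow (mul_pos hm hd).ne', map_zero] at hϖ
      exact U.Q_ne ((map_eq_zero A.valuation).mp hϖ.symm)
    have hveq := (pow_left_inj₀ zero_le zero_le (mul_pos hm hd).ne').mp hpow
    have h := hτ.chi_eq_of_valuation_eq (zpow_ne_zero z hϖ0) hveq
    rw [hτ.chi_pow, hτ.chi_zpow, hτ.chi_mul, div_eq_mul_inv g.2, hτ.chi_mul, hτ.chi_inv,
      ← div_eq_mul_inv, ← hρ] at h
    rw [hN, hn, Nat.cast_mul, Int.mul_ediv_cancel_left _ (Int.natCast_ne_zero.mpr hd.ne'),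
      zpow_natCast]
    exact h
  set κ := δ₂ / δ₁ * hτ.chi γ
  have hne : hτ.chi ϖ ≠ 0 := hτ.chi_ne_zero (by
    rintro rfl
    rw [zero_pow (mul_pos hm hd).ne', map_zero] at hϖ
    exact U.Q_ne ((map_eq_zero A.valuation).mp hϖ.symm))
  obtain ⟨w, hw⟩ := hs₁
  refine ⟨((C.node₁ s₁).ord T.bar.1 : ZMod m) * (↑w⁻¹ : ZMod m), fun s => ?_⟩
  have h' : hτ.chi ϖ ^ (-(C.node₁ s).ord T.bar.1 * (U.width₁ s₁ / (d : ℤ))
      - -(C.node₁ s₁).ord T.bar.1 * (U.width₁ s / (d : ℤ))) = 1 := by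
    rw [zpow_sub₀ hne, zpow_mul, zpow_mul, ← key, ← key, ← zpow_mul, ← zpow_mul,
      mul_comm (U.width₁ s / (d : ℤ)), div_self]
    have hκ : κ ≠ 0 := mul_ne_zero (div_ne_zero hδ₂ hδ₁) (hτ.chi_ne_zero fun h0 => by
      rw [h0, zero_pow hm.ne'] at hγ
      exact div_ne_zero T.c_ne₂ T.c_ne₁ hγ.symm)
    exact zpow_ne_zero _ hκ
  have h2 := (ZMod.intCast_zmod_eq_zero_iff_dvd _ m).mpr (hζ _ h')
  simp only [Int.cast_sub, Int.cast_mul, Int.cast_neg, ← hw] at h2
  rw [slope₁_eq hT]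
  linear_combination (-(↑w⁻¹ : ZMod m)) * h2 -
    ((C.node₁ s).ord T.bar.1 : ZMod m) * (w.inv_mul : (↑w⁻¹ : ZMod m) * w = 1)

end FLTAgent.Semistable.PairReduction
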